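import Mathlib

set_option autoImplicit false

namespace Fermat.Agent.ES

open UpperHalfPlane Filter Topology
open scoped MatrixGroups Manifold

/-- Division lemma: if the zeros of `D` are simple and contained in the zeros of `f`, then
`D` divides `f` in the ring of holomorphic functions on the upper half plane. -/
theorem hol_div {f D : ℍ → ℂ} (hf : MDiff f) (hD : MDiff D)
    (h : ∀ z : ℍ, D z = 0 → f z = 0 ∧ deriv (D ∘ ofComplex) z ≠ 0) :
    ∃ g : ℍ → ℂ, MDiff g ∧ ∀ z, f z = D z * g z := by
  classical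
  refine ⟨fun z => if D z = 0 then deriv (f ∘ ofComplex) z / deriv (D ∘ ofComplex) z
    else f z / D z, ?_, ?_⟩
  swap
  · intro z
    by_cases hz : D z = 0
    · simp [hz, (h z hz).1]
    · simp only [hz, if_false]; field_simp
  intro τ
  rw [UpperHalfPlane.mdifferentiableAt_iff]
  have hfd := UpperHalfPlane.mdifferentiable_iff.mp hf
  have hDd := UpperHalfPlane.mdifferentiable_iff.mp hD
  have hU : {z : ℂ | 0 < z.im} ∈ 𝓝 (τ : ℂ) := isOpen_upperHalfPlaneSet.mem_nhds τ.im_pos
  by_cases hτ : D τ = 0
  · -- zero of D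
    obtain ⟨hfτ, hD'⟩ := h τ hτ
    have hf1 : DifferentiableOn ℂ (dslope (f ∘ ofComplex) τ) {z : ℂ | 0 < z.im} :=
      (Complex.differentiableOn_dslope hU).mpr hfd
    have hD1 : DifferentiableOn ℂ (dslope (D ∘ ofComplex) τ) {z : ℂ | 0 < z.im} :=
      (Complex.differentiableOn_dslope hU).mpr hDd
    have hD1τ : dslope (D ∘ ofComplex) τ τ ≠ 0 := by rwa [dslope_same]
    have hD1c : ContinuousAt (dslope (D ∘ ofComplex) τ) τ := (hD1.differentiableAt hU).continuousAt
    have hq : DifferentiableAt ℂ (fun z => dslope (f ∘ ofComplex) τ z / dslope (D ∘ ofComplex) τ z) τ :=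
      (hf1.differentiableAt hU).div (hD1.differentiableAt hU) hD1τ
    refine hq.congr_of_eventuallyEq ?_
    filter_upwards [hD1c.eventually_ne hD1τ, hU] with z hz1 hz2
    have hz2' : 0 < z.im := hz2
    by_cases hzτ : z = τ
    · subst hzτ
      simp only [Function.comp_apply, ofComplex_apply, hτ, if_true, dslope_same]
    · have e1 : dslope (f ∘ ofComplex) τ z = (z - τ)⁻¹ * f (ofComplex z) := by
        rw [dslope_of_ne _ hzτ, slope_def_field]
        simp [hfτ]; ring
      have e2 : dslope (D ∘ ofComplex) τ z = (z - τ)⁻¹ * D (ofComplex z) := by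
        rw [dslope_of_ne _ hzτ, slope_def_field]
        simp [hτ]; ring
      have hzτ' : (z - τ)⁻¹ ≠ 0 := inv_ne_zero (sub_ne_zero.mpr hzτ)
      have hDz : D (ofComplex z) ≠ 0 := by
        intro h0
        apply hz1
        rw [e2, h0, mul_zero]
      simp only [Function.comp_apply, hDz, if_false]
      rw [e1, e2]
      field_simp
  · have hDc : ContinuousAt (D ∘ ofComplex) τ := (hDd.differentiableAt hU).continuousAt
    have hDτ : (D ∘ ofComplex) τ ≠ 0 := by simpa using hτ
    have hq : DifferentiableAt ℂ (fun z => (f ∘ ofComplex) z / (D ∘ ofComplex) z) τ :=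
      (hfd.differentiableAt hU).div (hDd.differentiableAt hU) hDτ
    refine hq.congr_of_eventuallyEq ?_
    filter_upwards [hDc.eventually_ne hDτ] with z hz1
    have : D (ofComplex z) ≠ 0 := hz1
    simp [this]

end Fermat.Agent.ES
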