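import Mathlib
import Fermat.Agent.ES.Hol

set_option autoImplicit false

namespace Fermat.Agent.ES

open UpperHalfPlane Filter Topology ModularForm Matrix.SpecialLinearGroup
open scoped MatrixGroups Manifold

lemma bdd_mul {f g : ℍ → ℂ} (hf : IsBoundedAtImInfty f) (hg : IsBoundedAtImInfty g) :
    IsBoundedAtImInfty (f * g) := by
  have := Filter.BoundedAtFilter.mul hf hg
  simpa [IsBoundedAtImInfty] using this

/-- Level one modular forms of weight `k`, as an unbundled predicate on functions. -/
structure IsLevelOne (k : ℤ) (A : ℍ → ℂ) : Prop where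
  holo : MDiff A
  slash : ∀ g : SL(2, ℤ), A ∣[k] g = A
  bdd : IsBoundedAtImInfty A

/-- Vector valued modular forms for the permutation representation attached to a `SL(2,ℤ)`-set. -/
structure IsVForm {X : Type*} [MulAction SL(2, ℤ) X] (k : ℤ) (F : X → ℍ → ℂ) : Prop where
  holo : ∀ x, MDiff (F x)
  slash : ∀ x (g : SL(2, ℤ)), F x ∣[k] g = F (g⁻¹ • x)
  bdd : ∀ x, IsBoundedAtImInfty (F x)

namespace IsLevelOne

variable {k l : ℤ} {A B : ℍ → ℂ}

/-- the bundled modular form. -/
noncomputable def toModularForm (hA : IsLevelOne k A) : ModularForm 𝒮ℒ k where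
  toFun := A
  slash_action_eq' := by
    rintro γ ⟨g, rfl⟩
    exact hA.slash g
  holo' := hA.holo
  bdd_at_cusps' := by
    intro c hc
    rw [OnePoint.isBoundedAt_iff_forall_SL2Z hc]
    intro γ _
    show IsBoundedAtImInfty (A ∣[k] γ)
    rw [hA.slash γ]
    exact hA.bdd

@[simp] lemma coe_toModularForm (hA : IsLevelOne k A) : (hA.toModularForm : ℍ → ℂ) = A := rfl

lemma of_modularForm (f : ModularForm 𝒮ℒ k) : IsLevelOne k f where
  holo := f.holo'
  slash g := f.slash_action_eq' _ ⟨g, rfl⟩
  bdd := ModularFormClass.bdd_at_infty f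

lemma of_cuspForm (f : CuspForm 𝒮ℒ k) : IsLevelOne k f where
  holo := f.holo'
  slash g := f.slash_action_eq' _ ⟨g, rfl⟩
  bdd := ModularFormClass.bdd_at_infty f

lemma apply_smul (hA : IsLevelOne k A) (g : SL(2, ℤ)) (z : ℍ) :
    A (g • z) = denom g z ^ k * A z := by
  have := congrFun (hA.slash g) z
  rw [ModularForm.SL_slash_apply] at this
  rw [← this, zpow_neg]
  field_simp [zpow_ne_zero k (denom_ne_zero g z)]

lemma mul (hA : IsLevelOne k A) (hB : IsLevelOne l B) : IsLevelOne (k + l) (A * B) where
  holo := hA.holo.mul hB.holo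
  slash g := by rw [ModularForm.mul_slash_SL2, hA.slash, hB.slash]
  bdd := bdd_mul hA.bdd hB.bdd

lemma one : IsLevelOne 0 (1 : ℍ → ℂ) := of_modularForm (1 : ModularForm 𝒮ℒ 0)

lemma const (c : ℂ) : IsLevelOne 0 (fun _ => c : ℍ → ℂ) :=
  of_modularForm (ModularForm.const c : ModularForm 𝒮ℒ 0)

lemma pow (hA : IsLevelOne k A) (n : ℕ) : IsLevelOne (n * k) (A ^ n) := by
  induction n with
  | zero => simpa using one
  | succ n ih =>
    rw [pow_succ]
    have := ih.mul hA
    convert this using 1
    push_cast; ring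

lemma add (hA : IsLevelOne k A) (hB : IsLevelOne k B) : IsLevelOne k (A + B) :=
  of_modularForm (hA.toModularForm + hB.toModularForm)

lemma sub (hA : IsLevelOne k A) (hB : IsLevelOne k B) : IsLevelOne k (A - B) :=
  of_modularForm (hA.toModularForm - hB.toModularForm)

lemma smul (c : ℂ) (hA : IsLevelOne k A) : IsLevelOne k (c • A) :=
  of_modularForm (c • hA.toModularForm)

lemma zero : IsLevelOne k (0 : ℍ → ℂ) := of_modularForm (0 : ModularForm 𝒮ℒ k)

lemma eq_zero_of_neg (hA : IsLevelOne k A) (hk : k < 0) : A = 0 := by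
  exact ModularFormClass.levelOne_neg_weight_eq_zero hk hA.toModularForm

lemma eq_const (hA : IsLevelOne 0 A) : ∃ c : ℂ, A = fun _ => c :=
  ModularFormClass.levelOne_weight_zero_const hA.toModularForm

lemma eq_zero_of_odd (hA : IsLevelOne k A) (hk : Odd k) : A = 0 := by
  have := ModularForm.levelOne_odd_weight_eq_zero hk hA.toModularForm
  have h2 := congrArg (fun f : ModularForm 𝒮ℒ k => (f : ℍ → ℂ)) this
  simpa using h2

lemma eq_zero_of_two (hA : IsLevelOne 2 A) : A = 0 := by
  have h0 := ModularForm.levelOne_weight_two_rank_zero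
  have h1 := rank_zero_iff.mp h0
  have := h1.elim hA.toModularForm 0
  have h2 := congrArg (fun f : ModularForm 𝒮ℒ 2 => (f : ℍ → ℂ)) this
  simpa using h2

lemma cast (hA : IsLevelOne k A) (h : k = l) : IsLevelOne l A := h ▸ hA

lemma periodic (hA : IsLevelOne k A) : Function.Periodic (A ∘ ofComplex) 1 := by
  have := SlashInvariantFormClass.periodic_comp_ofComplex (hA.toModularForm) (Γ := 𝒮ℒ)
    one_mem_strictPeriods_SL
  simpa using this

end IsLevelOne

namespace IsVForm

variable {X : Type*} [MulAction SL(2, ℤ) X] {k l : ℤ} {F G : X → ℍ → ℂ} {A : ℍ → ℂ}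

lemma apply_smul (hF : IsVForm k F) (g : SL(2, ℤ)) (x : X) (z : ℍ) :
    F x (g • z) = denom g z ^ k * F (g⁻¹ • x) z := by
  have := congrFun (hF.slash x g) z
  rw [ModularForm.SL_slash_apply] at this
  rw [← this, zpow_neg]
  field_simp [zpow_ne_zero k (denom_ne_zero g z)]

lemma smulLevelOne (hA : IsLevelOne k A) (hF : IsVForm l F) :
    IsVForm (k + l) (fun x => A * F x) where
  holo x := hA.holo.mul (hF.holo x)
  slash x g := by rw [ModularForm.mul_slash_SL2, hA.slash, hF.slash]
  bdd x := bdd_mul hA.bdd (hF.bdd x)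

lemma cast (hF : IsVForm k F) (h : k = l) : IsVForm l F := h ▸ hF

lemma zero : IsVForm k (0 : X → ℍ → ℂ) where
  holo _ := (IsLevelOne.zero (k := k)).holo
  slash _ g := by simp
  bdd _ := (IsLevelOne.zero (k := k)).bdd

lemma add (hF : IsVForm k F) (hG : IsVForm k G) : IsVForm k (F + G) where
  holo x := (hF.holo x).add (hG.holo x)
  slash x g := by
    simp only [Pi.add_apply]
    rw [SlashAction.add_slash, hF.slash, hG.slash]
  bdd x := (hF.bdd x).add (hG.bdd x)

lemma smul (c : ℂ) (hF : IsVForm k F) : IsVForm k (c • F) where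
  holo x := (hF.holo x).const_smul c
  slash x g := by
    simp only [Pi.smul_apply]
    rw [ModularForm.SL_smul_slash, hF.slash]
  bdd x := (hF.bdd x).const_smul_left c

lemma sum {ι : Type*} (s : Finset ι) (P : ι → X → ℍ → ℂ) (hP : ∀ i ∈ s, IsVForm k (P i)) :
    IsVForm k (∑ i ∈ s, P i) := by
  classical
  induction s using Finset.induction_on with
  | empty => simpa using zero
  | insert i s hi ih =>
    rw [Finset.sum_insert hi]
    exact (hP i (Finset.mem_insert_self i s)).add
      (ih fun j hj => hP j (Finset.mem_insert_of_mem hj))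

/-- The trivial vector valued form of weight zero. -/
lemma one : IsVForm 0 (fun (_ : X) => (1 : ℍ → ℂ)) where
  holo _ := IsLevelOne.one.holo
  slash _ g := IsLevelOne.one.slash g
  bdd _ := IsLevelOne.one.bdd

/-- the norm to level one -/
lemma norm [Fintype X] (hF : IsVForm k F) :
    IsLevelOne (k * Fintype.card X) (∏ x, F x) where
  holo := by
    have : ∀ s : Finset X, MDiff (∏ x ∈ s, F x) := by
      classical
      intro s
      induction s using Finset.induction_on with
      | empty => simpa using IsLevelOne.one.holo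
      | insert i s hi ih => rw [Finset.prod_insert hi]; exact (hF.holo i).mul ih
    exact this _
  slash g := by
    have h1 := ModularForm.prod_slash (g := (g : GL (Fin 2) ℝ)) (f := F) (k := k)
      (s := Finset.univ)
    rw [Finset.card_univ] at h1
    rw [ModularForm.SL_slash, h1]
    have hdet : |((g : GL (Fin 2) ℝ).det.val)| = 1 := by simp
    rw [hdet, one_zpow, one_smul]
    have : ∀ x, F x ∣[k] (g : GL (Fin 2) ℝ) = F (g⁻¹ • x) := fun x => hF.slash x g
    simp only [this]
    exact (MulAction.bijective (g⁻¹)).prod_comp (fun x => F x)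
  bdd := by
    have : ∀ s : Finset X, IsBoundedAtImInfty (∏ x ∈ s, F x) := by
      classical
      intro s
      induction s using Finset.induction_on with
      | empty => simpa using IsLevelOne.one.bdd
      | insert i s hi ih =>
        rw [Finset.prod_insert hi]
        exact bdd_mul (hF.bdd i) ih
    exact this _

/-- the trace to level one -/
lemma trace [Fintype X] (hF : IsVForm k F) :
    IsLevelOne k (∑ x, F x) where
  holo := by
    have : ∀ s : Finset X, MDiff (∑ x ∈ s, F x) := by
      classical
      intro s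
      induction s using Finset.induction_on with
      | empty => simpa using (IsLevelOne.zero (k := k)).holo
      | insert i s hi ih => rw [Finset.sum_insert hi]; exact (hF.holo i).add ih
    exact this _
  slash g := by
    rw [SlashAction.sum_slash]
    simp only [hF.slash]
    exact (MulAction.bijective (g⁻¹)).sum_comp (fun x => F x)
  bdd := by
    have : ∀ s : Finset X, IsBoundedAtImInfty (∑ x ∈ s, F x) := by
      classical
      intro s
      induction s using Finset.induction_on with
      | empty => simpa using (IsLevelOne.zero (k := k)).bdd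
      | insert i s hi ih =>
        rw [Finset.sum_insert hi]
        exact (hF.bdd i).add ih
    exact this _

lemma eq_zero_of_exists [MulAction.IsPretransitive SL(2, ℤ) X] (hF : IsVForm k F)
    (h : ∃ x, F x = 0) : F = 0 := by
  obtain ⟨x, hx⟩ := h
  funext y
  obtain ⟨g, hg⟩ := MulAction.exists_smul_eq SL(2, ℤ) x y
  have := hF.slash x g⁻¹
  rw [hx, inv_inv, hg, SlashAction.zero_slash] at this
  exact this.symm

lemma eq_zero_of_prod [Fintype X] [MulAction.IsPretransitive SL(2, ℤ) X] (hF : IsVForm k F)
    (h : ∏ x, F x = 0) : F = 0 := by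
  rw [UpperHalfPlane.prod_eq_zero_iff (fun i _ => hF.holo i)] at h
  obtain ⟨x, _, hx⟩ := h
  exact hF.eq_zero_of_exists ⟨x, hx⟩

lemma eq_zero_of_neg [Fintype X] [Nonempty X] [MulAction.IsPretransitive SL(2, ℤ) X]
    (hF : IsVForm k F) (hk : k < 0) : F = 0 := by
  apply hF.eq_zero_of_prod
  apply hF.norm.eq_zero_of_neg
  exact mul_neg_of_neg_of_pos hk (by exact_mod_cast Fintype.card_pos)

/-- A cuspidal form of weight zero vanishes. -/
lemma eq_zero_of_zero [Fintype X] [Nonempty X] [MulAction.IsPretransitive SL(2, ℤ) X]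
    (hF : IsVForm 0 F) (hz : ∀ x, IsZeroAtImInfty (F x)) : F = 0 := by
  apply hF.eq_zero_of_prod
  have h1 : IsLevelOne 0 (∏ x, F x) := hF.norm.cast (by simp)
  obtain ⟨c, hc⟩ := h1.eq_const
  have hx0 : Nonempty X := inferInstance
  obtain ⟨x0⟩ := hx0
  have h2 : IsZeroAtImInfty (∏ x, F x) := by
    classical
    rw [← Finset.mul_prod_erase _ _ (Finset.mem_univ x0)]
    have hb : ∀ s : Finset X, IsBoundedAtImInfty (∏ x ∈ s, F x) := by
      intro s
      induction s using Finset.induction_on with
      | empty => simpa using IsLevelOne.one.bdd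
      | insert i s hi ih =>
        rw [Finset.prod_insert hi]
        exact bdd_mul (hF.bdd i) ih
    exact (hz x0).mul_boundedAtFilter (hb _)
  rw [hc] at h2 ⊢
  have h3 : Tendsto (fun _ : ℍ => c) atImInfty (𝓝 0) := h2
  have h4 : c = 0 := tendsto_nhds_unique tendsto_const_nhds h3
  rw [h4]; rfl

lemma eq_zero_of_odd (hF : IsVForm k F) (hk : Odd k) (hneg : ∀ x : X, (-1 : SL(2, ℤ)) • x = x) :
    F = 0 := by
  funext x z
  have h1 := hF.apply_smul (-1) x z
  have h2 : ((-1 : SL(2, ℤ)) • z) = z := by simp
  have h3 : ((-1 : SL(2, ℤ))⁻¹ • x) = x := by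
    rw [inv_smul_eq_iff, hneg]
  rw [h2, h3] at h1
  have h4 : denom ((-1 : SL(2, ℤ)) : GL (Fin 2) ℝ) z = -1 := by
    simp [denom]
  rw [h4, hk.neg_one_zpow] at h1
  have : (2 : ℂ) * F x z = 0 := by linear_combination h1
  simpa using this

end IsVForm

end Fermat.Agent.ES
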