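import Mathlib
import Fermat.Agent.ES.VForm

set_option autoImplicit false

namespace Fermat.Agent.ES

open UpperHalfPlane Filter Topology ModularForm Matrix.SpecialLinearGroup ModularGroup
open scoped MatrixGroups Manifold

lemma IsLevelOne.tendsto {k : ℤ} {A : ℍ → ℂ} (hA : IsLevelOne k A) :
    Tendsto A atImInfty (𝓝 (valueAtInfty A)) := by
  have h1 : AnalyticAt ℂ (cuspFunction 1 A) 0 :=
    analyticAt_cuspFunction_zero one_pos (by simpa using hA.periodic) hA.holo hA.bdd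
  have h2 : (cuspFunction 1 A ∘ fun τ : ℍ ↦ Function.Periodic.qParam 1 τ : ℍ → ℂ) = A := by
    funext τ
    exact eq_cuspFunction τ one_ne_zero (by simpa using hA.periodic)
  have h3 := h1.continuousAt.tendsto.comp (qParam_tendsto_atImInfty one_pos)
  rw [h2, cuspFunction_apply_zero one_pos h1 (by simpa using hA.periodic)] at h3
  exact h3

lemma tendsto_of_coeff_zero {k : ℤ} (f : ModularForm 𝒮ℒ k) :
    Tendsto (f : ℍ → ℂ) atImInfty (𝓝 ((qExpansion 1 f).coeff 0)) := by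
  have hA := IsLevelOne.of_modularForm f
  have h1 : AnalyticAt ℂ (cuspFunction 1 f) 0 :=
    analyticAt_cuspFunction_zero one_pos (by simpa using hA.periodic) hA.holo hA.bdd
  rw [UpperHalfPlane.qExpansion_coeff_zero one_pos h1 (by simpa using hA.periodic)]
  exact hA.tendsto

lemma tendsto_E4 : Tendsto (E₄ : ℍ → ℂ) atImInfty (𝓝 1) := by
  have := tendsto_of_coeff_zero E₄
  rwa [EisensteinSeries.E_qExpansion_coeff_zero _ ⟨2, rfl⟩] at this

lemma tendsto_E6 : Tendsto (E₆ : ℍ → ℂ) atImInfty (𝓝 1) := by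
  have := tendsto_of_coeff_zero E₆
  rwa [EisensteinSeries.E_qExpansion_coeff_zero _ ⟨3, rfl⟩] at this

lemma tendsto_disc : Tendsto discriminant atImInfty (𝓝 0) := discriminant_isZeroAtImInfty

lemma isLevelOne_E4 : IsLevelOne 4 (E₄ : ℍ → ℂ) := IsLevelOne.of_modularForm E₄
lemma isLevelOne_E6 : IsLevelOne 6 (E₆ : ℍ → ℂ) := IsLevelOne.of_modularForm E₆
lemma isLevelOne_disc : IsLevelOne 12 discriminant := IsLevelOne.of_cuspForm CuspForm.discriminant

lemma S_smul_I : (S • I : ℍ) = I := (stabilizer_I).mpr (by simp)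
lemma ST_smul_rho : ((S * T) • ρ : ℍ) = ρ := (stabilizer_ρ).mpr (by simp)

lemma denom_S_I : denom (S : SL(2, ℤ)) I = Complex.I := by
  rw [ModularGroup.denom_S]; rfl

lemma denom_ST_rho : denom ((S * T : SL(2, ℤ)) : GL (Fin 2) ℝ) ρ = (ρ : ℂ) + 1 := by
  have h : S * T = ⟨!![0, -1; 1, 1], by simp [Matrix.det_fin_two]⟩ := by
    decide
  rw [h]
  simp [denom]

lemma rho_sq : (ρ : ℂ) ^ 2 = -ρ - 1 := UpperHalfPlane.ρ_sq

lemma E6_I : E₆ I = 0 := by
  have h := isLevelOne_E6.apply_smul S I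
  rw [S_smul_I, denom_S_I] at h
  have h2 : (Complex.I : ℂ) ^ (6 : ℤ) = -1 := by
    rw [show (6 : ℤ) = ((6 : ℕ) : ℤ) from rfl, zpow_natCast,
      show (6 : ℕ) = 4 + 2 from rfl, pow_add, Complex.I_pow_four, Complex.I_sq, one_mul]
  rw [h2] at h
  have : (2 : ℂ) * E₆ I = 0 := by linear_combination h
  simpa using this

lemma E4_rho : E₄ ρ = 0 := by
  have h := isLevelOne_E4.apply_smul (S * T) ρ
  rw [ST_smul_rho, denom_ST_rho] at h
  have h2 : ((ρ : ℂ) + 1) ^ (4 : ℤ) = -ρ - 1 := by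
    rw [show (4 : ℤ) = ((4 : ℕ) : ℤ) from rfl, zpow_natCast]
    have := rho_sq
    linear_combination ((ρ : ℂ) ^ 2 + 3 * ρ + 2) * this
  rw [h2] at h
  have h3 : ((ρ : ℂ) + 2) * E₄ ρ = 0 := by linear_combination h
  rcases mul_eq_zero.mp h3 with h4 | h4
  · exfalso
    have : ((ρ : ℂ) + 2).im = 0 := by rw [h4]; simp
    have h5 : ρ.im > 0 := ρ.im_pos
    simp at this
    linarith
  · exact h4

end Fermat.Agent.ES
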