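import Mathlib
import Fermat.Agent.ES.LevelOne

set_option autoImplicit false

namespace Fermat.Agent.ES

open UpperHalfPlane Filter Topology ModularForm Matrix.SpecialLinearGroup ModularGroup
open scoped MatrixGroups Manifold

section

variable {X : Type*} [Fintype X]

lemma mdiff_sum {ι : Type*} (s : Finset ι) {F : ι → ℍ → ℂ} (h : ∀ i ∈ s, MDiff (F i)) :
    MDiff (∑ i ∈ s, F i) := by
  classical
  induction s using Finset.induction_on with
  | empty => simpa using (IsLevelOne.zero (k := 0)).holo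
  | insert i s hi ih =>
    rw [Finset.sum_insert hi]
    exact (h i (Finset.mem_insert_self i s)).add (ih fun j hj => h j (Finset.mem_insert_of_mem hj))

lemma mdiff_prod {ι : Type*} (s : Finset ι) {F : ι → ℍ → ℂ} (h : ∀ i ∈ s, MDiff (F i)) :
    MDiff (∏ i ∈ s, F i) := by
  classical
  induction s using Finset.induction_on with
  | empty => simpa using (IsLevelOne.one).holo
  | insert i s hi ih =>
    rw [Finset.prod_insert hi]
    exact (h i (Finset.mem_insert_self i s)).mul (ih fun j hj => h j (Finset.mem_insert_of_mem hj))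

variable [DecidableEq X]

lemma mdiff_det {F : X → X → ℍ → ℂ} (h : ∀ i x, MDiff (F i x)) :
    MDiff (fun z : ℍ => (Matrix.of fun i x => F i x z).det) := by
  have : (fun z : ℍ => (Matrix.of fun i x => F i x z).det)
      = ∑ σ : Equiv.Perm X, ((Equiv.Perm.sign σ : ℤ) : ℂ) • ∏ i, F (σ i) i := by
    funext z
    rw [Matrix.det_apply']
    simp [Finset.sum_apply, Finset.prod_apply]
  rw [this]
  refine mdiff_sum _ fun σ _ => ?_
  exact (mdiff_prod _ fun i _ => h _ _).const_smul _

end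

/-- A full-rank system of vector valued modular forms. -/
structure FormSys (X : Type*) [Fintype X] [DecidableEq X] [MulAction SL(2, ℤ) X] where
  k : X → ℕ
  F : X → X → ℍ → ℂ
  isForm : ∀ i, IsVForm (k i : ℤ) (F i)
  det_ne : (fun z : ℍ => (Matrix.of fun i x => F i x z).det) ≠ 0

variable {X : Type*} [Fintype X] [DecidableEq X] [MulAction SL(2, ℤ) X]

namespace FormSys

/-- The evaluation matrix. -/
def mat (s : FormSys X) (z : ℍ) : Matrix X X ℂ := Matrix.of fun i x => s.F i x z

/-- The total weight. -/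
def wt (s : FormSys X) : ℕ := ∑ i, s.k i

/-- Minimality of the total weight. -/
def IsMin (s : FormSys X) : Prop := ∀ s' : FormSys X, s.wt ≤ s'.wt

lemma exists_isMin (h : Nonempty (FormSys X)) : ∃ s : FormSys X, s.IsMin := by
  classical
  have : ∃ n : ℕ, ∃ s : FormSys X, s.wt = n := ⟨_, h.some, rfl⟩
  obtain ⟨s, hs⟩ := Nat.find_spec this
  exact ⟨s, fun s' => hs ▸ Nat.find_min' this ⟨s', rfl⟩⟩

lemma mdiff_det (s : FormSys X) : MDiff (fun z : ℍ => (s.mat z).det) :=
  ES.mdiff_det fun i x => (s.isForm i).holo x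

lemma form_ne_zero (s : FormSys X) (i : X) : s.F i ≠ 0 := by
  intro h
  apply s.det_ne
  funext z
  apply Matrix.det_eq_zero_of_row_eq_zero i
  intro j
  simp [h]

lemma even_weight (hneg : ∀ x : X, (-1 : SL(2, ℤ)) • x = x) (s : FormSys X) (i : X) :
    Even (s.k i) := by
  by_contra h
  rw [Nat.not_even_iff_odd] at h
  exact s.form_ne_zero i ((s.isForm i).eq_zero_of_odd (by exact_mod_cast h) hneg)

lemma det_update (s : FormSys X) (i0 : X) (G : X → ℍ → ℂ)
    (D : ℍ → ℂ) (A : X → ℍ → ℂ)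
    (h : ∀ x z, D z * G x z = ∑ i, A i z * s.F i x z) (z : ℍ) :
    D z * (Matrix.of fun i x => (Function.update s.F i0 G) i x z).det
      = A i0 z * (s.mat z).det := by
  have h1 : (Matrix.of fun i x => (Function.update s.F i0 G) i x z)
      = (s.mat z).updateRow i0 (fun x => G x z) := by
    ext i x
    by_cases hi : i = i0
    · subst hi; simp
    · simp [Matrix.updateRow_ne hi, Function.update_of_ne hi, mat]
  rw [h1, ← Matrix.det_updateRow_smul]
  have h2 : D z • (fun x => G x z) = ∑ i, A i z • (s.mat z) i := by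
    funext x
    simp only [Pi.smul_apply, smul_eq_mul, Finset.sum_apply]
    rw [h x z]
    rfl
  rw [h2, Matrix.det_updateRow_sum, smul_eq_mul]

variable [MulAction.IsPretransitive SL(2, ℤ) X] [Nonempty X]

lemma replace (s : FormSys X) (i0 : X) (m : ℤ) (G : X → ℍ → ℂ) (hG : IsVForm m G)
    (D : ℍ → ℂ) (A : X → ℍ → ℂ) (hA : MDiff (A i0)) (hA0 : A i0 ≠ 0)
    (h : ∀ x z, D z * G x z = ∑ i, A i z * s.F i x z) :
    ∃ s' : FormSys X, (s'.wt : ℤ) = s.wt - s.k i0 + m := by
  have hdet : (fun z : ℍ => (Matrix.of fun i x => (Function.update s.F i0 G) i x z).det) ≠ 0 := by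
    intro h0
    have h1 : A i0 * (fun z : ℍ => (s.mat z).det) = 0 := by
      funext z
      have := s.det_update i0 G D A h z
      rw [congrFun h0 z] at this
      simpa using this.symm
    rcases (UpperHalfPlane.mul_eq_zero_iff hA s.mdiff_det).mp h1 with h2 | h2
    · exact hA0 h2
    · exact s.det_ne h2
  have hm : 0 ≤ m := by
    by_contra hm
    have hG0 := hG.eq_zero_of_neg (not_le.mp hm)
    apply hdet
    funext z
    apply Matrix.det_eq_zero_of_row_eq_zero i0
    intro j
    simp [hG0]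
  obtain ⟨m', rfl⟩ := Int.eq_ofNat_of_zero_le hm
  refine ⟨⟨Function.update s.k i0 m', Function.update s.F i0 G, ?_, hdet⟩, ?_⟩
  · intro i
    by_cases hi : i = i0
    · subst hi; simpa using hG
    · simpa [Function.update_of_ne hi] using s.isForm i
  · have h1 : ∑ i, Function.update s.k i0 m' i = m' + ∑ i ∈ Finset.univ \ {i0}, s.k i :=
      Finset.sum_update_of_mem (Finset.mem_univ i0) _ _
    have h2 : ∑ i, s.k i = s.k i0 + ∑ i ∈ Finset.univ \ {i0}, s.k i := by
      have := Finset.sum_update_of_mem (Finset.mem_univ i0) s.k (s.k i0)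
      rwa [Function.update_eq_self] at this
    simp only [wt]
    rw [h1, h2]
    push_cast
    ring

lemma IsMin.contra {s : FormSys X} (hs : s.IsMin) (i0 : X) (m : ℤ) (hm : m < s.k i0)
    (G : X → ℍ → ℂ) (hG : IsVForm m G)
    (D : ℍ → ℂ) (A : X → ℍ → ℂ) (hA : MDiff (A i0)) (hA0 : A i0 ≠ 0)
    (h : ∀ x z, D z * G x z = ∑ i, A i z * s.F i x z) : False := by
  obtain ⟨s', hs'⟩ := s.replace i0 m G hG D A hA hA0 h
  have := hs s'
  have h2 : (s.wt : ℤ) ≤ s'.wt := by exact_mod_cast this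
  omega

end FormSys

/-- Division of vector valued forms by a level one form. -/
lemma IsVForm.div {P : X → ℍ → ℂ} {K d : ℤ} (hP : IsVForm K P) {D : ℍ → ℂ}
    (hD : IsLevelOne d D) (hD1 : Tendsto D atImInfty (𝓝 1))
    (hz : ∀ z, D z = 0 → (∀ x, P x z = 0) ∧ deriv (D ∘ ofComplex) z ≠ 0) :
    ∃ G : X → ℍ → ℂ, IsVForm (K - d) G ∧ ∀ x z, D z * G x z = P x z := by
  have h1 : ∀ x, ∃ g : ℍ → ℂ, MDiff g ∧ ∀ z, P x z = D z * g z := fun x =>
    hol_div (hP.holo x) hD.holo fun z h => ⟨(hz z h).1 x, (hz z h).2⟩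
  choose G hG1 hG2 using h1
  have hDne : D ≠ 0 := by
    rintro rfl
    have := tendsto_nhds_unique (tendsto_const_nhds (x := (0 : ℂ)) (f := atImInfty)) hD1
    exact zero_ne_one this
  refine ⟨G, ⟨hG1, ?_, ?_⟩, fun x z => (hG2 x z).symm⟩
  · intro x g
    have e1 : ∀ y, P y = D * G y := fun y => funext fun z => hG2 y z
    have e2 := hP.slash x g
    rw [e1 x, e1 (g⁻¹ • x)] at e2
    have e3 : (D * G x) ∣[K] g = D * (G x ∣[K - d] g) := by
      have := ModularForm.mul_slash_SL2 d (K - d) g D (G x)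
      rw [hD.slash g, show d + (K - d) = K by ring] at this
      exact this
    rw [e3] at e2
    have e4 : D * ((G x ∣[K - d] g) - G (g⁻¹ • x)) = 0 := by
      rw [mul_sub, e2, sub_self]
    have hmd : MDiff (G x ∣[K - d] g) := MDifferentiable.slash (hG1 x) _ _
    rcases (UpperHalfPlane.mul_eq_zero_iff hD.holo (hmd.sub (hG1 _))).mp e4 with h | h
    · exact absurd h hDne
    · exact sub_eq_zero.mp h
  · intro x
    have hinv : Tendsto (fun z => (D z)⁻¹) atImInfty (𝓝 1) := by
      simpa using hD1.inv₀ one_ne_zero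
    have hb : IsBoundedAtImInfty (fun z => (D z)⁻¹) := hinv.isBigO_one ℝ
    have := bdd_mul (hP.bdd x) hb
    refine Asymptotics.IsBigO.congr' this ?_ EventuallyEq.rfl
    filter_upwards [hD1.eventually_ne one_ne_zero] with z hz
    rw [Pi.mul_apply, hG2 x z]
    field_simp

namespace FormSys

variable [MulAction.IsPretransitive SL(2, ℤ) X] [Nonempty X]

/-- Key step: a linear relation at a point contradicts minimality, given suitable level one
forms. -/
lemma IsMin.contra_point {s : FormSys X} (hs : s.IsMin) (z0 : ℍ) (d : ℤ) (D : ℍ → ℂ)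
    (hD : IsLevelOne d D) (hD1 : Tendsto D atImInfty (𝓝 1))
    (hDz : ∀ z, D z = 0 → (∃ g : SL(2, ℤ), z = g • z0) ∧ deriv (D ∘ ofComplex) z ≠ 0)
    (e : ℤ) (he : e < d)
    (c : X → ℂ) (i0 : X) (hc0 : c i0 ≠ 0)
    (hker : ∀ x, ∑ i, c i * s.F i x z0 = 0)
    (hB : ∀ i, c i ≠ 0 → ∃ B : ℍ → ℂ, IsLevelOne (s.k i0 + e - s.k i) B ∧ B z0 ≠ 0) : False := by
  classical
  have hB' : ∀ i, ∃ A : ℍ → ℂ, IsLevelOne (s.k i0 + e - s.k i) A ∧ A z0 = c i := by
    intro i
    by_cases hc : c i = 0
    · exact ⟨0, IsLevelOne.zero, by simp [hc]⟩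
    · obtain ⟨B, hB1, hB2⟩ := hB i hc
      refine ⟨(c i / B z0) • B, hB1.smul _, ?_⟩
      simp only [Pi.smul_apply, smul_eq_mul]
      field_simp
  choose A hA1 hA2 using hB'
  have hP : IsVForm (s.k i0 + e) (∑ i, fun x => A i * s.F i x) := by
    apply IsVForm.sum
    intro i _
    exact (IsVForm.smulLevelOne (hA1 i) (s.isForm i)).cast (by ring)
  have hPz : ∀ x z, (∑ i, fun x => A i * s.F i x) x z = ∑ i, A i z * s.F i x z := by
    intro x z
    simp [Finset.sum_apply]
  have hP0 : ∀ x, (∑ i, fun x => A i * s.F i x) x z0 = 0 := by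
    intro x
    rw [hPz]
    simp only [hA2]
    exact hker x
  obtain ⟨G, hG, hDG⟩ := hP.div hD hD1 (fun z hz => by
    obtain ⟨⟨g, rfl⟩, h2⟩ := hDz z hz
    refine ⟨fun x => ?_, h2⟩
    rw [hP.apply_smul, hP0, mul_zero])
  refine hs.contra i0 (s.k i0 + e - d) (by omega) G hG D A (hA1 i0).holo ?_ ?_
  · intro h0
    apply hc0
    rw [← hA2 i0, h0]; rfl
  · intro x z
    rw [hDG, hPz]

end FormSys

end Fermat.Agent.ES
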