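import Mathlib
import Fermat.Agent.ES.LevelOne
import Fermat.Agent.H18_Ramanujan

set_option autoImplicit false

namespace Fermat.Agent.ES

open UpperHalfPlane Filter Topology ModularForm Matrix.SpecialLinearGroup ModularGroup
open Fermat.Agent.H18 (jfun)
open scoped MatrixGroups Manifold

theorem deriv_E4_ne_zero (z : ℍ) (h : E₄ z = 0) : deriv ((E₄ : ℍ → ℂ) ∘ ofComplex) z ≠ 0 :=
  H18.deriv_E4_ne_zero z h

theorem deriv_E6_ne_zero (z : ℍ) (h : E₆ z = 0) : deriv ((E₆ : ℍ → ℂ) ∘ ofComplex) z ≠ 0 :=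
  H18.deriv_E6_ne_zero z h

/-- Non-equivalent points can be separated. -/
lemma separate {z w : ℍ} (h : ¬ ∃ g : SL(2, ℤ), w = g • z) :
    ∃ U V : Set ℍ, IsOpen U ∧ IsOpen V ∧ z ∈ U ∧ w ∈ V ∧
      ∀ u ∈ U, ∀ v ∈ V, ¬ ∃ g : SL(2, ℤ), v = g • u := by
  haveI : T2Space (Quotient (MulAction.orbitRel 𝒮ℒ ℍ)) :=
    t2Space_of_properlyDiscontinuousSMul_of_t2Space
  have hne : (Quotient.mk (MulAction.orbitRel 𝒮ℒ ℍ) z) ≠ Quotient.mk (MulAction.orbitRel 𝒮ℒ ℍ) w := by
    intro heq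
    have h1 := Quotient.exact heq
    rw [← Quotient.eq_iff_equiv] at h1
    have h2 : MulAction.orbitRel 𝒮ℒ ℍ z w := Quotient.exact heq
    rw [MulAction.orbitRel_apply] at h2
    obtain ⟨⟨γ, ⟨g, rfl⟩⟩, hg⟩ := h2
    apply h
    refine ⟨g⁻¹, ?_⟩
    rw [eq_inv_smul_iff]
    exact hg
  obtain ⟨U, V, hU, hV, hzU, hwV, hUV⟩ := t2_separation hne
  refine ⟨Quotient.mk _ ⁻¹' U, Quotient.mk _ ⁻¹' V, hU.preimage continuous_quotient_mk',
    hV.preimage continuous_quotient_mk', hzU, hwV, ?_⟩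
  rintro u hu v hv ⟨g, rfl⟩
  have h1 : (Quotient.mk (MulAction.orbitRel 𝒮ℒ ℍ) (g • u)) = Quotient.mk (MulAction.orbitRel 𝒮ℒ ℍ) u := by
    apply Quotient.sound
    show MulAction.orbitRel 𝒮ℒ ℍ (g • u) u
    rw [MulAction.orbitRel_apply]
    exact ⟨⟨_, ⟨g, rfl⟩⟩, rfl⟩
  have hv' : (Quotient.mk (MulAction.orbitRel 𝒮ℒ ℍ) (g • u)) ∈ V := hv
  rw [h1] at hv'
  exact Set.disjoint_left.mp hUV hu hv'

lemma jfun_smul (g : SL(2, ℤ)) (z : ℍ) : jfun (g • z) = jfun z := by
  have h1 := isLevelOne_E4.apply_smul g z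
  have h2 := isLevelOne_disc.apply_smul g z
  have h3 : denom g z ≠ 0 := denom_ne_zero g z
  have h4 := discriminant_ne_zero z
  simp only [jfun]
  rw [h1, h2, mul_pow, ← zpow_natCast (denom g z ^ (4 : ℤ)) 3, ← zpow_mul]
  norm_num
  have h5 : denom g z ^ 12 ≠ 0 := pow_ne_zero _ h3
  rw [mul_div_mul_left _ _ h5]

lemma continuous_jfun : Continuous jfun := H18.mdiff_jfun.continuous

lemma jfun_analytic : AnalyticOnNhd ℂ (jfun ∘ ofComplex) {z : ℂ | 0 < z.im} :=
  (UpperHalfPlane.mdifferentiable_iff.mp H18.mdiff_jfun).analyticOnNhd isOpen_upperHalfPlaneSet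

lemma jfun_I : jfun I = 1728 := by
  have h := H18.jfun_sub I
  rw [E6_I] at h
  have h4 := discriminant_ne_zero I
  have : (jfun I - 1728) = 0 := by
    rcases mul_eq_zero.mp (h.trans (by norm_num : (0 : ℂ) ^ 2 = 0)) with h | h
    · exact h
    · exact absurd h h4
  linear_combination this

lemma jfun_rho : jfun ρ = 0 := by
  simp [jfun, E4_rho]

lemma jfun_eq_zero_iff (z : ℍ) : jfun z = 0 ↔ E₄ z = 0 := by
  simp [jfun, discriminant_ne_zero]

lemma jfun_eq_1728_iff (z : ℍ) : jfun z = 1728 ↔ E₆ z = 0 := by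
  have h := H18.jfun_sub z
  have h4 := discriminant_ne_zero z
  constructor
  · intro h1
    rw [h1, sub_self, zero_mul] at h
    exact pow_eq_zero_iff (two_ne_zero) |>.mp h.symm
  · intro h1
    rw [h1] at h
    rcases mul_eq_zero.mp (h.trans (by norm_num : (0 : ℂ) ^ 2 = 0)) with h | h
    · linear_combination h
    · exact absurd h h4

/-- `j` is an open map -/
lemma isOpenMap_jfun : IsOpenMap jfun := by
  have hpre : IsPreconnected {z : ℂ | 0 < z.im} :=
    (convex_halfSpace_im_gt 0).isPreconnected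
  rcases jfun_analytic.is_constant_or_isOpen hpre with ⟨w, hw⟩ | h
  · exfalso
    have h1 := hw (I : ℍ) I.im_pos
    have h2 := hw (ρ : ℍ) ρ.im_pos
    simp only [Function.comp_apply, ofComplex_apply] at h1 h2
    rw [jfun_I] at h1
    rw [jfun_rho] at h2
    rw [← h2] at h1
    norm_num at h1
  · intro s hs
    have h1 := h ((↑) '' s) (by rintro _ ⟨z, _, rfl⟩; exact z.im_pos)
      (UpperHalfPlane.isOpenEmbedding_coe.isOpenMap s hs)
    rw [Set.image_image] at h1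
    simpa using h1

/-- local injectivity of `j` away from the elliptic points -/
lemma jfun_locally_injective (z : ℍ) (h0 : jfun z ≠ 0) (h1 : jfun z ≠ 1728) :
    ∃ U : Set ℍ, IsOpen U ∧ z ∈ U ∧ Set.InjOn jfun U := by
  have h4 : E₄ z ≠ 0 := fun h => h0 ((jfun_eq_zero_iff z).mpr h)
  have h6 : E₆ z ≠ 0 := fun h => h1 ((jfun_eq_1728_iff z).mpr h)
  have hd := H18.deriv_jfun_ne_zero z h4 h6
  have hs : HasStrictDerivAt (jfun ∘ ofComplex) (deriv (jfun ∘ ofComplex) z) z :=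
    (jfun_analytic z z.im_pos).hasStrictDerivAt
  have hf := hs.hasStrictFDerivAt_equiv hd
  let e := hf.toOpenPartialHomeomorph (jfun ∘ ofComplex)
  have he : (z : ℂ) ∈ e.source := hf.mem_toOpenPartialHomeomorph_source
  refine ⟨UpperHalfPlane.coe ⁻¹' e.source, e.open_source.preimage UpperHalfPlane.continuous_coe,
    he, ?_⟩
  intro a ha b hb hab
  apply UpperHalfPlane.ext
  apply e.injOn ha hb
  rw [hf.toOpenPartialHomeomorph_coe]
  simpa using hab

/-- injectivity of `j` near the cusp -/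
lemma jfun_injective_infty :
    ∃ Y : ℝ, ∀ z w : ℍ, Y ≤ z.im → Y ≤ w.im → jfun z = jfun w → ∃ g : SL(2, ℤ), w = g • z := by
  set Φ := cuspFunction 1 discriminant with hΦ
  set Ψ := cuspFunction 1 (E₄ : ℍ → ℂ) with hΨ
  have pd : Function.Periodic (discriminant ∘ ofComplex) (1 : ℝ) := by
    simpa using isLevelOne_disc.periodic
  have p4 : Function.Periodic ((E₄ : ℍ → ℂ) ∘ ofComplex) (1 : ℝ) := by
    simpa using isLevelOne_E4.periodic
  have aΦ : AnalyticAt ℂ Φ 0 :=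
    analyticAt_cuspFunction_zero one_pos pd isLevelOne_disc.holo isLevelOne_disc.bdd
  have aΨ : AnalyticAt ℂ Ψ 0 :=
    analyticAt_cuspFunction_zero one_pos p4 isLevelOne_E4.holo isLevelOne_E4.bdd
  have hΦ0 : Φ 0 = 0 :=
    (discriminant_isZeroAtImInfty).cuspFunction_apply_zero one_pos
  have hΨ0 : Ψ 0 = 1 := by
    have h1 := aΨ.continuousAt.tendsto.comp (qParam_tendsto_atImInfty one_pos)
    have h2 : (Ψ ∘ fun τ : ℍ ↦ Function.Periodic.qParam 1 τ : ℍ → ℂ) = E₄ := by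
      funext τ
      exact eq_cuspFunction τ one_ne_zero p4
    rw [h2] at h1
    exact tendsto_nhds_unique h1 tendsto_E4
  have hΦ1 : deriv Φ 0 = 1 := by
    have := ModularForm.discriminant_qExpansion_coeff_one
    rw [UpperHalfPlane.qExpansion_coeff] at this
    simpa using this
  have hd4 : AnalyticAt ℂ (fun q => Ψ q ^ 3) 0 := aΨ.pow 3
  have hfa : AnalyticAt ℂ (fun q => Φ q / Ψ q ^ 3) 0 := aΦ.div hd4 (by rw [hΨ0]; norm_num)
  have hderiv : deriv (fun q => Φ q / Ψ q ^ 3) 0 = 1 := by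
    have e1 := deriv_fun_div aΦ.differentiableAt hd4.differentiableAt
      (by rw [hΨ0]; norm_num : Ψ 0 ^ 3 ≠ 0)
    rw [e1, hΦ0, hΦ1, hΨ0]
    norm_num
  have hs := hfa.hasStrictDerivAt
  have hf := hs.hasStrictFDerivAt_equiv (by rw [hderiv]; norm_num)
  let e := hf.toOpenPartialHomeomorph (fun q => Φ q / Ψ q ^ 3)
  have he : (0 : ℂ) ∈ e.source := hf.mem_toOpenPartialHomeomorph_source
  have hev : ∀ᶠ z : ℍ in atImInfty, Function.Periodic.qParam 1 (z : ℂ) ∈ e.source :=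
    (qParam_tendsto_atImInfty one_pos).eventually (e.open_source.mem_nhds he)
  obtain ⟨Y, hY⟩ := (UpperHalfPlane.atImInfty_mem _).mp hev
  refine ⟨Y, fun z w hz hw hzw => ?_⟩
  have hkey : ∀ z : ℍ, (fun q => Φ q / Ψ q ^ 3) (Function.Periodic.qParam 1 (z : ℂ)) = (jfun z)⁻¹ := by
    intro z
    simp only [jfun, hΦ, hΨ]
    rw [eq_cuspFunction z one_ne_zero pd, eq_cuspFunction z one_ne_zero p4, inv_div]
  have hq : Function.Periodic.qParam 1 (z : ℂ) = Function.Periodic.qParam 1 (w : ℂ) := by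
    apply e.injOn (hY z hz) (hY w hw)
    rw [hf.toOpenPartialHomeomorph_coe, hkey, hkey, hzw]
  simp only [Function.Periodic.qParam] at hq
  rw [Complex.exp_eq_exp_iff_exists_int] at hq
  obtain ⟨n, hn⟩ := hq
  have h2 : (z : ℂ) = w + n := by
    have h3 : (2 * Real.pi * Complex.I : ℂ) ≠ 0 := Complex.two_pi_I_ne_zero
    have h4 : (2 * Real.pi * Complex.I : ℂ) * z = (2 * Real.pi * Complex.I : ℂ) * (w + n) := by
      simp only [Complex.ofReal_one, div_one] at hn
      rw [hn]; ring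
    exact mul_left_cancel₀ h3 h4
  refine ⟨T ^ (-n), UpperHalfPlane.ext ?_⟩
  rw [coe_T_zpow_smul_eq, h2]
  push_cast
  ring

/-- the set of values attained at two inequivalent points -/
def badSet : Set ℂ := {c | ∃ z w : ℍ, jfun z = c ∧ jfun w = c ∧ ¬ ∃ g : SL(2, ℤ), w = g • z}

lemma isOpen_badSet : IsOpen badSet := by
  rw [isOpen_iff_mem_nhds]
  rintro c ⟨z, w, hz, hw, hzw⟩
  obtain ⟨U, V, hU, hV, hzU, hwV, hUV⟩ := separate hzw
  have h1 : jfun '' U ∈ 𝓝 c := (isOpenMap_jfun U hU).mem_nhds ⟨z, hzU, hz⟩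
  have h2 : jfun '' V ∈ 𝓝 c := (isOpenMap_jfun V hV).mem_nhds ⟨w, hwV, hw⟩
  filter_upwards [h1, h2] with d hd1 hd2
  obtain ⟨u, hu, rfl⟩ := hd1
  obtain ⟨v, hv, hvd⟩ := hd2
  exact ⟨u, v, rfl, hvd, hUV u hu v hv⟩

lemma jfun_tendsto : Tendsto (fun z => ‖jfun z‖) atImInfty atTop := by
  have h1 : Tendsto (fun z : ℍ => ‖(E₄ z) ^ 3‖) atImInfty (𝓝 1) := by
    have := (tendsto_E4.pow 3).norm
    rwa [one_pow, norm_one] at this
  have h2 : Tendsto (fun z : ℍ => ‖discriminant z‖⁻¹) atImInfty atTop := by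
    apply Tendsto.inv_tendsto_nhdsGT_zero
    rw [tendsto_nhdsWithin_iff]
    refine ⟨?_, Eventually.of_forall fun z => norm_pos_iff.mpr (discriminant_ne_zero z)⟩
    have := tendsto_disc.norm
    rwa [norm_zero] at this
  have h3 := h1.pos_mul_atTop one_pos h2
  refine h3.congr fun z => ?_
  rw [jfun, norm_div, div_eq_mul_inv]

/-- points in the fundamental domain with bounded `j` have bounded imaginary part -/
lemma exists_bound (M : ℝ) : ∃ Y : ℝ, ∀ z : ℍ, ‖jfun z‖ ≤ M → z.im ≤ Y := by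
  have h1 := jfun_tendsto.eventually (eventually_gt_atTop M)
  obtain ⟨Y, hY⟩ := (UpperHalfPlane.atImInfty_mem _).mp h1
  refine ⟨Y, fun z hz => ?_⟩
  by_contra h
  have h2 : M < ‖jfun z‖ := hY z (not_le.mp h).le
  linarith

lemma badSet_compl : ∃ M : ℝ, ∀ c : ℂ, M < ‖c‖ → c ∉ badSet := by
  obtain ⟨Y, hY⟩ := jfun_injective_infty
  obtain ⟨M, hM⟩ := (isCompact_truncatedFundamentalDomain Y).exists_bound_of_continuousOn
    (f := jfun) continuous_jfun.continuousOn
  refine ⟨M, ?_⟩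
  rintro c hc ⟨z, w, hz, hw, hzw⟩
  obtain ⟨g, hg⟩ := exists_smul_mem_fd z
  obtain ⟨g', hg'⟩ := exists_smul_mem_fd w
  have h1 : ∀ u : ℍ, u ∈ fd → jfun u = c → Y ≤ u.im := by
    intro u hu huc
    by_contra h
    have := hM u ⟨hu, (not_le.mp h).le⟩
    rw [huc] at this
    linarith
  have hz' : jfun (g • z) = c := by rw [jfun_smul, hz]
  have hw' : jfun (g' • w) = c := by rw [jfun_smul, hw]
  obtain ⟨g'', hg''⟩ := hY (g • z) (g' • w) (h1 _ hg hz') (h1 _ hg' hw') (hz'.trans hw'.symm)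
  apply hzw
  refine ⟨g'⁻¹ * g'' * g, ?_⟩
  rw [mul_smul, mul_smul, ← hg'', inv_smul_smul]

lemma badSet_closed_aux (c : ℂ) (h0 : c ≠ 0) (h1 : c ≠ 1728) (hc : c ∈ closure badSet) :
    c ∈ badSet := by
  by_contra hcb
  obtain ⟨cs, hcs, hlim⟩ := mem_closure_iff_seq_limit.mp hc
  have hcs' : ∀ n, ∃ z w : ℍ, z ∈ fd ∧ w ∈ fd ∧ jfun z = cs n ∧ jfun w = cs n ∧
      ¬ ∃ g : SL(2, ℤ), w = g • z := by
    intro n
    obtain ⟨z, w, hz, hw, hzw⟩ := hcs n
    obtain ⟨g, hg⟩ := exists_smul_mem_fd z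
    obtain ⟨g', hg'⟩ := exists_smul_mem_fd w
    refine ⟨g • z, g' • w, hg, hg', by rw [jfun_smul, hz], by rw [jfun_smul, hw], ?_⟩
    rintro ⟨g'', hg''⟩
    apply hzw
    refine ⟨g'⁻¹ * g'' * g, ?_⟩
    rw [mul_smul, mul_smul, ← hg'', inv_smul_smul]
  choose zs ws hzs hws hjz hjw hne using hcs'
  obtain ⟨M, hM⟩ := (Metric.isBounded_range_of_tendsto cs hlim).exists_norm_le
  obtain ⟨Y, hY⟩ := exists_bound M
  have hK := (isCompact_truncatedFundamentalDomain Y).prod (isCompact_truncatedFundamentalDomain Y)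
  have hmem : ∀ n, (zs n, ws n) ∈ truncatedFundamentalDomain Y ×ˢ truncatedFundamentalDomain Y := by
    intro n
    refine ⟨⟨hzs n, hY _ ?_⟩, ⟨hws n, hY _ ?_⟩⟩
    · rw [hjz n]; exact hM _ ⟨n, rfl⟩
    · rw [hjw n]; exact hM _ ⟨n, rfl⟩
  obtain ⟨⟨z, w⟩, -, φ, hφ, hlim2⟩ := hK.tendsto_subseq hmem
  have hz : Tendsto (fun n => zs (φ n)) atTop (𝓝 z) := (continuous_fst.tendsto _).comp hlim2
  have hw : Tendsto (fun n => ws (φ n)) atTop (𝓝 w) := (continuous_snd.tendsto _).comp hlim2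
  have hcφ : Tendsto (fun n => cs (φ n)) atTop (𝓝 c) := hlim.comp hφ.tendsto_atTop
  have hjz' : jfun z = c := by
    have := (continuous_jfun.tendsto z).comp hz
    refine tendsto_nhds_unique this (hcφ.congr fun n => ?_)
    rw [Function.comp_apply, hjz]
  have hjw' : jfun w = c := by
    have := (continuous_jfun.tendsto w).comp hw
    refine tendsto_nhds_unique this (hcφ.congr fun n => ?_)
    rw [Function.comp_apply, hjw]
  have hg : ∃ g : SL(2, ℤ), w = g • z := by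
    by_contra h
    exact hcb ⟨z, w, hjz', hjw', h⟩
  obtain ⟨g, rfl⟩ := hg
  obtain ⟨U, hU, hzU, hinj⟩ := jfun_locally_injective z (hjz' ▸ h0) (hjz' ▸ h1)
  have hcont : Continuous fun u : ℍ => g⁻¹ • u := by
    have : Continuous fun u : ℍ => ((g⁻¹ : SL(2, ℤ)) : GL (Fin 2) ℝ) • u := continuous_const_smul _
    exact this
  have hw2 : Tendsto (fun n => g⁻¹ • ws (φ n)) atTop (𝓝 z) := by
    have := (hcont.tendsto _).comp hw
    rwa [inv_smul_smul] at this
  have e1 := hz.eventually (hU.mem_nhds hzU)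
  have e2 := hw2.eventually (hU.mem_nhds hzU)
  obtain ⟨n, hn1, hn2⟩ := (e1.and e2).exists
  have h3 : zs (φ n) = g⁻¹ • ws (φ n) := by
    apply hinj hn1 hn2
    rw [jfun_smul, hjz, hjw]
  exact hne (φ n) ⟨g, by rw [h3, smul_inv_smul]⟩

/-- Injectivity of `j` modulo `SL(2, ℤ)`. -/
theorem jfun_injective (z w : ℍ) (h : jfun z = jfun w) : ∃ g : SL(2, ℤ), w = g • z := by
  suffices hb : badSet = ∅ by
    by_contra hne
    have : jfun z ∈ badSet := ⟨z, w, rfl, h.symm, hne⟩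
    rw [hb] at this
    exact this
  have hconn : IsPreconnected ({0, 1728}ᶜ : Set ℂ) := by
    have hr : 1 < Module.rank ℝ ℂ := by
      rw [Complex.rank_real_complex]; norm_num
    exact (Set.Countable.isConnected_compl_of_one_lt_rank hr
      (Set.to_countable ({0, 1728} : Set ℂ))).isPreconnected
  obtain ⟨M, hM⟩ := badSet_compl
  by_contra hne
  obtain ⟨c, hc⟩ := Set.nonempty_iff_ne_empty.mpr hne
  -- `badSet` meets the complement of `{0, 1728}`
  have hmeet : ({0, 1728}ᶜ ∩ badSet : Set ℂ).Nonempty := by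
    have hfin : ({0, 1728} : Set ℂ).Countable := Set.to_countable _
    have hdense : Dense ({0, 1728}ᶜ : Set ℂ) := hfin.dense_compl ℂ
    obtain ⟨d, hd1, hd2⟩ := hdense.inter_open_nonempty badSet isOpen_badSet ⟨c, hc⟩
    exact ⟨d, hd2, hd1⟩
  have hsub := hconn.subset_left_of_subset_union isOpen_badSet
    (isClosed_closure (s := badSet)).isOpen_compl
    (Set.disjoint_left.mpr fun x hx hx' => hx' (subset_closure hx))
    (by
      intro x hx
      by_cases hx2 : x ∈ closure badSet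
      · left
        have hx' : x ≠ 0 ∧ x ≠ 1728 := by
          simpa [not_or] using hx
        exact badSet_closed_aux x hx'.1 hx'.2 hx2
      · right; exact hx2) hmeet
  -- a large number is not in badSet
  set d : ℂ := ((max M 1728 + 1 : ℝ) : ℂ) with hd
  have hdn : ‖d‖ = max M 1728 + 1 := by
    rw [hd, Complex.norm_real, Real.norm_eq_abs, abs_of_nonneg]
    have := le_max_right M 1728
    linarith
  have h1 : M < ‖d‖ := by rw [hdn]; have := le_max_left M 1728; linarith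
  have h2 : d ∈ ({0, 1728}ᶜ : Set ℂ) := by
    have h3 := le_max_right M 1728
    simp only [Set.mem_compl_iff, Set.mem_insert_iff, Set.mem_singleton_iff, not_or]
    constructor
    · intro h0
      rw [h0, norm_zero] at hdn
      linarith
    · intro h0
      rw [h0] at hdn
      norm_num at hdn
      linarith
  exact hM d h1 (hsub h2)

theorem E4_zero_orbit (z : ℍ) (h : E₄ z = 0) : ∃ g : SL(2, ℤ), z = g • ρ := by
  apply jfun_injective
  rw [jfun_rho, (jfun_eq_zero_iff z).mpr h]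

theorem E6_zero_orbit (z : ℍ) (h : E₆ z = 0) : ∃ g : SL(2, ℤ), z = g • I := by
  apply jfun_injective
  rw [jfun_I, (jfun_eq_1728_iff z).mpr h]

theorem exists_D (z0 : ℍ) (h4 : E₄ z0 ≠ 0) (h6 : E₆ z0 ≠ 0) :
    ∃ D : ℍ → ℂ, IsLevelOne 12 D ∧ Tendsto D atImInfty (𝓝 1) ∧
      ∀ z, D z = 0 → (∃ g : SL(2, ℤ), z = g • z0) ∧ deriv (D ∘ ofComplex) z ≠ 0 := by
  refine ⟨fun z => E₄ z ^ 3 - jfun z0 * discriminant z, ?_, ?_, ?_⟩
  · have h1 : IsLevelOne 12 ((E₄ : ℍ → ℂ) ^ 3) := (isLevelOne_E4.pow 3).cast (by norm_num)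
    exact h1.sub (isLevelOne_disc.smul (jfun z0))
  · have := (tendsto_E4.pow 3).sub (tendsto_disc.const_mul (jfun z0))
    simpa using this
  · intro z hz
    have h1 : E₄ z ^ 3 = jfun z0 * discriminant z := by linear_combination hz
    have h2 : jfun z0 = jfun z := by
      have h3 : jfun z = E₄ z ^ 3 / discriminant z := rfl
      rw [h3, h1, mul_div_cancel_right₀ _ (discriminant_ne_zero z)]
    have h4' : E₄ z ≠ 0 := by
      intro h
      exact h4 ((jfun_eq_zero_iff z0).mp (h2.trans ((jfun_eq_zero_iff z).mpr h)))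
    have h6' : E₆ z ≠ 0 := by
      intro h
      exact h6 ((jfun_eq_1728_iff z0).mp (h2.trans ((jfun_eq_1728_iff z).mpr h)))
    exact ⟨jfun_injective z0 z h2, H18.deriv_E4_cube_sub_ne_zero z _ h1 h4' h6'⟩

end Fermat.Agent.ES
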