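import Mathlib
import Fermat.Agent.ES.FormSys
import Fermat.Agent.ES.JInj

set_option autoImplicit false

namespace Fermat.Agent.ES

open UpperHalfPlane Filter Topology ModularForm Matrix.SpecialLinearGroup ModularGroup
open scoped MatrixGroups Manifold

lemma E46_not_both (z : ℍ) (h4 : E₄ z = 0) (h6 : E₆ z = 0) : False := by
  have := ModularForm.discriminant_eq_E₄_cube_sub_E₆_sq z
  rw [h4, h6] at this
  exact discriminant_ne_zero z (by simpa using this)


/-- nonvanishing level one forms away from the elliptic points -/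
lemma exists_B (z0 : ℍ) (h4 : E₄ z0 ≠ 0) (h6 : E₆ z0 ≠ 0) (m : ℕ) (hm : Even m) (hm4 : 4 ≤ m) :
    ∃ B : ℍ → ℂ, IsLevelOne m B ∧ B z0 ≠ 0 := by
  obtain ⟨r, rfl⟩ := hm
  rcases Nat.even_or_odd r with ⟨a, rfl⟩ | ⟨a, rfl⟩
  · refine ⟨(E₄ : ℍ → ℂ) ^ a, (isLevelOne_E4.pow a).cast (by push_cast; ring), ?_⟩
    exact pow_ne_zero _ h4
  · obtain ⟨b, rfl⟩ : ∃ b, a = b + 1 := ⟨a - 1, by omega⟩
    refine ⟨(E₄ : ℍ → ℂ) ^ b * E₆, ((isLevelOne_E4.pow b).mul isLevelOne_E6).cast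
      (by push_cast; ring), ?_⟩
    exact mul_ne_zero (pow_ne_zero _ h4) h6

/-- level one forms with value one at infinity -/
lemma exists_B_infty (m : ℕ) (hm : Even m) (hm4 : 4 ≤ m) :
    ∃ B : ℍ → ℂ, IsLevelOne m B ∧ Tendsto B atImInfty (𝓝 1) := by
  obtain ⟨r, rfl⟩ := hm
  rcases Nat.even_or_odd r with ⟨a, rfl⟩ | ⟨a, rfl⟩
  · refine ⟨(E₄ : ℍ → ℂ) ^ a, (isLevelOne_E4.pow a).cast (by push_cast; ring), ?_⟩
    have := tendsto_E4.pow a
    rw [one_pow] at this
    exact this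
  · obtain ⟨b, rfl⟩ : ∃ b, a = b + 1 := ⟨a - 1, by omega⟩
    refine ⟨(E₄ : ℍ → ℂ) ^ b * E₆, ((isLevelOne_E4.pow b).mul isLevelOne_E6).cast
      (by push_cast; ring), ?_⟩
    have := (tendsto_E4.pow b).mul tendsto_E6
    rw [one_pow, one_mul] at this
    exact this

variable {X : Type*} [Fintype X] [DecidableEq X] [MulAction SL(2, ℤ) X]

namespace FormSys

lemma det_eq_zero_iff (s : FormSys X) (z : ℍ) :
    (s.mat z).det = 0 ↔ ∃ c : X → ℂ, c ≠ 0 ∧ ∀ x, ∑ i, c i * s.F i x z = 0 := by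
  rw [← Matrix.exists_vecMul_eq_zero_iff]
  refine exists_congr fun c => and_congr_right fun _ => ?_
  rw [funext_iff]
  rfl

lemma det_smul_eq_zero (s : FormSys X) (g : SL(2, ℤ)) (z : ℍ) (h : (s.mat (g • z)).det = 0) :
    (s.mat z).det = 0 := by
  rw [det_eq_zero_iff] at h ⊢
  obtain ⟨c, hc, hker⟩ := h
  refine ⟨fun i => c i * denom g z ^ (s.k i : ℤ), ?_, fun x => ?_⟩
  · intro h0
    apply hc
    funext i
    have := congrFun h0 i
    simpa [denom_ne_zero] using this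
  · have := hker (g • x)
    rw [← this]
    refine Finset.sum_congr rfl fun i _ => ?_
    rw [(s.isForm i).apply_smul g (g • x) z, inv_smul_smul]
    ring

/-- Homogeneous components of a linear relation at a fixed point. -/
lemma exists_component (s : FormSys X) (z0 : ℍ) (g : SL(2, ℤ)) (hg : g • z0 = z0)
    (c : X → ℂ) (hc : c ≠ 0) (hker : ∀ x, ∑ i, c i * s.F i x z0 = 0) :
    ∃ (c' : X → ℂ) (i0 : X), c' i0 ≠ 0 ∧ (∀ x, ∑ i, c' i * s.F i x z0 = 0) ∧
      ∀ i, c' i ≠ 0 → s.k i ≤ s.k i0 ∧ denom g z0 ^ s.k i = denom g z0 ^ s.k i0 := by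
  classical
  set w : X → ℂ := fun i => denom g z0 ^ s.k i with hw
  have hF : ∀ i x, s.F i (g • x) z0 = w i * s.F i x z0 := by
    intro i x
    have := (s.isForm i).apply_smul g (g • x) z0
    rw [hg, inv_smul_smul] at this
    simpa [hw] using this
  have hpow : ∀ j : ℕ, ∀ x, ∑ i, c i * w i ^ j * s.F i x z0 = 0 := by
    intro j
    induction j with
    | zero => intro x; simpa using hker x
    | succ j ih =>
      intro x
      rw [← ih (g • x)]
      refine Finset.sum_congr rfl fun i _ => ?_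
      rw [hF]; ring
  have hpoly : ∀ p : Polynomial ℂ, ∀ x, ∑ i, c i * p.eval (w i) * s.F i x z0 = 0 := by
    intro p x
    induction p using Polynomial.induction_on' with
    | add p q hp hq =>
      have : ∑ i, c i * (p + q).eval (w i) * s.F i x z0
        = ∑ i, c i * p.eval (w i) * s.F i x z0 + ∑ i, c i * q.eval (w i) * s.F i x z0 := by
        rw [← Finset.sum_add_distrib]
        refine Finset.sum_congr rfl fun i _ => ?_
        rw [Polynomial.eval_add]; ring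
      rw [this, hp, hq, add_zero]
    | monomial n a =>
      have : ∑ i, c i * (Polynomial.monomial n a).eval (w i) * s.F i x z0
        = a * ∑ i, c i * w i ^ n * s.F i x z0 := by
        rw [Finset.mul_sum]
        refine Finset.sum_congr rfl fun i _ => ?_
        rw [Polynomial.eval_monomial]; ring
      rw [this, hpow, mul_zero]
  obtain ⟨i1, hi1⟩ : ∃ i, c i ≠ 0 := by
    by_contra h
    push Not at h
    exact hc (funext h)
  let W : Finset ℂ := (Finset.univ.image w).erase (w i1)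
  let p : Polynomial ℂ := ∏ a ∈ W, (Polynomial.X - Polynomial.C a)
  have hp1 : p.eval (w i1) ≠ 0 := by
    simp only [p, Polynomial.eval_prod, Polynomial.eval_sub, Polynomial.eval_X, Polynomial.eval_C]
    rw [Finset.prod_ne_zero_iff]
    intro a ha
    have : a ≠ w i1 := Finset.ne_of_mem_erase ha
    exact sub_ne_zero.mpr this.symm
  have hp2 : ∀ i, w i ≠ w i1 → p.eval (w i) = 0 := by
    intro i hi
    simp only [p, Polynomial.eval_prod, Polynomial.eval_sub, Polynomial.eval_X, Polynomial.eval_C]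
    refine Finset.prod_eq_zero (i := w i) ?_ (sub_self _)
    exact Finset.mem_erase.mpr ⟨hi, Finset.mem_image_of_mem _ (Finset.mem_univ i)⟩
  let c' : X → ℂ := fun i => c i * p.eval (w i)
  have hc'1 : c' i1 ≠ 0 := mul_ne_zero hi1 hp1
  obtain ⟨i0, hi0, hmax⟩ := Finset.exists_max_image (Finset.univ.filter fun i => c' i ≠ 0) s.k
    ⟨i1, by simpa using hc'1⟩
  have hi0' : c' i0 ≠ 0 := by simpa using hi0
  have hw0 : ∀ i, c' i ≠ 0 → w i = w i1 := by
    intro i hi
    by_contra h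
    exact hi (by simp [c', hp2 i h])
  refine ⟨c', i0, hi0', fun x => hpoly p x, fun i hi => ⟨hmax i (by simpa using hi), ?_⟩⟩
  show w i = w i0
  rw [hw0 i hi, hw0 i0 hi0']

variable [MulAction.IsPretransitive SL(2, ℤ) X] [Nonempty X]

lemma isMin_det_I {s : FormSys X} (hs : s.IsMin) : (s.mat I).det ≠ 0 := by
  intro h0
  obtain ⟨c, hc, hker⟩ := (s.det_eq_zero_iff I).mp h0
  obtain ⟨c', i0, hi0, hker', hcomp⟩ := s.exists_component I S S_smul_I c hc hker
  refine hs.contra_point I 6 E₆ isLevelOne_E6 tendsto_E6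
    (fun z hz => ⟨E6_zero_orbit z hz, deriv_E6_ne_zero z hz⟩) 0 (by norm_num) c' i0 hi0 hker' ?_
  intro i hi
  obtain ⟨h1, h2⟩ := hcomp i hi
  rw [denom_S_I] at h2
  have h3 : Complex.I ^ (s.k i0 - s.k i) = 1 := by
    have hI : Complex.I ^ (s.k i) ≠ 0 := pow_ne_zero _ Complex.I_ne_zero
    have : Complex.I ^ (s.k i0 - s.k i) * Complex.I ^ (s.k i) = 1 * Complex.I ^ (s.k i) := by
      rw [← pow_add, Nat.sub_add_cancel h1, one_mul, h2]
    exact mul_right_cancel₀ hI this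
  have h4 : 4 ∣ s.k i0 - s.k i := by
    rw [Complex.I_pow_eq_pow_mod] at h3
    have hlt := Nat.mod_lt (s.k i0 - s.k i) (show 0 < 4 by norm_num)
    have : (s.k i0 - s.k i) % 4 = 0 := by
      interval_cases h : (s.k i0 - s.k i) % 4
      · rfl
      · simp [Complex.ext_iff] at h3
      · simp [Complex.ext_iff] at h3; norm_num at h3
      · simp [pow_succ, Complex.ext_iff] at h3
    exact Nat.dvd_of_mod_eq_zero this
  obtain ⟨m, hm⟩ := h4
  refine ⟨(E₄ : ℍ → ℂ) ^ m, (isLevelOne_E4.pow m).cast (by omega), ?_⟩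
  refine pow_ne_zero _ fun h => E46_not_both I h E6_I

lemma rho_add_one_pow {m : ℕ} (h : ((ρ : ℂ) + 1) ^ m = 1) : 6 ∣ m := by
  have hsq := rho_sq
  have him : (ρ : ℂ).im ≠ 0 := ρ.im_ne_zero
  have h6 : ((ρ : ℂ) + 1) ^ 6 = 1 := by
    linear_combination ((ρ : ℂ) ^ 4 + 5 * ρ ^ 3 + 9 * ρ ^ 2 + 6 * ρ) * hsq
  have h3 : ((ρ : ℂ) + 1) ^ (m % 6) = 1 := by
    have e : ((ρ : ℂ) + 1) ^ m = ((ρ : ℂ) + 1) ^ (m % 6) := by
      conv_lhs => rw [← Nat.div_add_mod m 6, pow_add, pow_mul, h6, one_pow, one_mul]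
    rw [← e, h]
  have hlt := Nat.mod_lt m (show 0 < 6 by norm_num)
  have : m % 6 = 0 := by
    interval_cases hm : m % 6
    · rfl
    · exfalso; apply him
      have : (ρ : ℂ) = 0 := by linear_combination h3
      rw [this]; simp
    · exfalso; apply him
      have : (ρ : ℂ) = 1 := by linear_combination h3 - hsq
      rw [this]; simp
    · exfalso
      have : (2 : ℂ) = 0 := by linear_combination -h3 + (ρ + 2) * hsq
      norm_num at this
    · exfalso; apply him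
      have : (ρ : ℂ) = -2 := by linear_combination -h3 + ((ρ : ℂ) ^ 2 + 3 * ρ + 2) * hsq
      rw [this]; simp
    · exfalso; apply him
      have : (ρ : ℂ) = -1 := by
        linear_combination -h3 + ((ρ : ℂ) ^ 3 + 4 * ρ ^ 2 + 5 * ρ + 1) * hsq
      rw [this]; simp
  exact Nat.dvd_of_mod_eq_zero this

lemma isMin_det_rho {s : FormSys X} (hs : s.IsMin) : (s.mat ρ).det ≠ 0 := by
  intro h0
  obtain ⟨c, hc, hker⟩ := (s.det_eq_zero_iff ρ).mp h0
  obtain ⟨c', i0, hi0, hker', hcomp⟩ := s.exists_component ρ (S * T) ST_smul_rho c hc hker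
  refine hs.contra_point ρ 4 E₄ isLevelOne_E4 tendsto_E4
    (fun z hz => ⟨E4_zero_orbit z hz, deriv_E4_ne_zero z hz⟩) 0 (by norm_num) c' i0 hi0 hker' ?_
  intro i hi
  obtain ⟨h1, h2⟩ := hcomp i hi
  have h2' : ((ρ : ℂ) + 1) ^ s.k i = ((ρ : ℂ) + 1) ^ s.k i0 := by
    rw [← denom_ST_rho]; exact h2
  have hne : ((ρ : ℂ) + 1) ≠ 0 := by
    rw [← denom_ST_rho]; exact denom_ne_zero _ _
  have h3 : ((ρ : ℂ) + 1) ^ (s.k i0 - s.k i) = 1 := by
    have hI : ((ρ : ℂ) + 1) ^ (s.k i) ≠ 0 := pow_ne_zero _ hne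
    have : ((ρ : ℂ) + 1) ^ (s.k i0 - s.k i) * ((ρ : ℂ) + 1) ^ (s.k i)
        = 1 * ((ρ : ℂ) + 1) ^ (s.k i) := by
      rw [← pow_add, Nat.sub_add_cancel h1, one_mul, h2']
    exact mul_right_cancel₀ hI this
  obtain ⟨m, hm⟩ := rho_add_one_pow h3
  refine ⟨(E₆ : ℍ → ℂ) ^ m, (isLevelOne_E6.pow m).cast (by omega), ?_⟩
  refine pow_ne_zero _ fun h => E46_not_both ρ E4_rho h

/-- A minimal system is a basis at every point of the upper half plane. -/
theorem isMin_det_ne_zero (hneg : ∀ x : X, (-1 : SL(2, ℤ)) • x = x) {s : FormSys X}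
    (hs : s.IsMin) (z : ℍ) : (s.mat z).det ≠ 0 := by
  by_cases h6 : E₆ z = 0
  · obtain ⟨g, rfl⟩ := E6_zero_orbit z h6
    exact fun h => isMin_det_I hs (s.det_smul_eq_zero g I h)
  by_cases h4 : E₄ z = 0
  · obtain ⟨g, rfl⟩ := E4_zero_orbit z h4
    exact fun h => isMin_det_rho hs (s.det_smul_eq_zero g ρ h)
  intro h0
  obtain ⟨c, hc, hker⟩ := (s.det_eq_zero_iff z).mp h0
  obtain ⟨c', i0, hi0, hker', hcomp⟩ := s.exists_component z 1 (one_smul _ _) c hc hker
  obtain ⟨D, hD, hD1, hDz⟩ := exists_D z h4 h6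
  refine hs.contra_point z 12 D hD hD1 hDz 4 (by norm_num) c' i0 hi0 hker' ?_
  intro i hi
  obtain ⟨h1, -⟩ := hcomp i hi
  have e1 := s.even_weight hneg i
  have e0 := s.even_weight hneg i0
  obtain ⟨B, hB1, hB2⟩ := exists_B z h4 h6 (s.k i0 + 4 - s.k i)
    (by rw [Nat.even_sub (by omega)]; simp [e1, e0, Nat.even_add]; decide) (by omega)
  exact ⟨B, hB1.cast (by omega), hB2⟩

end FormSys

end Fermat.Agent.ES
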