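import Mathlib
import Fermat.Agent.ES.DetNe

set_option autoImplicit false

namespace Fermat.Agent.ES

open UpperHalfPlane Filter Topology ModularForm Matrix.SpecialLinearGroup ModularGroup Asymptotics
open scoped MatrixGroups Manifold

/-- the local parameter `exp (2 π i z / h)` -/
noncomputable abbrev qh (h : ℕ) (z : ℍ) : ℂ := Function.Periodic.qParam (h : ℝ) (z : ℂ)

/-- the root of unity -/
noncomputable abbrev zh (h : ℕ) : ℂ := Complex.exp (2 * Real.pi * Complex.I / h)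

lemma qh_ne_zero (h : ℕ) (z : ℍ) : qh h z ≠ 0 := Function.Periodic.qParam_ne_zero _

lemma zh_ne_zero (h : ℕ) : zh h ≠ 0 := Complex.exp_ne_zero _

lemma zh_prim {h : ℕ} (hh : 0 < h) : IsPrimitiveRoot (zh h) h :=
  Complex.isPrimitiveRoot_exp h hh.ne'

lemma T_pow_smul_coe (j : ℕ) (z : ℍ) : ((T ^ j • z : ℍ) : ℂ) = z + j := by
  have := coe_T_zpow_smul_eq z (n := (j : ℤ))
  simpa using this

lemma qh_T_pow (h : ℕ) (j : ℕ) (z : ℍ) : qh h (T ^ j • z) = zh h ^ j * qh h z := by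
  simp only [qh, zh, Function.Periodic.qParam]
  rw [T_pow_smul_coe, ← Complex.exp_nat_mul, ← Complex.exp_add]
  congr 1
  push_cast
  ring

lemma denom_T_pow (j : ℕ) (z : ℍ) : denom ((T ^ j : SL(2, ℤ)) : GL (Fin 2) ℝ) z = 1 := by
  have h : (T ^ j : SL(2, ℤ)) = ⟨!![1, (j : ℤ); 0, 1], by simp⟩ := by
    apply Subtype.ext
    have := coe_T_zpow (j : ℤ)
    simpa using this
  rw [h]
  simp [denom]

lemma tendsto_T_pow (j : ℕ) : Tendsto (fun z : ℍ => T ^ j • z) atImInfty atImInfty := by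
  rw [atImInfty, tendsto_comap_iff]
  have : (im ∘ fun z : ℍ => T ^ j • z) = im := by
    funext z
    have := im_T_zpow_smul z (j : ℤ)
    simpa using this
  rw [this]
  exact tendsto_comap

lemma tendsto_qh {h : ℕ} (hh : 0 < h) : Tendsto (fun z : ℍ => qh h z) atImInfty (𝓝 0) :=
  qParam_tendsto_atImInfty (by exact_mod_cast hh)

variable {X : Type*} [MulAction SL(2, ℤ) X]

lemma IsVForm.apply_T_pow {k : ℤ} {F : X → ℍ → ℂ} (hF : IsVForm k F) (x : X) (j : ℕ) (z : ℍ) :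
    F x (T ^ j • z) = F ((T ^ j)⁻¹ • x) z := by
  rw [hF.apply_smul, denom_T_pow, one_zpow, one_mul]

lemma IsVForm.periodic {k : ℤ} {F : X → ℍ → ℂ} (hF : IsVForm k F) {h : ℕ}
    (hT : ∀ x : X, T ^ h • x = x) (x : X) :
    Function.Periodic (F x ∘ ofComplex) (h : ℝ) := by
  intro w
  by_cases hw : 0 < w.im
  · have h1 : 0 < (w + (h : ℝ)).im := by simpa using hw
    simp only [Function.comp_apply]
    have e1 : ofComplex (w + ((h : ℝ) : ℂ)) = T ^ h • ofComplex w := by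
      apply UpperHalfPlane.ext
      rw [T_pow_smul_coe, ofComplex_apply_of_im_pos hw, ofComplex_apply_of_im_pos h1]
      simp
    rw [e1, hF.apply_T_pow]
    congr 1
    rw [inv_smul_eq_iff, hT]
  · have h1 : (w + (h : ℝ)).im ≤ 0 := by simpa using not_lt.mp hw
    simp only [Function.comp_apply]
    rw [ofComplex_apply_of_im_nonpos h1, ofComplex_apply_of_im_nonpos (not_lt.mp hw)]

/-- Taylor expansion at the cusp. -/
lemma IsVForm.expansion {k : ℤ} {F : X → ℍ → ℂ} (hF : IsVForm k F) {h : ℕ} (hh : 0 < h)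
    (hT : ∀ x : X, T ^ h • x = x) :
    ∃ a : X → ℕ → ℂ, ∀ x (j : ℕ),
      (fun z : ℍ => F ((T ^ j)⁻¹ • x) z
        - ∑ n ∈ Finset.range h, a x n * zh h ^ (j * n) * qh h z ^ n)
        =O[atImInfty] (fun z => ‖qh h z‖ ^ h) := by
  have hh' : (0 : ℝ) < (h : ℝ) := by exact_mod_cast hh
  have key : ∀ x, ∃ a : ℕ → ℂ, (fun q : ℂ => cuspFunction (h : ℝ) (F x) q
      - ∑ n ∈ Finset.range h, a n * q ^ n) =O[𝓝 0] (fun q => ‖q‖ ^ h) := by
    intro x
    obtain ⟨p, hp⟩ := analyticAt_cuspFunction_zero hh' (hF.periodic hT x) (hF.holo x) (hF.bdd x)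
    refine ⟨fun n => p.coeff n, ?_⟩
    have := hp.isBigO_sub_partialSum_pow h
    refine this.congr_left fun q => ?_
    rw [zero_add, FormalMultilinearSeries.partialSum]
    congr 1
    refine Finset.sum_congr rfl fun n _ => ?_
    rw [FormalMultilinearSeries.apply_eq_pow_smul_coeff, smul_eq_mul, mul_comm]
  choose a ha using key
  refine ⟨a, fun x j => ?_⟩
  have h1 : Tendsto (fun z : ℍ => qh h (T ^ j • z)) atImInfty (𝓝 0) :=
    (tendsto_qh hh).comp (tendsto_T_pow j)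
  have h2 := (ha x).comp_tendsto h1
  refine (h2.congr ?_ ?_)
  · intro z
    simp only [Function.comp_apply]
    rw [eq_cuspFunction (T ^ j • z) hh'.ne' (hF.periodic hT x), hF.apply_T_pow, qh_T_pow]
    congr 1
    refine Finset.sum_congr rfl fun n _ => ?_
    rw [mul_pow, ← pow_mul, mul_assoc]
  · intro z
    simp only [Function.comp_apply]
    rw [qh_T_pow, norm_mul, norm_pow]
    have : ‖zh h‖ = 1 := (zh_prim hh).norm'_eq_one hh.ne'
    rw [this, one_pow, one_mul]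

/-- Projection to the `r`-th eigencomponent of `T`. -/
noncomputable def Pr (h r : ℕ) (F : X → ℍ → ℂ) (x : X) (z : ℍ) : ℂ :=
  (h : ℂ)⁻¹ * ∑ j ∈ Finset.range h, (zh h ^ (r * j))⁻¹ * F ((T ^ j)⁻¹ • x) z

lemma orthog {h : ℕ} (hh : 0 < h) {r n : ℕ} (hr : r < h) (hn : n < h) :
    ∑ j ∈ Finset.range h, (zh h ^ (r * j))⁻¹ * zh h ^ (j * n) = if n = r then (h : ℂ) else 0 := by
  have hz := zh_ne_zero h
  split_ifs with hnr
  · subst hnr
    have : ∀ j ∈ Finset.range h, (zh h ^ (n * j))⁻¹ * zh h ^ (j * n) = 1 := by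
      intro j _
      rw [mul_comm n j]
      exact inv_mul_cancel₀ (pow_ne_zero _ hz)
    rw [Finset.sum_congr rfl this]
    simp
  · set ww : ℂ := (zh h ^ r)⁻¹ * zh h ^ n with hww
    have h1 : ∀ j ∈ Finset.range h, (zh h ^ (r * j))⁻¹ * zh h ^ (j * n) = ww ^ j := by
      intro j _
      rw [hww, mul_pow, inv_pow, ← pow_mul, ← pow_mul, mul_comm n j]
    rw [Finset.sum_congr rfl h1]
    have h2 : ww ≠ 1 := by
      intro h0
      apply hnr
      have : zh h ^ n = zh h ^ r := by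
        rw [hww] at h0
        field_simp at h0
        exact h0
      exact (zh_prim hh).pow_inj hn hr this
    have h3 : ww ^ h = 1 := by
      rw [hww, mul_pow, inv_pow, ← pow_mul, ← pow_mul, mul_comm r h, mul_comm n h, pow_mul, pow_mul,
        (zh_prim hh).pow_eq_one]
      simp
    rw [geom_sum_eq h2, h3, sub_self, zero_div]

lemma Pr_isBigO {F : X → ℍ → ℂ} {h : ℕ} (hh : 0 < h)
    {a : X → ℕ → ℂ} (ha : ∀ x (j : ℕ),
      (fun z : ℍ => F ((T ^ j)⁻¹ • x) z
        - ∑ n ∈ Finset.range h, a x n * zh h ^ (j * n) * qh h z ^ n)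
        =O[atImInfty] (fun z => ‖qh h z‖ ^ h)) (x : X) {r : ℕ} (hr : r < h) :
    (fun z => Pr h r F x z - a x r * qh h z ^ r) =O[atImInfty] (fun z => ‖qh h z‖ ^ h) := by
  have hz := zh_ne_zero h
  have hh' : (h : ℂ) ≠ 0 := by exact_mod_cast hh.ne'
  have h1 : (fun z => Pr h r F x z - a x r * qh h z ^ r)
      = fun z => (h : ℂ)⁻¹ * ∑ j ∈ Finset.range h, (zh h ^ (r * j))⁻¹ *
        (F ((T ^ j)⁻¹ • x) z - ∑ n ∈ Finset.range h, a x n * zh h ^ (j * n) * qh h z ^ n) := by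
    funext z
    have h2 : ∑ j ∈ Finset.range h, (zh h ^ (r * j))⁻¹ *
        (∑ n ∈ Finset.range h, a x n * zh h ^ (j * n) * qh h z ^ n)
        = h * (a x r * qh h z ^ r) := by
      simp_rw [Finset.mul_sum]
      rw [Finset.sum_comm]
      have h3 : ∀ n ∈ Finset.range h, ∑ j ∈ Finset.range h,
          (zh h ^ (r * j))⁻¹ * (a x n * zh h ^ (j * n) * qh h z ^ n)
          = (if n = r then (h : ℂ) else 0) * (a x n * qh h z ^ n) := by
        intro n hn
        rw [← orthog hh hr (Finset.mem_range.mp hn), Finset.sum_mul]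
        refine Finset.sum_congr rfl fun j _ => ?_
        ring
      rw [Finset.sum_congr rfl h3]
      simp [hr]
    simp_rw [mul_sub, Finset.sum_sub_distrib]
    rw [h2, Pr, mul_sub]
    congr 1
    field_simp
  rw [h1]
  refine IsBigO.const_mul_left ?_ _
  have : (fun z : ℍ => ∑ j ∈ Finset.range h, (zh h ^ (r * j))⁻¹ *
        (F ((T ^ j)⁻¹ • x) z - ∑ n ∈ Finset.range h, a x n * zh h ^ (j * n) * qh h z ^ n))
      = ∑ j ∈ Finset.range h, fun z : ℍ => (zh h ^ (r * j))⁻¹ *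
        (F ((T ^ j)⁻¹ • x) z - ∑ n ∈ Finset.range h, a x n * zh h ^ (j * n) * qh h z ^ n) := by
    funext z; simp [Finset.sum_apply]
  rw [this]
  exact IsBigO.sum fun j _ => (ha x j).const_mul_left _

lemma Pr_tendsto {F : X → ℍ → ℂ} {h : ℕ} (hh : 0 < h)
    {a : X → ℕ → ℂ} (ha : ∀ x (j : ℕ),
      (fun z : ℍ => F ((T ^ j)⁻¹ • x) z
        - ∑ n ∈ Finset.range h, a x n * zh h ^ (j * n) * qh h z ^ n)
        =O[atImInfty] (fun z => ‖qh h z‖ ^ h)) (x : X) {r : ℕ} (hr : r < h) :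
    Tendsto (fun z => (qh h z ^ r)⁻¹ * Pr h r F x z) atImInfty (𝓝 (a x r)) := by
  have h1 := Pr_isBigO hh ha x hr
  have h1' : (fun z => Pr h r F x z - a x r * qh h z ^ r) =O[atImInfty] (fun z => qh h z ^ h) := by
    rw [← isBigO_norm_right]
    simpa using h1
  have h2 : (fun z => (qh h z ^ r)⁻¹ * Pr h r F x z - a x r)
      =O[atImInfty] (fun z => qh h z ^ (h - r)) := by
    have h3 := (isBigO_refl (fun z : ℍ => (qh h z ^ r)⁻¹) atImInfty).mul h1'
    refine h3.congr ?_ ?_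
    · intro z
      have := pow_ne_zero r (qh_ne_zero h z)
      field_simp
    · intro z
      have := pow_ne_zero r (qh_ne_zero h z)
      rw [← Nat.sub_add_cancel hr.le, pow_add, Nat.sub_add_cancel hr.le]
      field_simp
  have h3 : Tendsto (fun z : ℍ => qh h z ^ (h - r)) atImInfty (𝓝 0) := by
    have := (tendsto_qh hh).pow (h - r)
    rwa [zero_pow (by omega)] at this
  have h4 := h2.trans_tendsto h3
  have h5 := h4.add_const (a x r)
  simpa using h5

lemma Pr_shift {F : X → ℍ → ℂ} {h : ℕ} (hh : 0 < h) (hT : ∀ x : X, T ^ h • x = x)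
    (x : X) (r : ℕ) (z : ℍ) :
    Pr h r F (T⁻¹ • x) z = zh h ^ r * Pr h r F x z := by
  have hz := zh_ne_zero h
  set g : ℕ → ℂ := fun j => (zh h ^ (r * j))⁻¹ * F ((T ^ j)⁻¹ • x) z with hg
  have h1 : ∑ j ∈ Finset.range h, g (j + 1) = ∑ j ∈ Finset.range h, g j := by
    have e1 := Finset.sum_range_succ' g h
    have e2 := Finset.sum_range_succ g h
    have e3 : g h = g 0 := by
      simp only [hg]
      rw [mul_comm r h, pow_mul, (zh_prim hh).pow_eq_one]
      have : (T ^ h)⁻¹ • x = x := by rw [inv_smul_eq_iff, hT]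
      rw [this]
      simp
    rw [e2, e3] at e1
    exact (add_right_cancel e1).symm
  have h2 : ∀ j ∈ Finset.range h, (zh h ^ (r * j))⁻¹ * F ((T ^ j)⁻¹ • T⁻¹ • x) z
      = zh h ^ r * g (j + 1) := by
    intro j _
    simp only [hg]
    have e : (T ^ (j + 1))⁻¹ • x = (T ^ j)⁻¹ • T⁻¹ • x := by
      rw [← mul_smul, pow_succ', mul_inv_rev]
    rw [e, mul_add, mul_one, pow_add]
    have := pow_ne_zero r hz
    have := pow_ne_zero (r * j) hz
    field_simp
  rw [Pr, Finset.sum_congr rfl h2, ← Finset.mul_sum, h1, Pr]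
  ring

/-- the total leading coefficient. -/
lemma shift_coeff {F : X → ℍ → ℂ} {h : ℕ} (hh : 0 < h) (hT : ∀ x : X, T ^ h • x = x)
    {a : X → ℕ → ℂ} (ha : ∀ x (j : ℕ),
      (fun z : ℍ => F ((T ^ j)⁻¹ • x) z
        - ∑ n ∈ Finset.range h, a x n * zh h ^ (j * n) * qh h z ^ n)
        =O[atImInfty] (fun z => ‖qh h z‖ ^ h)) (x : X) {r : ℕ} (hr : r < h) (j : ℕ) :
    a ((T ^ j)⁻¹ • x) r = zh h ^ (r * j) * a x r := by
  have h1 : ∀ y, a (T⁻¹ • y) r = zh h ^ r * a y r := by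
    intro y
    have e1 := Pr_tendsto hh ha (T⁻¹ • y) hr
    have e2 := (Pr_tendsto hh ha y hr).const_mul (zh h ^ r)
    refine tendsto_nhds_unique e1 (e2.congr fun z => ?_)
    rw [Pr_shift hh hT]; ring
  induction j with
  | zero => simp
  | succ j ih =>
    have e : (T ^ (j + 1))⁻¹ • x = T⁻¹ • (T ^ j)⁻¹ • x := by
      rw [← mul_smul, pow_succ, mul_inv_rev]
    rw [e, h1, ih, mul_add, mul_one, pow_add]
    ring

/-- If all the leading sums vanish then the form is divisible by `q`. -/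
lemma isBigO_of_coeff {F : X → ℍ → ℂ} {h : ℕ} (hh : 0 < h) (hT : ∀ x : X, T ^ h • x = x)
    {a : X → ℕ → ℂ} (ha : ∀ x (j : ℕ),
      (fun z : ℍ => F ((T ^ j)⁻¹ • x) z
        - ∑ n ∈ Finset.range h, a x n * zh h ^ (j * n) * qh h z ^ n)
        =O[atImInfty] (fun z => ‖qh h z‖ ^ h))
    (h0 : ∀ x, ∑ r ∈ Finset.range h, a x r = 0) (x : X) :
    F x =O[atImInfty] (fun z => ‖qh h z‖ ^ h) := by
  have h1 : ∀ r < h, a x r = 0 := by
    let f : Fin h → ℂ := fun r => zh h ^ (r : ℕ)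
    let v : Fin h → ℂ := fun r => a x r
    have hinj : Function.Injective f := by
      intro r s hrs
      exact Fin.ext ((zh_prim hh).pow_inj r.2 s.2 hrs)
    have hv : v = 0 := by
      refine Matrix.eq_zero_of_forall_pow_sum_mul_pow_eq_zero hinj fun i => ?_
      have := h0 ((T ^ (i : ℕ))⁻¹ • x)
      rw [← this, ← Fin.sum_univ_eq_sum_range (fun r => a ((T ^ (i : ℕ))⁻¹ • x) r)]
      refine Finset.sum_congr rfl fun r _ => ?_
      rw [shift_coeff hh hT ha x r.2, pow_mul, mul_comm]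
    intro r hr
    exact congrFun hv ⟨r, hr⟩
  have h2 := ha x 0
  refine h2.congr_left fun z => ?_
  have h3 : ∑ n ∈ Finset.range h, a x n * zh h ^ (0 * n) * qh h z ^ n = 0 := by
    refine Finset.sum_eq_zero fun n hn => ?_
    rw [h1 n (Finset.mem_range.mp hn)]; ring
  rw [h3, sub_zero, pow_zero, inv_one, one_smul]

end Fermat.Agent.ES
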