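import Mathlib
import Fermat.Agent.ES.Infty

set_option autoImplicit false

namespace Fermat.Agent.ES

open UpperHalfPlane Filter Topology ModularForm Matrix.SpecialLinearGroup ModularGroup Asymptotics
open scoped MatrixGroups Manifold

lemma norm_qh_pow {h : ℕ} (hh : 0 < h) (z : ℍ) :
    ‖qh h z‖ ^ h = Real.exp (-2 * Real.pi * z.im) := by
  rw [qh, Function.Periodic.norm_qParam, ← Real.exp_nat_mul]
  congr 1
  have : (h : ℝ) ≠ 0 := by exact_mod_cast hh.ne'
  simp only [coe_im]
  field_simp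

lemma disc_isBigO {h : ℕ} (hh : 0 < h) :
    discriminant =O[atImInfty] (fun z : ℍ => qh h z ^ h) := by
  have h1 := CuspFormClass.exp_decay_atImInfty (CuspForm.discriminant) (h := 1) one_pos
    one_mem_strictPeriods_SL
  rw [← isBigO_norm_right]
  refine h1.congr_right fun z => ?_
  rw [norm_pow, norm_qh_pow hh, div_one]

lemma isBigO_disc {h : ℕ} (hh : 0 < h) :
    (fun z : ℍ => ‖qh h z‖ ^ h) =O[atImInfty] discriminant := by
  refine exp_isBigO_discriminant.congr_left fun z => ?_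
  rw [norm_qh_pow hh]

variable {X : Type*} [Fintype X] [DecidableEq X] [MulAction SL(2, ℤ) X]

/-- divide by the discriminant -/
lemma IsVForm.div_disc {k : ℤ} {P : X → ℍ → ℂ} (hP : IsVForm k P)
    (h : ∀ x, P x =O[atImInfty] discriminant) :
    IsVForm (k - 12) (fun x => P x / discriminant) where
  holo x := by
    have h1 := UpperHalfPlane.mdifferentiable_iff.mp (hP.holo x)
    have h2 := UpperHalfPlane.mdifferentiable_iff.mp isLevelOne_disc.holo
    rw [UpperHalfPlane.mdifferentiable_iff]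
    exact h1.div h2 fun z hz => discriminant_ne_zero _
  slash x g := by
    rw [ModularForm.div_slash_SL2, hP.slash, isLevelOne_disc.slash]
  bdd x := by
    have h1 := (h x).mul (isBigO_refl (fun z : ℍ => (discriminant z)⁻¹) atImInfty)
    show (P x / discriminant) =O[atImInfty] (1 : ℍ → ℝ)
    rw [← isBigO_norm_right]
    refine h1.norm_right.congr ?_ ?_
    · intro z
      simp [div_eq_mul_inv]
    · intro z
      rw [mul_inv_cancel₀ (discriminant_ne_zero z)]
      simp

namespace FormSys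

/-- coefficient data for all members of the system -/
def IsCoeff (s : FormSys X) (h : ℕ) (a : X → X → ℕ → ℂ) : Prop :=
  ∀ i x (j : ℕ), (fun z : ℍ => s.F i ((T ^ j)⁻¹ • x) z
        - ∑ n ∈ Finset.range h, a i x n * zh h ^ (j * n) * qh h z ^ n)
        =O[atImInfty] (fun z => ‖qh h z‖ ^ h)

lemma exists_isCoeff (s : FormSys X) {h : ℕ} (hh : 0 < h) (hT : ∀ x : X, T ^ h • x = x) :
    ∃ a, s.IsCoeff h a := by
  choose a ha using fun i => (s.isForm i).expansion hh hT
  exact ⟨a, ha⟩

variable [MulAction.IsPretransitive SL(2, ℤ) X] [Nonempty X]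

lemma isMin_infty (hneg : ∀ x : X, (-1 : SL(2, ℤ)) • x = x) {s : FormSys X} (hs : s.IsMin)
    {h : ℕ} (hh : 0 < h) (hT : ∀ x : X, T ^ h • x = x) {a : X → X → ℕ → ℂ}
    (ha : s.IsCoeff h a) :
    (Matrix.of fun i x => ∑ r ∈ Finset.range h, a i x r).det ≠ 0 := by
  classical
  intro h0
  obtain ⟨c, hc, hker⟩ := Matrix.exists_vecMul_eq_zero_iff.mpr h0
  have hker' : ∀ x, ∑ i, c i * ∑ r ∈ Finset.range h, a i x r = 0 := fun x => congrFun hker x
  obtain ⟨i1, hi1⟩ : ∃ i, c i ≠ 0 := by
    by_contra h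
    push Not at h
    exact hc (funext h)
  obtain ⟨i0, hi0, hmax⟩ := Finset.exists_max_image (Finset.univ.filter fun i => c i ≠ 0) s.k
    ⟨i1, by simpa using hi1⟩
  have hi0' : c i0 ≠ 0 := by simpa using hi0
  have hB : ∀ i, ∃ A : ℍ → ℂ, IsLevelOne (s.k i0 + 4 - s.k i) A ∧ Tendsto A atImInfty (𝓝 (c i)) := by
    intro i
    by_cases hci : c i = 0
    · exact ⟨0, IsLevelOne.zero, by rw [hci]; exact tendsto_const_nhds⟩
    · have h1 := hmax i (by simpa using hci)
      have e1 := s.even_weight hneg i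
      have e0 := s.even_weight hneg i0
      obtain ⟨B, hB1, hB2⟩ := exists_B_infty (s.k i0 + 4 - s.k i)
        (by rw [Nat.even_sub (by omega)]; simp [e1, e0, Nat.even_add]; decide) (by omega)
      refine ⟨c i • B, (hB1.cast (by omega)).smul _, ?_⟩
      have := hB2.const_smul (c i)
      rw [smul_eq_mul, mul_one] at this
      exact this
  choose A hA1 hA2 using hB
  have hP : IsVForm (s.k i0 + 4) (∑ i, fun x => A i * s.F i x) := by
    apply IsVForm.sum
    intro i _
    exact (IsVForm.smulLevelOne (hA1 i) (s.isForm i)).cast (by ring)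
  set P := (∑ i, fun x => A i * s.F i x) with hPdef
  have hPz : ∀ x z, P x z = ∑ i, A i z * s.F i x z := by
    intro x z
    simp [hPdef, Finset.sum_apply]
  obtain ⟨b, hb⟩ := hP.expansion hh hT
  have hPr : ∀ r x z, Pr h r P x z = ∑ i, A i z * Pr h r (s.F i) x z := by
    intro r x z
    simp only [Pr, hPz, Finset.mul_sum]
    rw [Finset.sum_comm]
    refine Finset.sum_congr rfl fun i _ => Finset.sum_congr rfl fun j _ => ?_
    ring
  have hbr : ∀ x, ∀ r < h, b x r = ∑ i, c i * a i x r := by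
    intro x r hr
    have e1 := Pr_tendsto hh hb x hr
    have e2 : Tendsto (fun z => ∑ i, A i z * ((qh h z ^ r)⁻¹ * Pr h r (s.F i) x z)) atImInfty
        (𝓝 (∑ i, c i * a i x r)) :=
      tendsto_finsetSum _ fun i _ => (hA2 i).mul (Pr_tendsto hh (ha i) x hr)
    refine tendsto_nhds_unique e1 (e2.congr fun z => ?_)
    rw [hPr, Finset.mul_sum]
    refine Finset.sum_congr rfl fun i _ => ?_
    ring
  have hb0 : ∀ x, ∑ r ∈ Finset.range h, b x r = 0 := by
    intro x
    rw [Finset.sum_congr rfl fun r hr => hbr x r (Finset.mem_range.mp hr), Finset.sum_comm,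
      ← hker' x]
    refine Finset.sum_congr rfl fun i _ => ?_
    rw [Finset.mul_sum]
  have hO := isBigO_of_coeff hh hT hb hb0
  have hG := hP.div_disc (fun x => (hO x).trans (isBigO_disc hh))
  refine hs.contra i0 (s.k i0 + 4 - 12) (by omega) _ hG discriminant A (hA1 i0).holo ?_ ?_
  · intro h0
    apply hi0'
    have := hA2 i0
    rw [h0] at this
    exact tendsto_nhds_unique this tendsto_const_nhds
  · intro x z
    rw [← hPz]
    have := discriminant_ne_zero z
    simp only [Pi.div_apply]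
    field_simp

/-- The dual forms. -/
noncomputable def dual (s : FormSys X) (j : X) (x : X) (z : ℍ) : ℂ :=
  discriminant z * (s.mat z)⁻¹ x j

lemma sum_mul_dual (s : FormSys X) (hs : ∀ z, (s.mat z).det ≠ 0) (i j : X) (z : ℍ) :
    ∑ x, s.F i x z * s.dual j x z = if i = j then discriminant z else 0 := by
  have h1 : s.mat z * (s.mat z)⁻¹ = 1 := Matrix.mul_nonsing_inv _ (isUnit_iff_ne_zero.mpr (hs z))
  have h2 := congrFun (congrFun h1 i) j
  rw [Matrix.mul_apply, Matrix.one_apply] at h2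
  have : ∑ x, s.F i x z * s.dual j x z = discriminant z * ∑ x, s.mat z i x * (s.mat z)⁻¹ x j := by
    rw [Finset.mul_sum]
    refine Finset.sum_congr rfl fun x _ => ?_
    simp only [dual, mat, Matrix.of_apply]
    ring
  rw [this, h2]
  split_ifs <;> simp

lemma dual_mdiff (s : FormSys X) (hs : ∀ z, (s.mat z).det ≠ 0) (j x : X) : MDiff (s.dual j x) := by
  have h1 : MDiff (fun z : ℍ => ((s.mat z).updateRow j (Pi.single x 1)).det) := by
    have := ES.mdiff_det (X := X)
      (F := fun i y => if i = j then (fun _ => (Pi.single x (1 : ℂ) : X → ℂ) y) else s.F i y)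
      (by
        intro i y
        by_cases hij : i = j
        · simp only [hij, if_true]
          exact (IsLevelOne.const _).holo
        · simp only [hij, if_false]
          exact (s.isForm i).holo y)
    convert this using 3 with z
    ext i y
    by_cases hij : i = j
    · subst hij; simp
    · simp [Matrix.updateRow_ne hij, hij, mat]
  have h2 : s.dual j x = fun z => (discriminant z * ((s.mat z).updateRow j (Pi.single x 1)).det)
      / (s.mat z).det := by
    funext z
    rw [dual, Matrix.inv_def, Matrix.smul_apply, Matrix.adjugate_apply, Ring.inverse_eq_inv',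
      smul_eq_mul]
    field_simp
  rw [h2]
  have h3 := UpperHalfPlane.mdifferentiable_iff.mp (isLevelOne_disc.holo.mul h1)
  have h4 := UpperHalfPlane.mdifferentiable_iff.mp s.mdiff_det
  rw [UpperHalfPlane.mdifferentiable_iff]
  exact h3.div h4 fun z hz => hs _

lemma dual_slash (s : FormSys X) (hs : ∀ z, (s.mat z).det ≠ 0) (j x : X) (g : SL(2, ℤ)) :
    s.dual j x ∣[(12 - s.k j : ℤ)] g = s.dual j (g⁻¹ • x) := by
  funext z
  rw [ModularForm.SL_slash_apply]
  set u := denom g z with hu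
  have hu0 : u ≠ 0 := denom_ne_zero g z
  have hD : discriminant (g • z) = u ^ (12 : ℤ) * discriminant z := isLevelOne_disc.apply_smul g z
  have h1 : s.mat z * (s.mat z)⁻¹ = 1 := Matrix.mul_nonsing_inv _ (isUnit_iff_ne_zero.mpr (hs z))
  have hinv : (s.mat (g • z))⁻¹
      = Matrix.of fun y l => (s.mat z)⁻¹ (g⁻¹ • y) l * u ^ (-(s.k l : ℤ)) := by
    apply Matrix.inv_eq_right_inv
    ext i l
    rw [Matrix.mul_apply]
    have h3 : ∀ y, s.mat (g • z) i y * (Matrix.of fun y l => (s.mat z)⁻¹ (g⁻¹ • y) l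
        * u ^ (-(s.k l : ℤ))) y l
        = u ^ (s.k i : ℤ) * u ^ (-(s.k l : ℤ)) * (s.mat z i (g⁻¹ • y) * (s.mat z)⁻¹ (g⁻¹ • y) l) := by
      intro y
      simp only [mat, Matrix.of_apply]
      rw [(s.isForm i).apply_smul g y z]
      ring
    rw [Finset.sum_congr rfl fun y _ => h3 y, ← Finset.mul_sum]
    have h4 : ∑ y, s.mat z i (g⁻¹ • y) * (s.mat z)⁻¹ (g⁻¹ • y) l
        = ∑ y, s.mat z i y * (s.mat z)⁻¹ y l :=
      (MulAction.bijective (g⁻¹)).sum_comp (fun y => s.mat z i y * (s.mat z)⁻¹ y l)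
    rw [h4, ← Matrix.mul_apply, h1, Matrix.one_apply]
    split_ifs with hil
    · subst hil
      rw [← zpow_add₀ hu0]
      simp
    · simp
  rw [dual, hinv, hD, dual]
  simp only [Matrix.of_apply]
  have : u ^ (12 : ℤ) * u ^ (-(s.k j : ℤ)) * u ^ (-(12 - (s.k j : ℤ))) = 1 := by
    rw [← zpow_add₀ hu0, ← zpow_add₀ hu0]
    ring_nf
    simp
  linear_combination (discriminant z * (s.mat z)⁻¹ (g⁻¹ • x) j) * this

/-- transition matrix at infinity -/
noncomputable def Emat (h : ℕ) (z : ℍ) : Matrix X X ℂ :=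
  Matrix.of fun y x => ∑ r ∈ Finset.range h, (qh h z ^ r)⁻¹ *
    ((h : ℂ)⁻¹ * ∑ j ∈ Finset.range h, (zh h ^ (r * j))⁻¹ * if (T ^ j)⁻¹ • x = y then 1 else 0)

lemma mat_mul_Emat (s : FormSys X) (h : ℕ) (z : ℍ) (i x : X) :
    (s.mat z * Emat h z : Matrix X X ℂ) i x = ∑ r ∈ Finset.range h, (qh h z ^ r)⁻¹ * Pr h r (s.F i) x z := by
  rw [Matrix.mul_apply]
  simp only [Emat, Matrix.of_apply, Finset.mul_sum]
  rw [Finset.sum_comm]
  refine Finset.sum_congr rfl fun r _ => ?_
  rw [Finset.sum_comm]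
  rw [Pr, Finset.mul_sum, Finset.mul_sum]
  refine Finset.sum_congr rfl fun j _ => ?_
  have : ∀ y, s.mat z i y * ((qh h z ^ r)⁻¹ * ((h : ℂ)⁻¹ * ((zh h ^ (r * j))⁻¹ *
      if (T ^ j)⁻¹ • x = y then 1 else 0)))
      = if (T ^ j)⁻¹ • x = y then
        s.mat z i y * ((qh h z ^ r)⁻¹ * ((h : ℂ)⁻¹ * ((zh h ^ (r * j))⁻¹))) else 0 := by
    intro y
    split_ifs <;> simp
  rw [Finset.sum_congr rfl fun y _ => this y, Finset.sum_ite_eq]
  simp only [Finset.mem_univ, if_true, mat, Matrix.of_apply]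
  ring

lemma disc_mul_Emat {h : ℕ} (hh : 0 < h) (y x : X) :
    Tendsto (fun z : ℍ => discriminant z * Emat h z y x) atImInfty (𝓝 0) := by
  have h1 : ∀ r ∈ Finset.range h, Tendsto (fun z : ℍ => discriminant z * ((qh h z ^ r)⁻¹ *
    ((h : ℂ)⁻¹ * ∑ j ∈ Finset.range h, (zh h ^ (r * j))⁻¹ * if (T ^ j)⁻¹ • x = y then 1 else 0)))
      atImInfty (𝓝 0) := by
    intro r hr
    have hr' := Finset.mem_range.mp hr
    have h2 : (fun z : ℍ => discriminant z * (qh h z ^ r)⁻¹) =O[atImInfty]
        (fun z => qh h z ^ (h - r)) := by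
      refine ((disc_isBigO hh).mul (isBigO_refl (fun z : ℍ => (qh h z ^ r)⁻¹) atImInfty)).congr_right
        fun z => ?_
      have := pow_ne_zero r (qh_ne_zero h z)
      rw [← Nat.sub_add_cancel hr'.le, pow_add, Nat.sub_add_cancel hr'.le]
      field_simp
    have h3 : Tendsto (fun z : ℍ => qh h z ^ (h - r)) atImInfty (𝓝 0) := by
      have := (tendsto_qh hh).pow (h - r)
      rwa [zero_pow (by omega)] at this
    have h4 := (h2.trans_tendsto h3).mul_const
      ((h : ℂ)⁻¹ * ∑ j ∈ Finset.range h, (zh h ^ (r * j))⁻¹ * if (T ^ j)⁻¹ • x = y then 1 else 0)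
    rw [zero_mul] at h4
    refine h4.congr fun z => ?_
    ring
  have h2 := tendsto_finsetSum _ h1
  rw [Finset.sum_const_zero] at h2
  refine h2.congr fun z => ?_
  simp only [Emat, Matrix.of_apply]
  rw [Finset.mul_sum]

lemma dual_zero (hneg : ∀ x : X, (-1 : SL(2, ℤ)) • x = x) {s : FormSys X} (hs : s.IsMin)
    {h : ℕ} (hh : 0 < h) (hT : ∀ x : X, T ^ h • x = x) (j x : X) :
    IsZeroAtImInfty (s.dual j x) := by
  obtain ⟨a, ha⟩ := s.exists_isCoeff hh hT
  set L : Matrix X X ℂ := Matrix.of fun i x => ∑ r ∈ Finset.range h, a i x r with hL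
  have hdet : L.det ≠ 0 := isMin_infty hneg hs hh hT ha
  have hH : Tendsto (fun z => s.mat z * Emat h z) atImInfty (𝓝 L) := by
    refine tendsto_pi_nhds.mpr fun i => tendsto_pi_nhds.mpr fun x => ?_
    simp_rw [mat_mul_Emat]
    exact tendsto_finsetSum _ fun r hr => Pr_tendsto hh (ha i) x (Finset.mem_range.mp hr)
  have hHdet : Tendsto (fun z => (s.mat z * Emat h z).det) atImInfty (𝓝 L.det) :=
    (continuous_id.matrix_det.tendsto L).comp hH
  have hHadj : Tendsto (fun z => (s.mat z * Emat h z).adjugate) atImInfty (𝓝 L.adjugate) :=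
    (continuous_id.matrix_adjugate.tendsto L).comp hH
  have hHinv : Tendsto (fun z => (s.mat z * Emat h z)⁻¹) atImInfty (𝓝 L⁻¹) := by
    simp_rw [Matrix.inv_def, Ring.inverse_eq_inv']
    exact (hHdet.inv₀ hdet).smul hHadj
  have hev : ∀ᶠ z in atImInfty, (s.mat z * Emat h z).det ≠ 0 := hHdet.eventually_ne hdet
  have h1 : ∀ᶠ z in atImInfty, (s.mat z)⁻¹ = Emat h z * (s.mat z * Emat h z)⁻¹ := by
    filter_upwards [hev] with z hz
    apply Matrix.inv_eq_right_inv
    rw [← Matrix.mul_assoc]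
    exact Matrix.mul_nonsing_inv _ (isUnit_iff_ne_zero.mpr hz)
  have h2 : Tendsto (fun z => ∑ y, (discriminant z * Emat h z x y)
      * (s.mat z * Emat h z : Matrix X X ℂ)⁻¹ y j) atImInfty (𝓝 0) := by
    have : (0 : ℂ) = ∑ y, 0 * L⁻¹ y j := by simp
    rw [this]
    refine tendsto_finsetSum _ fun y _ => (disc_mul_Emat hh x y).mul ?_
    exact tendsto_pi_nhds.mp (tendsto_pi_nhds.mp hHinv y) j
  refine h2.congr' ?_
  filter_upwards [h1] with z hz
  rw [dual, hz, Matrix.mul_apply, Finset.mul_sum]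
  refine Finset.sum_congr rfl fun y _ => ?_
  ring

lemma dual_isVForm (hneg : ∀ x : X, (-1 : SL(2, ℤ)) • x = x) {s : FormSys X} (hs : s.IsMin)
    {h : ℕ} (hh : 0 < h) (hT : ∀ x : X, T ^ h • x = x) (j : X) :
    IsVForm (12 - s.k j : ℤ) (s.dual j) where
  holo x := s.dual_mdiff (isMin_det_ne_zero hneg hs) j x
  slash x g := s.dual_slash (isMin_det_ne_zero hneg hs) j x g
  bdd x := (dual_zero hneg hs hh hT j x).boundedAtFilter

end FormSys

end Fermat.Agent.ES
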