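import Mathlib
import Fermat.Agent.ES.Dual

set_option autoImplicit false

namespace Fermat.Agent.ES

open UpperHalfPlane Filter Topology ModularForm Matrix.SpecialLinearGroup ModularGroup Asymptotics
open scoped MatrixGroups Manifold

/-- Invariant functions of a group element. -/
def invSub (X : Type*) [MulAction SL(2, ℤ) X] (g : SL(2, ℤ)) : Submodule ℂ (X → ℂ) where
  carrier := {v | ∀ x, v (g • x) = v x}
  zero_mem' := fun _ => rfl
  add_mem' := by
    intro v w hv hw x
    simp only [Pi.add_apply]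
    rw [hv x, hw x]
  smul_mem' := by
    intro c v hv x
    simp only [Pi.smul_apply]
    rw [hv x]

lemma mem_invSub {X : Type*} [MulAction SL(2, ℤ) X] {g : SL(2, ℤ)} {v : X → ℂ} :
    v ∈ invSub X g ↔ ∀ x, v (g • x) = v x := Iff.rfl

/-- The space of cuspidal vector valued forms of weight two. -/
def cuspV (X : Type*) [MulAction SL(2, ℤ) X] : Submodule ℂ (X → ℍ → ℂ) where
  carrier := {F | IsVForm 2 F ∧ ∀ x, IsZeroAtImInfty (F x)}
  zero_mem' := ⟨IsVForm.zero, fun _ => zero_zeroAtFilter _⟩
  add_mem' := by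
    intro F G hF hG
    exact ⟨hF.1.add hG.1, fun x => (hF.2 x).add (hG.2 x)⟩
  smul_mem' := by
    intro c F hF
    refine ⟨hF.1.smul c, fun x => ?_⟩
    have := (hF.2 x : Tendsto _ _ _).const_smul c
    rw [smul_zero] at this
    exact this

lemma mem_cuspV {X : Type*} [MulAction SL(2, ℤ) X] {F : X → ℍ → ℂ} :
    F ∈ cuspV X ↔ IsVForm 2 F ∧ ∀ x, IsZeroAtImInfty (F x) := Iff.rfl

/-- the limit at infinity of a vector valued form -/
lemma IsVForm.exists_limit {X : Type*} [MulAction SL(2, ℤ) X] {k : ℤ} {F : X → ℍ → ℂ}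
    (hF : IsVForm k F) {h : ℕ} (hh : 0 < h)
    (hT : ∀ x : X, T ^ h • x = x) :
    ∃ v : X → ℂ, v ∈ invSub X T ∧ ∀ x, Tendsto (F x) atImInfty (𝓝 (v x)) := by
  obtain ⟨a, ha⟩ := hF.expansion hh hT
  have h1 : ∀ x, Tendsto (F x) atImInfty (𝓝 (a x 0)) := by
    intro x
    have h2 : Tendsto (fun z : ℍ => ‖qh h z‖ ^ h) atImInfty (𝓝 0) := by
      have := (tendsto_qh hh).norm.pow h
      rwa [norm_zero, zero_pow (by omega)] at this
    have h3 := (ha x 0).trans_tendsto h2
    have h4 : Tendsto (fun z : ℍ => ∑ n ∈ Finset.range h, a x n * zh h ^ (0 * n) * qh h z ^ n)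
        atImInfty (𝓝 (∑ n ∈ Finset.range h, a x n * zh h ^ (0 * n) * 0 ^ n)) :=
      tendsto_finsetSum _ fun n _ => tendsto_const_nhds.mul ((tendsto_qh hh).pow n)
    have h5 := h3.add h4
    have h6 : ∑ n ∈ Finset.range h, a x n * zh h ^ (0 * n) * 0 ^ n = a x 0 := by
      rw [Finset.sum_eq_single 0]
      · simp
      · intro n _ hn
        rw [zero_pow hn, mul_zero]
      · intro h0
        exact absurd (Finset.mem_range.mpr hh) h0
    rw [h6, zero_add] at h5
    refine h5.congr fun z => ?_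
    simp
  refine ⟨fun x => a x 0, fun x => ?_, h1⟩
  have h2 : Tendsto (fun z => F (T • x) (T ^ 1 • z)) atImInfty (𝓝 (a (T • x) 0)) :=
    (h1 (T • x)).comp (tendsto_T_pow 1)
  have h3 : ∀ z, F (T • x) (T ^ 1 • z) = F x z := by
    intro z
    rw [hF.apply_T_pow, pow_one, inv_smul_smul]
  simp_rw [h3] at h2
  exact tendsto_nhds_unique h2 (h1 x)

lemma exists_T_pow (X : Type*) [Finite X] [MulAction SL(2, ℤ) X] :
    ∃ h : ℕ, 0 < h ∧ ∀ x : X, T ^ h • x = x := by
  refine ⟨orderOf (MulAction.toPermHom SL(2, ℤ) X T), orderOf_pos _, fun x => ?_⟩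
  have h1 := pow_orderOf_eq_one (MulAction.toPermHom SL(2, ℤ) X T)
  rw [← map_pow] at h1
  have h2 := congrArg (fun σ : Equiv.Perm X => σ x) h1
  simpa using h2

lemma IsLevelOne.eq_zero_of_cusp {k : ℤ} {A : ℍ → ℂ} (hA : IsLevelOne k A) (hk : k < 12)
    (hz : IsZeroAtImInfty A) : A = 0 := by
  let f : CuspForm 𝒮ℒ k :=
    { toFun := A
      slash_action_eq' := hA.toModularForm.slash_action_eq'
      holo' := hA.holo
      zero_at_cusps' := by
        intro c hc
        rw [OnePoint.isZeroAt_iff_forall_SL2Z hc]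
        intro γ _
        show IsZeroAtImInfty (A ∣[k] γ)
        rw [hA.slash γ]
        exact hz }
  have h0 := CuspForm.rank_eq_zero_of_weight_lt_twelve hk
  have h1 := rank_zero_iff.mp h0
  have := h1.elim f 0
  have h2 := congrArg (fun f : CuspForm 𝒮ℒ k => (f : ℍ → ℂ)) this
  exact h2

variable {X : Type*} [Fintype X] [DecidableEq X] [MulAction SL(2, ℤ) X]

namespace FormSys

variable [MulAction.IsPretransitive SL(2, ℤ) X] [Nonempty X]

lemma dual_ne_zero (s : FormSys X) (hs : ∀ z, (s.mat z).det ≠ 0) (j : X) : s.dual j ≠ 0 := by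
  intro h
  have := s.sum_mul_dual hs j j I
  rw [if_pos rfl, h] at this
  exact discriminant_ne_zero I (by simpa using this.symm)

lemma weight_lt (hneg : ∀ x : X, (-1 : SL(2, ℤ)) • x = x) {s : FormSys X} (hs : s.IsMin) (i : X) :
    s.k i < 12 := by
  obtain ⟨h, hh, hT⟩ := exists_T_pow X
  have hdet := isMin_det_ne_zero hneg hs
  have h1 := dual_isVForm hneg hs hh hT i
  have h2 := dual_zero hneg hs hh hT i
  by_contra hk
  apply s.dual_ne_zero hdet i
  rcases lt_or_eq_of_le (not_lt.mp hk) with h3 | h3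
  · exact h1.eq_zero_of_neg (by omega)
  · exact (h1.cast (show (12 - s.k i : ℤ) = 0 by omega)).eq_zero_of_zero h2

lemma exists_weight_zero (hneg : ∀ x : X, (-1 : SL(2, ℤ)) • x = x) {s : FormSys X}
    (hs : s.IsMin) : ∃ i, s.k i = 0 := by
  obtain ⟨h, hh, hT⟩ := exists_T_pow X
  have hdet := isMin_det_ne_zero hneg hs
  by_contra hne
  push Not at hne
  have h1 : ∀ i, ∑ x, s.dual i x = 0 := by
    intro i
    have h2 := (dual_isVForm hneg hs hh hT i).trace
    refine h2.eq_zero_of_cusp (by have := hne i; omega) ?_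
    have : ∀ t : Finset X, IsZeroAtImInfty (∑ x ∈ t, s.dual i x) := by
      intro t
      induction t using Finset.induction_on with
      | empty =>
        rw [Finset.sum_empty]
        exact zero_zeroAtFilter atImInfty
      | insert y t hy ih =>
        rw [Finset.sum_insert hy]
        exact (dual_zero hneg hs hh hT i y).add ih
    exact this _
  have h2 : (fun _ : X => (1 : ℂ)) = 0 := by
    have hM : s.mat I * (s.mat I)⁻¹ = 1 :=
      Matrix.mul_nonsing_inv _ (isUnit_iff_ne_zero.mpr (hdet I))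
    have hM' : (s.mat I)⁻¹ * s.mat I = 1 :=
      Matrix.nonsing_inv_mul _ (isUnit_iff_ne_zero.mpr (hdet I))
    have h3 : Matrix.vecMul (fun _ : X => (1 : ℂ)) (s.mat I)⁻¹ = 0 := by
      funext i
      have h4 := congrFun (h1 i) I
      simp only [Finset.sum_apply, dual, Pi.zero_apply] at h4
      rw [← Finset.mul_sum] at h4
      have h5 := (mul_eq_zero.mp h4).resolve_left (discriminant_ne_zero I)
      simp only [Matrix.vecMul, dotProduct, one_mul, Pi.zero_apply]
      exact h5
    have h6 : Matrix.vecMul (Matrix.vecMul (fun _ : X => (1 : ℂ)) (s.mat I)⁻¹) (s.mat I) = 0 := by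
      rw [h3, Matrix.zero_vecMul]
    rwa [Matrix.vecMul_vecMul, hM', Matrix.vecMul_one] at h6
  have h3 := congrFun h2 (Classical.arbitrary X)
  exact one_ne_zero h3

lemma card_le_invSub {s : FormSys X} (z0 : ℍ) (hdet : (s.mat z0).det ≠ 0) (g : SL(2, ℤ))
    (hg : g • z0 = z0) (p : X → Prop) [DecidablePred p]
    (hp : ∀ i, p i → denom g z0 ^ s.k i = 1) :
    (Finset.univ.filter p).card ≤ Module.finrank ℂ (invSub X g) := by
  have hrows := Matrix.linearIndependent_rows_of_det_ne_zero hdet
  let f : {i // p i} → invSub X g := fun i => ⟨fun x => s.F i x z0, by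
    intro x
    have := (s.isForm i).apply_smul g (g • x) z0
    rw [hg, inv_smul_smul] at this
    show s.F i (g • x) z0 = s.F i x z0
    rw [this]
    have h1 := hp i i.2
    rw [zpow_natCast, h1, one_mul]⟩
  have hf : LinearIndependent ℂ f := by
    apply LinearIndependent.of_comp (invSub X g).subtype
    exact hrows.comp (fun i : {i // p i} => (i : X)) Subtype.val_injective
  have := hf.fintype_card_le_finrank
  rwa [Fintype.card_subtype] at this

/-- Main count: number of weights two and ten. -/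
lemma count (hneg : ∀ x : X, (-1 : SL(2, ℤ)) • x = x) {s : FormSys X} (hs : s.IsMin) :
    Fintype.card X + 1 ≤ (Finset.univ.filter fun i => s.k i = 2).card
      + (Finset.univ.filter fun i => s.k i = 10).card
      + Module.finrank ℂ (invSub X S) + Module.finrank ℂ (invSub X (S * T)) := by
  classical
  have hdet := isMin_det_ne_zero hneg hs
  have h1 := card_le_invSub (s := s) I (hdet I) S S_smul_I (fun i => s.k i % 4 = 0) (by
    intro i hi
    rw [denom_S_I, Complex.I_pow_eq_pow_mod, hi, pow_zero])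
  have h2 := card_le_invSub (s := s) ρ (hdet ρ) (S * T) ST_smul_rho (fun i => s.k i % 6 = 0) (by
    intro i hi
    have h6 : ((ρ : ℂ) + 1) ^ 6 = 1 := by
      linear_combination ((ρ : ℂ) ^ 4 + 5 * ρ ^ 3 + 9 * ρ ^ 2 + 6 * ρ) * rho_sq
    obtain ⟨m, hm⟩ := Nat.dvd_of_mod_eq_zero hi
    have := denom_ST_rho
    rw [this, hm, pow_mul, h6, one_pow])
  have hw : ∀ i, s.k i = 0 ∨ s.k i = 2 ∨ s.k i = 4 ∨ s.k i = 6 ∨ s.k i = 8 ∨ s.k i = 10 := by
    intro i
    have e := s.even_weight hneg i
    have l := weight_lt hneg hs i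
    obtain ⟨m, hm⟩ := e
    omega
  obtain ⟨i0, hi0⟩ := exists_weight_zero hneg hs
  have h0 : 1 ≤ (Finset.univ.filter fun i => s.k i = 0).card :=
    Finset.card_pos.mpr ⟨i0, by simpa using hi0⟩
  have key : Fintype.card X + (Finset.univ.filter fun i => s.k i = 0).card ≤
      (Finset.univ.filter fun i => s.k i % 4 = 0).card
      + (Finset.univ.filter fun i => s.k i % 6 = 0).card
      + (Finset.univ.filter fun i => s.k i = 2).card
      + (Finset.univ.filter fun i => s.k i = 10).card := by
    rw [← Finset.card_univ]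
    simp only [Finset.card_eq_sum_ones, Finset.sum_filter]
    rw [← Finset.sum_add_distrib, ← Finset.sum_add_distrib, ← Finset.sum_add_distrib,
      ← Finset.sum_add_distrib]
    refine Finset.sum_le_sum fun i _ => ?_
    rcases hw i with h | h | h | h | h | h <;> simp [h]
  omega

end FormSys

end Fermat.Agent.ES
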