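import Mathlib
import Fermat.Agent.ES.Count

set_option autoImplicit false

namespace Fermat.Agent.ES

open UpperHalfPlane Filter Topology ModularForm Matrix.SpecialLinearGroup ModularGroup Asymptotics
open scoped MatrixGroups Manifold

variable {X : Type*} [Fintype X] [DecidableEq X] [MulAction SL(2, ℤ) X]

namespace FormSys

variable [MulAction.IsPretransitive SL(2, ℤ) X] [Nonempty X]

/-- number of weight ten generators -/
lemma card_ten_le [FiniteDimensional ℂ (cuspV X)]
    (hneg : ∀ x : X, (-1 : SL(2, ℤ)) • x = x) {s : FormSys X} (hs : s.IsMin) :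
    (Finset.univ.filter fun i => s.k i = 10).card ≤ Module.finrank ℂ (cuspV X) := by
  obtain ⟨h, hh, hT⟩ := exists_T_pow X
  have hdet := isMin_det_ne_zero hneg hs
  let f : {i // s.k i = 10} → cuspV X := fun i => ⟨s.dual i,
    ((dual_isVForm hneg hs hh hT i).cast (by have := i.2; omega)), fun x => dual_zero hneg hs hh hT i x⟩
  have hf : LinearIndependent ℂ f := by
    rw [Fintype.linearIndependent_iff]
    intro g hg j
    have h1 : ∀ x z, ∑ i : {i // s.k i = 10}, g i * s.dual i x z = 0 := by
      intro x z
      have h2 := congrArg (fun F : cuspV X => (F : X → ℍ → ℂ) x z) hg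
      simpa [f, Finset.sum_apply] using h2
    have h2 : ∑ x, s.F j x I * (∑ i : {i // s.k i = 10}, g i * s.dual i x I) = 0 := by
      refine Finset.sum_eq_zero fun x _ => ?_
      rw [h1, mul_zero]
    have h3 : ∑ x, s.F j x I * (∑ i : {i // s.k i = 10}, g i * s.dual i x I)
        = ∑ i : {i // s.k i = 10}, g i * ∑ x, s.F j x I * s.dual i x I := by
      simp_rw [Finset.mul_sum]
      rw [Finset.sum_comm]
      refine Finset.sum_congr rfl fun i _ => Finset.sum_congr rfl fun x _ => ?_
      ring
    rw [h3] at h2
    simp_rw [s.sum_mul_dual hdet] at h2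
    rw [Finset.sum_eq_single j] at h2
    · simpa [discriminant_ne_zero] using h2
    · intro i _ hij
      have : (j : X) ≠ i := fun h => hij (Subtype.ext h.symm)
      rw [if_neg this, mul_zero]
    · intro h; exact absurd (Finset.mem_univ _) h
  have := hf.fintype_card_le_finrank
  rwa [Fintype.card_subtype] at this

/-- number of weight two generators -/
lemma card_two_le [FiniteDimensional ℂ (cuspV X)] {s : FormSys X} :
    (Finset.univ.filter fun i => s.k i = 2).card + 1
      ≤ Module.finrank ℂ (cuspV X) + Module.finrank ℂ (invSub X T) := by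
  obtain ⟨h, hh, hT⟩ := exists_T_pow X
  have hlim : ∀ i, ∃ v : X → ℂ, v ∈ invSub X T ∧ ∀ x, Tendsto (s.F i x) atImInfty (𝓝 (v x)) :=
    fun i => (s.isForm i).exists_limit hh hT
  choose v hv1 hv2 using hlim
  let J := {i // s.k i = 2}
  have hvs : ∀ i : J, ∑ x, v i x = 0 := by
    intro i
    have h1 : Tendsto (∑ x, s.F i x) atImInfty (𝓝 (∑ x, v i x)) := by
      have := tendsto_finsetSum (f := fun x z => s.F i x z) Finset.univ (fun x _ => hv2 i x)
      refine this.congr fun z => ?_
      simp
    have h2 : IsLevelOne 2 (∑ x, s.F i x) :=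
      (s.isForm i).trace.cast (by have := i.2; exact_mod_cast this)
    rw [h2.eq_zero_of_two] at h1
    exact tendsto_nhds_unique h1 tendsto_const_nhds
  let φ : (J → ℂ) →ₗ[ℂ] (X → ℂ) := Fintype.linearCombination ℂ (fun i : J => v i)
  let σ : (X → ℂ) →ₗ[ℂ] ℂ := ∑ x, LinearMap.proj x
  have hσ : ∀ w : X → ℂ, σ w = ∑ x, w x := by intro w; simp [σ]
  let W : Submodule ℂ (X → ℂ) := invSub X T ⊓ LinearMap.ker σ
  have hrange : LinearMap.range φ ≤ W := by
    rintro _ ⟨b, rfl⟩
    refine ⟨?_, ?_⟩
    · simp only [φ, Fintype.linearCombination_apply]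
      exact Submodule.sum_mem _ fun i _ => Submodule.smul_mem _ _ (hv1 i)
    · rw [SetLike.mem_coe, LinearMap.mem_ker]
      rw [show φ b = ∑ i, b i • v i from Fintype.linearCombination_apply .., map_sum]
      refine Finset.sum_eq_zero fun i _ => ?_
      rw [map_smul, hσ, hvs, smul_zero]
  have hW : W < invSub X T := by
    refine lt_of_le_of_ne inf_le_left fun heq => ?_
    have h1 : (fun _ : X => (1 : ℂ)) ∈ invSub X T := fun _ => rfl
    rw [← heq] at h1
    have h2 := h1.2
    rw [SetLike.mem_coe, LinearMap.mem_ker, hσ] at h2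
    simp at h2
  have hW' := Submodule.finrank_lt_finrank_of_lt hW
  have hr := Submodule.finrank_mono hrange
  have hrn := LinearMap.finrank_range_add_finrank_ker φ
  rw [Module.finrank_fintype_fun_eq_card, Fintype.card_subtype] at hrn
  -- the kernel injects into cusp forms
  let ψ : (LinearMap.ker φ) →ₗ[ℂ] cuspV X :=
    { toFun := fun b => ⟨∑ i : J, (b : J → ℂ) i • s.F i, by
        refine ⟨IsVForm.sum _ _ fun i _ => ((s.isForm i).cast
          (by have := i.2; exact_mod_cast this)).smul _, fun x => ?_⟩
        have h1 : φ b = 0 := b.2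
        have h2 : ∑ i : J, (b : J → ℂ) i * v i x = 0 := by
          have := congrFun h1 x
          rw [show φ b = ∑ i, (b : J → ℂ) i • v i from Fintype.linearCombination_apply ..] at this
          simpa [Finset.sum_apply] using this
        have h3 : Tendsto (fun z => ∑ i : J, (b : J → ℂ) i * s.F i x z) atImInfty
            (𝓝 (∑ i : J, (b : J → ℂ) i * v i x)) :=
          tendsto_finsetSum _ fun i _ => (hv2 i x).const_mul _
        rw [h2] at h3
        refine h3.congr fun z => ?_
        simp [Finset.sum_apply]⟩
      map_add' := by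
        intro b b'
        apply Subtype.ext
        simp only [Submodule.coe_add, Pi.add_apply, add_smul, Finset.sum_add_distrib]
      map_smul' := by
        intro c b
        apply Subtype.ext
        simp only [Submodule.coe_smul, Pi.smul_apply, smul_eq_mul, RingHom.id_apply,
          Finset.smul_sum, mul_smul] }
  have hψ : Function.Injective ψ := by
    rw [← LinearMap.ker_eq_bot, LinearMap.ker_eq_bot']
    intro b hb
    obtain ⟨z0, hz0⟩ : ∃ z : ℍ, (s.mat z).det ≠ 0 := by
      by_contra hcon
      push Not at hcon
      exact s.det_ne (funext hcon)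
    have hrows := Matrix.linearIndependent_rows_of_det_ne_zero hz0
    have hJ := hrows.comp (fun i : J => (i : X)) Subtype.val_injective
    rw [Fintype.linearIndependent_iff] at hJ
    apply Subtype.ext
    funext i
    refine hJ b ?_ i
    funext x
    have h2 := congrArg (fun F : cuspV X => (F : X → ℍ → ℂ) x z0) hb
    simpa [ψ, Finset.sum_apply, mat] using h2
  have hk := LinearMap.finrank_le_finrank_of_injective hψ
  omega

/-- The lower bound for the dimension of the space of weight two cusp forms. -/
theorem lower_bound [FiniteDimensional ℂ (cuspV X)]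
    (hneg : ∀ x : X, (-1 : SL(2, ℤ)) • x = x) (hsys : Nonempty (FormSys X)) :
    Fintype.card X + 2 ≤ 2 * Module.finrank ℂ (cuspV X)
      + Module.finrank ℂ (invSub X S) + Module.finrank ℂ (invSub X (S * T))
      + Module.finrank ℂ (invSub X T) := by
  obtain ⟨s, hs⟩ := exists_isMin hsys
  have h1 := count hneg hs
  have h2 := card_ten_le hneg hs
  have h3 := card_two_le (s := s)
  omega

end FormSys

end Fermat.Agent.ES
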