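import Mathlib
import Fermat.Agent.ES.FormSys
import Fermat.Agent.ES.Infty
import Fermat.Agent.H16.Hecke

set_option autoImplicit false

namespace Fermat.Agent.ES

open UpperHalfPlane Filter Topology ModularForm Matrix.SpecialLinearGroup ModularGroup Asymptotics
open CongruenceSubgroup Fermat.Agent.H16
open scoped MatrixGroups Manifold

/-! ### Full rank systems from a separating form -/

section

variable {X : Type*} [Fintype X] [DecidableEq X] [MulAction SL(2, ℤ) X]

lemma IsVForm.pow {k : ℤ} {F : X → ℍ → ℂ} (hF : IsVForm k F) (n : ℕ) :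
    IsVForm (n * k) (fun x => F x ^ n) := by
  induction n with
  | zero =>
    simp only [pow_zero, Nat.cast_zero, zero_mul]
    exact IsVForm.one
  | succ n ih =>
    refine ⟨fun x => ?_, fun x g => ?_, fun x => ?_⟩
    · rw [pow_succ]; exact (ih.holo x).mul (hF.holo x)
    · rw [pow_succ, show ((n + 1 : ℕ) : ℤ) * k = n * k + k by push_cast; ring,
        ModularForm.mul_slash_SL2, ih.slash, hF.slash, ← pow_succ]
    · rw [pow_succ]; exact bdd_mul (ih.bdd x) (hF.bdd x)

theorem nonempty_system_of_separating {m : ℕ} {F : X → ℍ → ℂ} (hF : IsVForm (m : ℤ) F)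
    (hinj : Function.Injective F) : Nonempty (FormSys X) := by
  let e := Fintype.equivFin X
  refine ⟨⟨fun i => (e i : ℕ) * m, fun i x => F x ^ (e i : ℕ), fun i => ?_, ?_⟩⟩
  · exact (hF.pow (e i)).cast (by push_cast; ring)
  · intro h0
    have h1 : ∀ z : ℍ, ∏ i : Fin (Fintype.card X), ∏ j ∈ Finset.Ioi i,
        (F (e.symm j) z - F (e.symm i) z) = 0 := by
      intro z
      rw [← Matrix.det_vandermonde (fun j => F (e.symm j) z), ← Matrix.det_transpose,
        ← Matrix.det_submatrix_equiv_self e]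
      have := congrFun h0 z
      simp only [Pi.zero_apply] at this
      rw [← this]
      congr 1
      ext i x
      simp [Matrix.vandermonde]
    have h2 : (∏ i : Fin (Fintype.card X), ∏ j ∈ Finset.Ioi i,
        (F (e.symm j) - F (e.symm i))) = 0 := by
      funext z
      rw [Finset.prod_apply]
      simp only [Finset.prod_apply, Pi.sub_apply, Pi.zero_apply]
      exact h1 z
    rw [UpperHalfPlane.prod_eq_zero_iff (fun i _ => mdiff_prod _ fun j _ =>
      (hF.holo _).sub (hF.holo _))] at h2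
    obtain ⟨i, _, hi⟩ := h2
    rw [UpperHalfPlane.prod_eq_zero_iff (fun j _ => (hF.holo _).sub (hF.holo _))] at hi
    obtain ⟨j, hj, hij⟩ := hi
    have h3 : e.symm j = e.symm i := hinj (sub_eq_zero.mp hij)
    have h4 : j = i := e.symm.injective h3
    rw [h4, Finset.mem_Ioi] at hj
    exact lt_irrefl _ hj

end

/-! ### The form `Δ(Nz)` -/

section

variable (N : ℕ) [NeZero N]

/-- `diag (N, 1)` -/
noncomputable def dN : GL (Fin 2) ℝ :=
  Matrix.GeneralLinearGroup.mkOfDetNeZero !![(N : ℝ), 0; 0, 1]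
    (by simpa [Matrix.det_fin_two] using NeZero.ne N)

lemma dN_val : (dN N).val = !![(N : ℝ), 0; 0, 1] := rfl

lemma dN_mem : dN N ∈ intMat := by
  refine ⟨?_, !![(N : ℤ), 0; 0, 1], ?_⟩
  · rw [Matrix.GeneralLinearGroup.val_det_apply, dN_val, Matrix.det_fin_two]
    simpa using Nat.pos_of_ne_zero (NeZero.ne N)
  · rw [dN_val]
    ext i j
    fin_cases i <;> fin_cases j <;> simp

lemma gamma0_one_coe : ((Gamma0 1 : Subgroup SL(2, ℤ)) : Subgroup (GL (Fin 2) ℝ)) = 𝒮ℒ := by
  have : Gamma0 1 = ⊤ := by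
    rw [eq_top_iff]
    intro g _
    rw [Gamma0_mem]
    exact Subsingleton.elim _ _
  rw [this, ← MonoidHom.range_eq_map]

/-- the discriminant as a cusp form on `Γ₀(1)` -/
noncomputable def discOne : CuspForm ((Gamma0 1 : Subgroup SL(2, ℤ)) : Subgroup (GL (Fin 2) ℝ)) 12 :=
  CuspForm.mcast rfl CuspForm.discriminant gamma0_one_coe

lemma coe_discOne : (discOne : ℍ → ℂ) = discriminant := rfl

lemma disc_slash_cuspidal {γ : GL (Fin 2) ℝ} (hγ : γ ∈ intMat) :
    Cuspidal (discriminant ∣[(12 : ℤ)] γ) := by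
  have := cuspidal_slash discOne hγ
  rwa [coe_discOne] at this

lemma disc_slash_SL (g : SL(2, ℤ)) : discriminant ∣[(12 : ℤ)] (mapGL ℝ g) = discriminant :=
  isLevelOne_disc.slash g

/-- conjugation of `Γ₀(N)` by `diag(N,1)` -/
lemma dN_conj (γ : SL(2, ℤ)) (hγ : γ ∈ Gamma0 N) :
    ∃ γ' : SL(2, ℤ), dN N * mapGL ℝ γ = mapGL ℝ γ' * dN N := by
  have h1 : ((γ.1 1 0 : ℤ) : ZMod N) = 0 := Gamma0_mem.mp hγ
  rw [ZMod.intCast_zmod_eq_zero_iff_dvd] at h1
  obtain ⟨c, hc⟩ := h1
  have hdet := γ.2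
  rw [Matrix.det_fin_two, hc] at hdet
  refine ⟨⟨!![γ.1 0 0, N * γ.1 0 1; c, γ.1 1 1], ?_⟩, ?_⟩
  · rw [Matrix.det_fin_two_of]
    linear_combination hdet
  · apply Units.ext
    rw [Units.val_mul, Units.val_mul, dN_val]
    ext i j
    fin_cases i <;> fin_cases j <;>
      simp [Matrix.mul_apply, Fin.sum_univ_two, hc, mul_comm]

/-- the form `Δ(Nz)`, vector valued -/
noncomputable def FN (x : SL(2, ℤ) ⧸ Gamma0 N) : ℍ → ℂ :=
  discriminant ∣[(12 : ℤ)] (dN N * mapGL ℝ (Quotient.out x)⁻¹)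

lemma FN_mk (g : SL(2, ℤ)) :
    FN N (g : SL(2, ℤ) ⧸ Gamma0 N) = discriminant ∣[(12 : ℤ)] (dN N * mapGL ℝ g⁻¹) := by
  rw [FN]
  have h1 : (Quotient.out (g : SL(2, ℤ) ⧸ Gamma0 N))⁻¹ * g ∈ Gamma0 N :=
    QuotientGroup.eq.mp (QuotientGroup.out_eq' _)
  obtain ⟨γ', hγ'⟩ := dN_conj N _ h1
  have h2 : dN N * mapGL ℝ (Quotient.out (g : SL(2, ℤ) ⧸ Gamma0 N))⁻¹
      = mapGL ℝ γ' * (dN N * mapGL ℝ g⁻¹) := by
    rw [← mul_assoc, ← hγ', mul_assoc, ← map_mul]
    congr 2
    group
  rw [h2, SlashAction.slash_mul, disc_slash_SL]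

lemma FN_isVForm : IsVForm ((12 : ℕ) : ℤ) (FN N) where
  holo x := (disc_slash_cuspidal (mul_mem (dN_mem N) (mapGL_mem _))).holo
  slash x g := by
    obtain ⟨h, rfl⟩ := QuotientGroup.mk_surjective x
    have h1 : g⁻¹ • ((h : SL(2, ℤ)) : SL(2, ℤ) ⧸ Gamma0 N) = ((g⁻¹ * h : SL(2, ℤ)) : SL(2, ℤ) ⧸ Gamma0 N) := rfl
    rw [h1, FN_mk, FN_mk]
    show (discriminant ∣[(12 : ℤ)] (dN N * mapGL ℝ h⁻¹)) ∣[(12 : ℤ)] (mapGL ℝ g) = _
    rw [← SlashAction.slash_mul, mul_assoc, ← map_mul]
    congr 3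
    group
  bdd x := (disc_slash_cuspidal (mul_mem (dN_mem N) (mapGL_mem _))).zero.boundedAtFilter

lemma tendsto_smul_upper {β : GL (Fin 2) ℝ} (hβ : β ∈ intMat) (h10 : β 1 0 = 0) :
    ∃ r : ℝ, 0 < r ∧ r * (β 1 1) ^ 2 = β.det.val ∧ ∀ z : ℍ, (β • z).im = r * z.im := by
  have hdet := det_pos_of_mem hβ
  have hdet2 : β.det.val = β 0 0 * β 1 1 := by
    rw [Matrix.GeneralLinearGroup.val_det_apply, Matrix.det_fin_two]
    have : β.val 1 0 = 0 := h10
    rw [this]; ring_nf
  have hd : β 1 1 ≠ 0 := by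
    intro h
    rw [hdet2, h, mul_zero] at hdet
    exact lt_irrefl _ hdet
  refine ⟨β.det.val / (β 1 1) ^ 2, div_pos hdet (by positivity), by field_simp, fun z => ?_⟩
  rw [UpperHalfPlane.im_smul_eq_div_normSq]
  have h1 : denom β z = ((β 1 1 : ℝ) : ℂ) := by
    rw [denom, h10]; simp
  rw [h1, Complex.normSq_ofReal, abs_of_pos hdet]
  ring

lemma FN_injective : Function.Injective (FN N) := by
  intro x y hxy
  obtain ⟨g, rfl⟩ := QuotientGroup.mk_surjective x
  obtain ⟨h, rfl⟩ := QuotientGroup.mk_surjective y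
  rw [FN_mk, FN_mk] at hxy
  -- reduce to a single element
  set k : SL(2, ℤ) := g⁻¹ * h with hk
  have h1 : discriminant ∣[(12 : ℤ)] (dN N * mapGL ℝ k) = discriminant ∣[(12 : ℤ)] (dN N) := by
    have e1 : dN N * mapGL ℝ k = (dN N * mapGL ℝ g⁻¹) * mapGL ℝ h := by
      rw [mul_assoc, ← map_mul]
    rw [e1, SlashAction.slash_mul, hxy, ← SlashAction.slash_mul, mul_assoc, ← map_mul,
      inv_mul_cancel, map_one, mul_one]
  rw [QuotientGroup.eq]
  show k ∈ Gamma0 N
  obtain ⟨γ', β, hβ, h10, hdec⟩ := exists_SL_mul_upper (mul_mem (dN_mem N) (mapGL_mem k))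
  rw [hdec, SlashAction.slash_mul, disc_slash_SL] at h1
  -- compare the growth at infinity
  obtain ⟨r, hr, hrd, him⟩ := tendsto_smul_upper hβ h10
  obtain ⟨r', hr', hrd', him'⟩ := tendsto_smul_upper (dN_mem N) (by simp [dN_val])
  have hN : (0 : ℝ) < N := by exact_mod_cast Nat.pos_of_ne_zero (NeZero.ne N)
  have hdetN : (dN N).det.val = N := by
    rw [Matrix.GeneralLinearGroup.val_det_apply, dN_val, Matrix.det_fin_two]; simp
  have hr'N : r' = N := by
    have : (dN N) 1 1 = 1 := by simp [dN_val]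
    rw [this, hdetN] at hrd'
    linarith
  have hdetβ : β.det.val = N := by
    have h2 := congrArg (fun M : GL (Fin 2) ℝ => M.det.val) hdec
    simp only [map_mul, Units.val_mul] at h2
    rw [hdetN] at h2
    simp at h2
    rw [Matrix.GeneralLinearGroup.val_det_apply]
    exact h2.symm
  -- the key inequality `N ≤ r`
  have hkey : (N : ℝ) ≤ r := by
    by_contra hlt
    push Not at hlt
    have hT1 : Tendsto (fun z : ℍ => β • z) atImInfty atImInfty := by
      rw [atImInfty, tendsto_comap_iff]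
      have : (im ∘ fun z : ℍ => β • z) = fun z => r * z.im := by
        funext z; exact him z
      rw [this]
      exact tendsto_comap.const_mul_atTop hr
    have hT2 : Tendsto (fun z : ℍ => dN N • z) atImInfty atImInfty := by
      rw [atImInfty, tendsto_comap_iff]
      have : (im ∘ fun z : ℍ => dN N • z) = fun z => r' * z.im := by
        funext z; exact him' z
      rw [this]
      exact tendsto_comap.const_mul_atTop hr'
    have o1 : (fun z : ℍ => Real.exp (-2 * Real.pi * (β • z).im)) =O[atImInfty]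
        (fun z => discriminant (β • z)) := exp_isBigO_discriminant.comp_tendsto hT1
    have o2 : (fun z : ℍ => discriminant (dN N • z)) =O[atImInfty]
        (fun z => Real.exp (-2 * Real.pi * (dN N • z).im)) := by
      have h1 := CuspFormClass.exp_decay_atImInfty (CuspForm.discriminant) (h := 1) one_pos
        one_mem_strictPeriods_SL
      have h2 := h1.comp_tendsto hT2
      refine h2.congr (fun _ => rfl) fun z => ?_
      simp
    have o3 : (fun z : ℍ => discriminant (β • z)) =O[atImInfty]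
        (fun z => discriminant (dN N • z)) := by
      have hβ11 : β 1 1 ≠ 0 := by
        intro h
        rw [h, hdetβ] at hrd
        norm_num at hrd
        exact hN.ne' hrd.symm
      have e : ∀ z : ℍ, discriminant (β • z)
          = ((β 1 1 : ℝ) : ℂ) ^ (12 : ℤ) * discriminant (dN N • z) := by
        intro z
        have h2 := congrFun h1 z
        rw [ModularForm.slash_apply, ModularForm.slash_apply, hdetβ, hdetN] at h2
        have hσ1 : σ β = ContinuousAlgEquiv.refl ℝ ℂ := by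
          rw [σ, if_pos (det_pos_of_mem hβ)]
        have hσ2 : σ (dN N) = ContinuousAlgEquiv.refl ℝ ℂ := by
          rw [σ, if_pos (det_pos_of_mem (dN_mem N))]
        have hd1 : denom β z = ((β 1 1 : ℝ) : ℂ) := by
          rw [denom, h10]; simp
        have hd2 : denom (dN N) z = 1 := by
          simp [denom, dN_val]
        rw [hσ1, hσ2, hd1, hd2] at h2
        simp only [ContinuousAlgEquiv.refl_apply, one_zpow, mul_one] at h2
        have hNc : ((|(N : ℝ)| : ℝ) : ℂ) ^ ((12 : ℤ) - 1) ≠ 0 := by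
          apply zpow_ne_zero
          rw [abs_of_pos hN]
          exact_mod_cast hN.ne'
        have hβc : ((β 1 1 : ℝ) : ℂ) ≠ 0 := by exact_mod_cast hβ11
        have h3 : discriminant (β • z) * ((β 1 1 : ℝ) : ℂ) ^ (-(12 : ℤ))
            = discriminant (dN N • z) := by
          apply mul_right_cancel₀ hNc
          rw [← h2]; ring
        rw [← h3, zpow_neg]
        field_simp
      refine (IsBigO.const_mul_left (isBigO_refl (fun z : ℍ => discriminant (dN N • z)) atImInfty)
        (((β 1 1 : ℝ) : ℂ) ^ (12 : ℤ))).congr_left fun z => ?_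
      rw [e z]
    have o4 := (o1.trans o3).trans o2
    obtain ⟨C, hC⟩ := o4.bound
    have hlim : Tendsto (fun z : ℍ => Real.exp (2 * Real.pi * ((N : ℝ) - r) * z.im)) atImInfty
        atTop := by
      apply Real.tendsto_exp_atTop.comp
      refine Tendsto.const_mul_atTop ?_ tendsto_comap
      have := Real.pi_pos
      have : 0 < (N : ℝ) - r := by linarith
      positivity
    obtain ⟨z, hz1, hz2⟩ := (hC.and (hlim.eventually (eventually_gt_atTop C))).exists
    rw [him, him', hr'N] at hz1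
    simp only [Real.norm_eq_abs, Real.abs_exp] at hz1
    have h3 : Real.exp (-2 * Real.pi * (r * z.im))
        = Real.exp (2 * Real.pi * ((N : ℝ) - r) * z.im) * Real.exp (-2 * Real.pi * (N * z.im)) := by
      rw [← Real.exp_add]; congr 1; ring
    rw [h3] at hz1
    have h4 := le_of_mul_le_mul_right hz1 (Real.exp_pos _)
    linarith
  -- integrality
  obtain ⟨-, B, hB⟩ := hβ
  have hB11 : β 1 1 = (B 1 1 : ℤ) := by
    have := congrFun (congrFun hB 1) 1
    simpa using this
  have hB00 : β 0 0 = (B 0 0 : ℤ) := by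
    have := congrFun (congrFun hB 0) 0
    simpa using this
  have hdet2 : β.det.val = β 0 0 * β 1 1 := by
    rw [Matrix.GeneralLinearGroup.val_det_apply, Matrix.det_fin_two]
    have : β.val 1 0 = 0 := h10
    rw [this]; ring_nf
  rw [hdetβ] at hrd hdet2
  have hB11ne : B 1 1 ≠ 0 := by
    intro h0
    rw [hB11, h0] at hrd
    norm_num at hrd
    exact hN.ne' hrd.symm
  have hsq : (B 1 1) ^ 2 = 1 := by
    have h3 : (N : ℝ) * ((B 1 1 : ℤ) : ℝ) ^ 2 ≤ N := by
      have h4 : (N : ℝ) * ((B 1 1 : ℤ) : ℝ) ^ 2 ≤ r * ((B 1 1 : ℤ) : ℝ) ^ 2 :=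
        mul_le_mul_of_nonneg_right hkey (by positivity)
      rw [← hB11] at h4 ⊢
      linarith
    have h5 : ((B 1 1 : ℤ) : ℝ) ^ 2 ≤ 1 := by
      have := (mul_le_iff_le_one_right hN).mp h3
      exact this
    have h6 : (B 1 1) ^ 2 ≤ 1 := by exact_mod_cast h5
    have h7 : 0 < (B 1 1) ^ 2 := by positivity
    omega
  have hB00N : B 0 0 = N * B 1 1 := by
    have h3 : (N : ℝ) = (B 0 0 : ℤ) * (B 1 1 : ℤ) := by rw [← hB00, ← hB11]; exact hdet2
    have h4 : (N : ℤ) = B 0 0 * B 1 1 := by exact_mod_cast h3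
    rw [h4]
    linear_combination (-(B 0 0)) * hsq
  -- lower left entry
  have hentry := congrArg (fun M : GL (Fin 2) ℝ => M.val 1 0) hdec
  simp only [Units.val_mul] at hentry
  rw [dN_val] at hentry
  have hβ10 : β.val 1 0 = 0 := h10
  have hβ00 : β.val 0 0 = (B 0 0 : ℤ) := hB00
  simp only [Matrix.mul_apply, Fin.sum_univ_two, hβ10, hβ00, hB00N] at hentry
  simp at hentry
  rw [Gamma0_mem, ZMod.intCast_zmod_eq_zero_iff_dvd]
  refine ⟨γ'.1 1 0 * B 1 1, ?_⟩
  have h5 : ((k.1 1 0 : ℤ) : ℝ) = ((N * (γ'.1 1 0 * B 1 1) : ℤ) : ℝ) := by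
    push_cast
    linear_combination hentry
  exact_mod_cast h5

/-- Full rank systems exist for `SL(2,ℤ)/Γ₀(N)`. -/
theorem nonempty_system [Fintype (SL(2, ℤ) ⧸ Gamma0 N)] [DecidableEq (SL(2, ℤ) ⧸ Gamma0 N)] :
    Nonempty (FormSys (SL(2, ℤ) ⧸ Gamma0 N)) :=
  nonempty_system_of_separating (FN_isVForm N) (FN_injective N)

end

end Fermat.Agent.ES
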