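import Mathlib
import Fermat.Agent.ES.Infty
import Fermat.Agent.H16.Weight2

set_option autoImplicit false

namespace Fermat.Agent.ES

open UpperHalfPlane Filter Topology ModularForm Matrix.SpecialLinearGroup ModularGroup Asymptotics
open CongruenceSubgroup Fermat.Agent.H16
open scoped MatrixGroups Manifold ComplexConjugate

/-- Holomorphic functions which are periodic and bounded at every cusp. -/
structure Good (A : ℍ → ℂ) : Prop where
  holo : MDiff A
  per : ∀ δ : SL(2, ℤ), ∃ n : ℕ, 0 < n ∧ ∀ z : ℍ, A (δ • T ^ n • z) = A (δ • z)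
  bdd : ∀ δ : SL(2, ℤ), IsBoundedAtImInfty (fun z => A (δ • z))

lemma per_mul {A : ℍ → ℂ} {δ : SL(2, ℤ)} {n : ℕ} (h : ∀ z : ℍ, A (δ • T ^ n • z) = A (δ • z))
    (m : ℕ) (z : ℍ) : A (δ • T ^ (n * m) • z) = A (δ • z) := by
  induction m with
  | zero => simp
  | succ m ih =>
    rw [mul_add, mul_one, add_comm, pow_add, mul_smul, h, ih]

namespace Good

variable {A B : ℍ → ℂ}

lemma add (hA : Good A) (hB : Good B) : Good (A + B) where
  holo := hA.holo.add hB.holo
  per δ := by
    obtain ⟨n, hn, h1⟩ := hA.per δ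
    obtain ⟨m, hm, h2⟩ := hB.per δ
    refine ⟨n * m, Nat.mul_pos hn hm, fun z => ?_⟩
    simp only [Pi.add_apply]
    rw [per_mul h1 m z, mul_comm n m, per_mul h2 n z]
  bdd δ := (hA.bdd δ).add (hB.bdd δ)

lemma smul (c : ℂ) (hA : Good A) : Good (c • A) where
  holo := hA.holo.const_smul c
  per δ := by
    obtain ⟨n, hn, h1⟩ := hA.per δ
    refine ⟨n, hn, fun z => ?_⟩
    simp only [Pi.smul_apply]
    rw [h1]
  bdd δ := (hA.bdd δ).const_smul_left c

lemma exp (hA : Good A) : Good (fun z => Complex.exp (A z)) where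
  holo := by
    have := UpperHalfPlane.mdifferentiable_iff.mp hA.holo
    rw [UpperHalfPlane.mdifferentiable_iff]
    exact this.cexp
  per δ := by
    obtain ⟨n, hn, h1⟩ := hA.per δ
    refine ⟨n, hn, fun z => ?_⟩
    rw [h1]
  bdd δ := by
    obtain ⟨M, Y, h⟩ := UpperHalfPlane.isBoundedAtImInfty_iff.mp (hA.bdd δ)
    rw [UpperHalfPlane.isBoundedAtImInfty_iff]
    refine ⟨Real.exp M, Y, fun z hz => ?_⟩
    rw [Complex.norm_exp]
    exact Real.exp_le_exp.mpr ((Complex.re_le_norm _).trans (h z hz))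

lemma comp (hA : Good A) (g : SL(2, ℤ)) : Good (fun z => A (g • z)) where
  holo := by
    have h1 : MDiff (fun z : ℍ => (mapGL ℝ g) • z) := mdifferentiable_smul (by simp)
    exact hA.holo.comp h1
  per δ := by
    obtain ⟨n, hn, h1⟩ := hA.per (g * δ)
    refine ⟨n, hn, fun z => ?_⟩
    have := h1 z
    rw [mul_smul, mul_smul] at this
    exact this
  bdd δ := by
    have := hA.bdd (g * δ)
    simp_rw [mul_smul] at this
    exact this

lemma periodic (hA : Good A) : ∃ n : ℕ, 0 < n ∧ Function.Periodic (A ∘ ofComplex) (n : ℝ) := by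
  obtain ⟨n, hn, h1⟩ := hA.per 1
  simp only [one_smul] at h1
  refine ⟨n, hn, ?_⟩
  intro w
  by_cases hw : 0 < w.im
  · have h2 : 0 < (w + (n : ℝ)).im := by simpa using hw
    simp only [Function.comp_apply]
    have e1 : ofComplex (w + ((n : ℝ) : ℂ)) = T ^ n • ofComplex w := by
      apply UpperHalfPlane.ext
      rw [T_pow_smul_coe, ofComplex_apply_of_im_pos hw, ofComplex_apply_of_im_pos h2]
      simp
    rw [e1, h1]
  · have h2 : (w + (n : ℝ)).im ≤ 0 := by simpa using not_lt.mp hw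
    simp only [Function.comp_apply]
    rw [ofComplex_apply_of_im_nonpos h2, ofComplex_apply_of_im_nonpos (not_lt.mp hw)]

lemma bdd_one (hA : Good A) : IsBoundedAtImInfty A := by
  have := hA.bdd 1
  simp only [one_smul] at this
  exact this

/-- the disc function -/
lemma exists_disc (hA : Good A) : ∃ (n : ℕ) (f : ℂ → ℂ), 0 < n ∧
    DifferentiableOn ℂ f (Metric.ball 0 1) ∧ (∀ z : ℍ, A z = f (qh n z)) := by
  obtain ⟨n, hn, hper⟩ := hA.periodic
  have hn' : (0 : ℝ) < n := by exact_mod_cast hn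
  refine ⟨n, cuspFunction (n : ℝ) A, hn,
    differentiableOn_cuspFunction_ball hn' hper hA.holo hA.bdd_one, fun z => ?_⟩
  rw [eq_cuspFunction z hn'.ne' hper]

end Good

/-- **Maximum principle**: a good function whose absolute value is invariant under a finite
index subgroup is constant. -/
theorem Good.const_of_norm_invariant {Γ : Subgroup SL(2, ℤ)} [Finite (SL(2, ℤ) ⧸ Γ)]
    {φ : ℍ → ℂ} (hφ : Good φ) (hinv : ∀ γ ∈ Γ, ∀ z : ℍ, ‖φ (γ • z)‖ = ‖φ z‖) :
    ∀ z w : ℍ, φ z = φ w := by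
  classical
  let X := SL(2, ℤ) ⧸ Γ
  have hg : ∀ x : X, Good (fun z => φ ((Quotient.out x)⁻¹ • z)) := fun x => hφ.comp _
  choose n f hn hf hfz using fun x => (hg x).exists_disc
  -- the radius
  let r : X → ℝ := fun x => Real.exp (-2 * Real.pi * (1 / 2) / (n x))
  have hn' : ∀ x, (0 : ℝ) < n x := fun x => by exact_mod_cast hn x
  have hr : ∀ x, r x < 1 := by
    intro x
    have := Real.pi_pos
    have := hn' x
    apply Real.exp_lt_one_iff.mpr
    have : 0 < 2 * Real.pi * (1 / 2) / (n x) := by positivity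
    have h2 : -2 * Real.pi * (1 / 2) / (n x) = - (2 * Real.pi * (1 / 2) / (n x)) := by ring
    rw [h2]; linarith
  have hsub : ∀ x, Metric.closedBall (0 : ℂ) (r x) ⊆ Metric.ball 0 1 := fun x =>
    Metric.closedBall_subset_ball (hr x)
  have hmax : ∀ x, ∃ q ∈ Metric.closedBall (0 : ℂ) (r x),
      IsMaxOn (fun q => ‖f x q‖) (Metric.closedBall (0 : ℂ) (r x)) q := by
    intro x
    refine (isCompact_closedBall (0 : ℂ) (r x)).exists_isMaxOn
      ⟨0, Metric.mem_closedBall_self (Real.exp_pos _).le⟩ ?_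
    exact ((hf x).continuousOn.mono (hsub x)).norm
  choose q hq hqmax using hmax
  haveI : Nonempty X := ⟨((1 : SL(2, ℤ)) : SL(2, ℤ) ⧸ Γ)⟩
  obtain ⟨x0, hx0⟩ := Finite.exists_max (fun x : X => ‖f x (q x)‖)
  -- global bound
  have hbound : ∀ w : ℍ, ‖φ w‖ ≤ ‖f x0 (q x0)‖ := by
    intro w
    obtain ⟨g, hgim⟩ := exists_one_half_le_im_smul w
    let x : X := (g : SL(2, ℤ) ⧸ Γ)
    have h1 : ‖φ w‖ = ‖φ ((Quotient.out x)⁻¹ • g • w)‖ := by
      have h2 : (Quotient.out x)⁻¹ * g ∈ Γ := QuotientGroup.eq.mp (QuotientGroup.out_eq' _)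
      rw [← mul_smul, hinv _ h2]
    rw [h1, hfz x (g • w)]
    refine le_trans ?_ (hx0 x)
    apply hqmax x
    rw [mem_closedBall_zero_iff, qh, Function.Periodic.norm_qParam]
    apply Real.exp_le_exp.mpr
    have h3 := Real.pi_pos
    have h4 := hn' x
    rw [div_le_div_iff_of_pos_right h4]
    simp only [coe_im]
    nlinarith
  -- `f x0` attains its maximum in the interior
  have hq0 : q x0 ∈ Metric.ball (0 : ℂ) 1 := hsub x0 (hq x0)
  have hmx : IsMaxOn (norm ∘ f x0) (Metric.ball (0 : ℂ) 1) (q x0) := by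
    have hne : ∀ p ∈ Metric.ball (0 : ℂ) 1, p ≠ 0 → ‖f x0 p‖ ≤ ‖f x0 (q x0)‖ := by
      intro p hp hp0
      have hp1 : ‖p‖ < 1 := by simpa using hp
      have him := Function.Periodic.im_invQParam_pos_of_norm_lt_one (hn' x0) hp1 hp0
      have h5 := hfz x0 ⟨_, him⟩
      have h6 : qh (n x0) (⟨_, him⟩ : ℍ) = p := by
        rw [qh]
        exact Function.Periodic.qParam_right_inv (hn' x0).ne' hp0
      rw [h6] at h5
      rw [← h5]
      exact hbound _
    intro p hp
    by_cases hp0 : p = 0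
    · subst hp0
      -- by continuity
      have hcont : ContinuousAt (fun p => ‖f x0 p‖) 0 :=
        (((hf x0).differentiableAt (Metric.isOpen_ball.mem_nhds hp)).continuousAt).norm
      have h7 : Tendsto (fun p => ‖f x0 p‖) (𝓝[≠] 0) (𝓝 ‖f x0 0‖) :=
        hcont.tendsto.mono_left nhdsWithin_le_nhds
      refine le_of_tendsto h7 ?_
      have h8 : ∀ᶠ p in 𝓝[≠] (0 : ℂ), p ∈ Metric.ball (0 : ℂ) 1 :=
        nhdsWithin_le_nhds (Metric.isOpen_ball.mem_nhds hp)
      filter_upwards [h8, self_mem_nhdsWithin] with p hp1 hp2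
      exact hne p hp1 hp2
    · exact hne p hp hp0
  have hconst := Complex.eqOn_of_isPreconnected_of_isMaxOn_norm
    (convex_ball (0 : ℂ) 1).isPreconnected Metric.isOpen_ball (hf x0) hq0 hmx
  have hc : ∀ z : ℍ, φ ((Quotient.out x0)⁻¹ • z) = f x0 (q x0) := by
    intro z
    rw [hfz x0 z]
    apply hconst
    rw [mem_ball_zero_iff]
    exact Function.Periodic.norm_qParam_lt_one (hn' x0) z.im_pos
  intro z w
  have h1 := hc (Quotient.out x0 • z)
  have h2 := hc (Quotient.out x0 • w)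
  rw [inv_smul_smul] at h1 h2
  rw [h1, h2]

/-- If the real part of a good function is invariant, its derivative vanishes. -/
theorem Good.deriv_eq_zero {Γ : Subgroup SL(2, ℤ)} [Finite (SL(2, ℤ) ⧸ Γ)]
    {A a : ℍ → ℂ} (hA : Good A) (ha : ∀ τ : ℍ, HasDerivAt (A ∘ ofComplex) (a τ) τ)
    (hinv : ∀ γ ∈ Γ, ∀ z : ℍ, (A (γ • z)).re = (A z).re) (τ : ℍ) : a τ = 0 := by
  have h1 := hA.exp.const_of_norm_invariant (Γ := Γ) (by
    intro γ hγ z
    rw [Complex.norm_exp, Complex.norm_exp, hinv γ hγ z])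
  have h2 : HasDerivAt (fun w => Complex.exp ((A ∘ ofComplex) w))
      (Complex.exp ((A ∘ ofComplex) τ) * a τ) τ := (ha τ).cexp
  have h3 : (fun w => Complex.exp ((A ∘ ofComplex) w)) = fun _ => Complex.exp (A τ) := by
    funext w
    exact h1 (ofComplex w) τ
  rw [h3] at h2
  have h4 := h2.unique (hasDerivAt_const _ _)
  exact (mul_eq_zero.mp h4).resolve_left (Complex.exp_ne_zero _)

/-! ### Complex conjugation -/

/-- the reflected function `conj (F (-conj z))` -/
noncomputable def refl (F : ℍ → ℂ) (z : ℍ) : ℂ := conj (F (J • z))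

lemma J_smul_SL (g : SL(2, ℤ)) (z : ℍ) :
    J • (g • z) = (ModularCurve.Period.jConjSL g) • (J • z) := by
  have h : J * mapGL ℝ g = mapGL ℝ (ModularCurve.Period.jConjSL g) * J := by
    apply Units.ext
    rw [Units.val_mul, Units.val_mul, val_J]
    ext i j
    fin_cases i <;> fin_cases j <;>
      simp [Matrix.mul_apply, Fin.sum_univ_two]
  show J • (mapGL ℝ g • z) = (mapGL ℝ (ModularCurve.Period.jConjSL g)) • (J • z)
  rw [← mul_smul, h, mul_smul]

lemma jConjSL_T_pow (n : ℕ) :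
    ModularCurve.Period.jConjSL (T ^ n) = (T ^ n)⁻¹ := by
  have h1 : ModularCurve.Period.jConjSL T = T⁻¹ := by
    apply Subtype.ext
    rw [ModularCurve.Period.jConjSL_coe]
    ext i j
    fin_cases i <;> fin_cases j <;> simp [ModularCurve.Period.jConjMat, T, Matrix.SpecialLinearGroup.coe_inv]
  rw [map_pow, h1, inv_pow]

lemma im_J_smul (z : ℍ) : (J • z).im = z.im := by
  have := coe_J_smul z
  rw [← coe_im, this]
  simp

lemma tendsto_J : Tendsto (fun z : ℍ => J • z) atImInfty atImInfty := by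
  rw [atImInfty, tendsto_comap_iff]
  have : (im ∘ fun z : ℍ => J • z) = im := by
    funext z; exact im_J_smul z
  rw [this]
  exact tendsto_comap

lemma refl_hasDerivAt {A a : ℍ → ℂ} (ha : ∀ τ : ℍ, HasDerivAt (A ∘ ofComplex) (a τ) τ) (τ : ℍ) :
    HasDerivAt (refl A ∘ ofComplex) (- refl a τ) τ := by
  have h1 := ha (J • τ)
  rw [coe_J_smul] at h1
  -- derivative of `w ↦ A (ofComplex (-w))` at `conj τ`
  have h2 : HasDerivAt (fun w : ℂ => (A ∘ ofComplex) (-w)) (-(a (J • τ))) (conj (τ : ℂ)) := by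
    have := HasDerivAt.comp (conj (τ : ℂ)) h1 (hasDerivAt_neg (conj (τ : ℂ)))
    rw [mul_neg, mul_one] at this
    exact this
  have h3 := h2.conj_conj
  rw [Complex.conj_conj] at h3
  have h4 : conj (-(a (J • τ))) = - refl a τ := by
    rw [map_neg]; rfl
  rw [h4] at h3
  refine h3.congr_of_eventuallyEq ?_
  filter_upwards [isOpen_upperHalfPlaneSet.mem_nhds τ.im_pos] with w hw
  simp only [Function.comp_apply, refl]
  congr 2
  apply UpperHalfPlane.ext
  rw [coe_J_smul, ofComplex_apply_of_im_pos hw, ofComplex_apply_of_im_pos (by simpa using hw)]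

lemma Good.refl {A a : ℍ → ℂ} (hA : Good A)
    (ha : ∀ τ : ℍ, HasDerivAt (A ∘ ofComplex) (a τ) τ) : Good (ES.refl A) where
  holo := by
    intro τ
    rw [UpperHalfPlane.mdifferentiableAt_iff]
    exact (refl_hasDerivAt ha τ).differentiableAt
  per δ := by
    obtain ⟨n, hn, h1⟩ := hA.per (ModularCurve.Period.jConjSL δ)
    refine ⟨n, hn, fun z => ?_⟩
    simp only [ES.refl]
    rw [J_smul_SL, J_smul_SL, J_smul_SL, jConjSL_T_pow]
    have := h1 ((T ^ n)⁻¹ • J • z)
    rw [smul_inv_smul] at this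
    rw [this]
  bdd δ := by
    have h1 := (hA.bdd (ModularCurve.Period.jConjSL δ)).comp_tendsto tendsto_J
    have h2 : (fun z => ES.refl A (δ • z))
        = fun z => conj (((fun z => A ((ModularCurve.Period.jConjSL δ) • z)) ∘ fun z => J • z) z) := by
      funext z
      simp only [ES.refl, Function.comp_apply]
      rw [J_smul_SL]
    rw [h2]
    show _ =O[atImInfty] _
    have h3 := h1.norm_left
    refine IsBigO.of_norm_left ?_
    simpa using h3

/-! ### Primitives of cusp forms -/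

variable {N : ℕ} [NeZero N]

lemma good_prim (f : CuspForm (Gamma0 N) 2) : Good (prim (⇑f)) where
  holo := (cuspidal_coe f).prim.holo
  per δ := by
    obtain ⟨n, hn, hper⟩ := (cuspidal_slash f (mapGL_mem δ)).prim.per
    refine ⟨n, hn, fun z => ?_⟩
    have e1 := per_eq (adm_coe f) (mapGL_mem δ) z
    have e2 := per_eq (adm_coe f) (mapGL_mem δ) (T ^ n • z)
    have e3 : prim (⇑f ∣[(2 : ℤ)] mapGL ℝ δ) (T ^ n • z) = prim (⇑f ∣[(2 : ℤ)] mapGL ℝ δ) z := by
      have h1 := hper (z : ℂ)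
      simp only [Function.comp_apply, ofComplex_apply] at h1
      rw [← h1]
      congr 1
      apply UpperHalfPlane.ext
      rw [T_pow_smul_coe, ofComplex_apply_of_im_pos (by simpa using z.im_pos)]
      simp
    rw [e3] at e2
    show prim (⇑f) (mapGL ℝ δ • T ^ n • z) = prim (⇑f) (mapGL ℝ δ • z)
    linear_combination e2 - e1
  bdd δ := by
    have h1 : (fun w : ℍ ↦ prim (⇑f) (δ • w)) =
        fun w : ℍ ↦ prim (⇑f ∣[(2 : ℤ)] mapGL ℝ δ) w + per (⇑f) (mapGL ℝ δ) := by
      funext w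
      have := per_eq (adm_coe f) (mapGL_mem δ) w
      rw [← this]
      change prim (⇑f) (mapGL ℝ δ • w) = _
      ring
    rw [h1]
    have h2 : IsBoundedAtImInfty (prim (⇑f ∣[(2 : ℤ)] mapGL ℝ δ)) :=
      (cuspidal_slash f (mapGL_mem δ)).prim.zero.isBoundedAtImInfty
    exact h2.add (Filter.const_boundedAtFilter _ _)

lemma prim_hasDerivAt (f : CuspForm (Gamma0 N) 2) (τ : ℍ) :
    HasDerivAt (prim (⇑f) ∘ ofComplex) (f τ) τ := (cuspidal_coe f).hasPrim.isPrim.deriv τ

/-- If `P f + ε ι P f = 0` with `ε = ± 1`, then `f = 0`. -/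
theorem eq_zero_of_eigen (f : CuspForm (Gamma0 N) 2) (ε : ℂ) (hε : ε = 1 ∨ ε = -1)
    (h : ∀ γ : Gamma0 N, ModularCurve.periodMap N f (Additive.ofMul γ)
      + ε * ModularCurve.periodMap N f (Additive.ofMul (ModularCurve.Period.jConjGamma0 N γ)) = 0) :
    f = 0 := by
  haveI : Finite (SL(2, ℤ) ⧸ Gamma0 N) := inferInstance
  set F := prim (⇑f) with hF
  have hε2 : conj ε = ε := by rcases hε with rfl | rfl <;> simp
  have hεsq : ε * ε = 1 := by rcases hε with rfl | rfl <;> norm_num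
  have hεre : ε.im = 0 := by rcases hε with rfl | rfl <;> simp
  -- the invariance of `u(z) = F(z) + ε F(J z)`
  have hu : ∀ γ ∈ Gamma0 N, ∀ z : ℍ, F (γ • z) + ε * F (J • (γ • z)) = F z + ε * F (J • z) := by
    intro γ hγ z
    have h1 := h ⟨γ, hγ⟩
    rw [periodMap_apply, periodMap_apply] at h1
    have h2 := prim_smul_sub f hγ z
    have h3 := prim_smul_sub f (ModularCurve.Period.jConjSL_mem_Gamma0 hγ) (J • z)
    rw [J_smul_SL]
    have h4 : ((ModularCurve.Period.jConjGamma0 N ⟨γ, hγ⟩ : Gamma0 N) : SL(2, ℤ))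
      = ModularCurve.Period.jConjSL γ := rfl
    rw [h4] at h1
    linear_combination h1 + h2 + ε * h3
  have hG := good_prim f
  have hR := hG.refl (prim_hasDerivAt f)
  -- first combination
  have A1 : Good (F + ε • refl F) := hG.add (hR.smul ε)
  have d1 : ∀ τ : ℍ, HasDerivAt ((F + ε • refl F) ∘ ofComplex) (f τ + ε • (-refl f τ)) τ := by
    intro τ
    exact (prim_hasDerivAt f τ).add ((refl_hasDerivAt (prim_hasDerivAt f) τ).const_smul ε)
  have i1 : ∀ γ ∈ Gamma0 N, ∀ z : ℍ, ((F + ε • refl F) (γ • z)).re = ((F + ε • refl F) z).re := by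
    intro γ hγ z
    have := congrArg Complex.re (hu γ hγ z)
    simp only [Pi.add_apply, Pi.smul_apply, smul_eq_mul, refl, Complex.add_re, Complex.mul_re,
      Complex.conj_re, Complex.conj_im, hεre, zero_mul, sub_zero] at this ⊢
    exact this
  have z1 := A1.deriv_eq_zero d1 i1
  -- second combination
  have A2 : Good ((-Complex.I) • (F + (-ε) • refl F)) := (hG.add (hR.smul (-ε))).smul _
  have d2 : ∀ τ : ℍ, HasDerivAt (((-Complex.I) • (F + (-ε) • refl F)) ∘ ofComplex)
      ((-Complex.I) • (f τ + (-ε) • (-refl f τ))) τ := by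
    intro τ
    exact ((prim_hasDerivAt f τ).add
      ((refl_hasDerivAt (prim_hasDerivAt f) τ).const_smul (-ε))).const_smul _
  have i2 : ∀ γ ∈ Gamma0 N, ∀ z : ℍ, (((-Complex.I) • (F + (-ε) • refl F)) (γ • z)).re
      = (((-Complex.I) • (F + (-ε) • refl F)) z).re := by
    intro γ hγ z
    have := congrArg Complex.im (hu γ hγ z)
    simp only [Pi.add_apply, Pi.smul_apply, smul_eq_mul, refl, Complex.add_re, Complex.mul_re,
      Complex.add_im, Complex.mul_im, Complex.neg_re, Complex.neg_im, Complex.I_re, Complex.I_im,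
      Complex.conj_re, Complex.conj_im, hεre, zero_mul, sub_zero, neg_zero, zero_sub, mul_zero,
      add_zero, zero_add] at this ⊢
    linarith
  have z2 := A2.deriv_eq_zero d2 i2
  ext τ
  have e1 := z1 τ
  have e2 := z2 τ
  simp only [smul_eq_mul] at e1 e2
  have e3 : f τ + (-ε) * (-refl f τ) = 0 :=
    (mul_eq_zero.mp e2).resolve_left (neg_ne_zero.mpr Complex.I_ne_zero)
  have e4 : (2 : ℂ) * f τ = 0 := by linear_combination e1 + e3
  simpa using e4

end Fermat.Agent.ES
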