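import Mathlib
import Fermat.Prelude.Def_ModularCurve_PeriodMap
import Fermat.Agent.ES.Count

set_option autoImplicit false

namespace Fermat.Agent.ES

open ModularGroup ModularCurve.Period
open scoped MatrixGroups

/-! ### Upper bound for the dimension of the space of parabolic homomorphisms -/

section Cocycle

variable {Γ : Subgroup SL(2, ℤ)}

lemma rep_mem (g : SL(2, ℤ)) (x : SL(2, ℤ) ⧸ Γ) :
    (Quotient.out (g • x))⁻¹ * (g * Quotient.out x) ∈ Γ := by
  rw [← QuotientGroup.eq]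
  rw [QuotientGroup.out_eq' (g • x)]
  have h : ((g * Quotient.out x : SL(2, ℤ)) : SL(2, ℤ) ⧸ Γ) = g • ((Quotient.out x : SL(2, ℤ)) : SL(2, ℤ) ⧸ Γ) := rfl
  rw [h, QuotientGroup.out_eq' x]

/-- The element of `Γ` attached to `g` and a coset. -/
noncomputable def rep (g : SL(2, ℤ)) (x : SL(2, ℤ) ⧸ Γ) : Γ :=
  ⟨(Quotient.out (g • x))⁻¹ * (g * Quotient.out x), rep_mem g x⟩

lemma rep_mul (g h : SL(2, ℤ)) (x : SL(2, ℤ) ⧸ Γ) :
    rep (g * h) x = rep g (h • x) * rep h x := by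
  apply Subtype.ext
  simp only [rep, Subgroup.coe_mul, mul_smul]
  group

/-- The cocycle attached to a homomorphism and a function. -/
noncomputable def coc (φ : Additive Γ →+ ℂ) (v : SL(2, ℤ) ⧸ Γ → ℂ) (g : SL(2, ℤ))
    (x : SL(2, ℤ) ⧸ Γ) : ℂ :=
  φ (Additive.ofMul (rep g x)) + (v (g • x) - v x)

lemma coc_mul (φ : Additive Γ →+ ℂ) (v : SL(2, ℤ) ⧸ Γ → ℂ) (g h : SL(2, ℤ))
    (x : SL(2, ℤ) ⧸ Γ) : coc φ v (g * h) x = coc φ v g (h • x) + coc φ v h x := by
  simp only [coc, rep_mul, ofMul_mul, map_add, mul_smul]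
  ring

lemma coc_one (φ : Additive Γ →+ ℂ) (v : SL(2, ℤ) ⧸ Γ → ℂ) (x : SL(2, ℤ) ⧸ Γ) :
    coc φ v 1 x = 0 := by
  have := coc_mul φ v 1 1 x
  rw [one_mul, one_smul] at this
  linear_combination -this

lemma coc_pow (φ : Additive Γ →+ ℂ) (v : SL(2, ℤ) ⧸ Γ → ℂ) (g : SL(2, ℤ)) (m : ℕ)
    (x : SL(2, ℤ) ⧸ Γ) : coc φ v (g ^ m) x = ∑ j ∈ Finset.range m, coc φ v g (g ^ j • x) := by
  induction m with
  | zero => simp [coc_one]
  | succ m ih =>
    rw [pow_succ', coc_mul, ih, Finset.sum_range_succ, add_comm]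

lemma rep_of_fix (g : SL(2, ℤ)) (x : SL(2, ℤ) ⧸ Γ) (h : g • x = x) :
    ((rep g x : Γ) : SL(2, ℤ)) = (Quotient.out x)⁻¹ * (g * Quotient.out x) := by
  simp only [rep, h]

lemma coc_of_fix (φ : Additive Γ →+ ℂ) (v : SL(2, ℤ) ⧸ Γ → ℂ) (g : SL(2, ℤ))
    (x : SL(2, ℤ) ⧸ Γ) (h : g • x = x) : coc φ v g x = φ (Additive.ofMul (rep g x)) := by
  simp [coc, h]

lemma sum_coc_mul [Fintype (SL(2, ℤ) ⧸ Γ)] (φ : Additive Γ →+ ℂ) (v : SL(2, ℤ) ⧸ Γ → ℂ)
    (g : SL(2, ℤ)) {m : ℕ}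
    (hm : 0 < m) (h : ∀ x, coc φ v (g ^ m) x = 0) (α : SL(2, ℤ) ⧸ Γ → ℂ)
    (hα : α ∈ invSub (SL(2, ℤ) ⧸ Γ) g) :
    ∑ x, coc φ v g x * α x = 0 := by
  have hαj : ∀ (j : ℕ) x, α (g ^ j • x) = α x := by
    intro j
    induction j with
    | zero => intro x; simp
    | succ j ih => intro x; rw [pow_succ', mul_smul, hα, ih]
  have h1 : ∑ x, coc φ v (g ^ m) x * α x = 0 := by
    refine Finset.sum_eq_zero fun x _ => ?_
    rw [h x, zero_mul]
  have h2 : ∑ x, coc φ v (g ^ m) x * α x = m * ∑ x, coc φ v g x * α x := by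
    have h3 : ∀ x, coc φ v (g ^ m) x * α x
        = ∑ j ∈ Finset.range m, coc φ v g (g ^ j • x) * α (g ^ j • x) := by
      intro x
      rw [coc_pow, Finset.sum_mul]
      refine Finset.sum_congr rfl fun j _ => ?_
      rw [hαj]
    rw [Finset.sum_congr rfl fun x _ => h3 x, Finset.sum_comm]
    have h4 : ∀ j ∈ Finset.range m, ∑ x, coc φ v g (g ^ j • x) * α (g ^ j • x)
        = ∑ x, coc φ v g x * α x := by
      intro j _
      exact (MulAction.bijective (g ^ j)).sum_comp (fun x => coc φ v g x * α x)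
    rw [Finset.sum_congr rfl h4]
    simp
  rw [h2] at h1
  have hm' : (m : ℂ) ≠ 0 := by exact_mod_cast hm.ne'
  exact (mul_eq_zero.mp h1).resolve_left hm'

lemma coc_eq_zero_of_generators (φ : Additive Γ →+ ℂ) (v : SL(2, ℤ) ⧸ Γ → ℂ)
    (hS : ∀ x, coc φ v S x = 0) (hU : ∀ x, coc φ v (S * T) x = 0) (g : SL(2, ℤ)) :
    ∀ x, coc φ v g x = 0 := by
  have hT : ∀ x, coc φ v T x = 0 := by
    intro x
    have := coc_mul φ v S T x
    rw [hS, hU, zero_add] at this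
    exact this.symm
  have hg : g ∈ Subgroup.closure ({S, T} : Set SL(2, ℤ)) := by
    rw [SpecialLinearGroup.SL2Z_generators]; trivial
  induction hg using Subgroup.closure_induction with
  | mem g hg =>
    rcases hg with rfl | rfl
    · exact hS
    · exact hT
  | one => exact coc_one φ v
  | mul g h _ _ hg hh =>
    intro x
    rw [coc_mul, hg, hh, add_zero]
  | inv g _ hg =>
    intro x
    have := coc_mul φ v g⁻¹ g (g⁻¹ • x)
    rw [inv_mul_cancel, coc_one, hg, smul_inv_smul, add_zero] at this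
    exact this.symm

lemma hom_eq_zero_of_coc (φ : Additive Γ →+ ℂ) (v : SL(2, ℤ) ⧸ Γ → ℂ)
    (h : ∀ g x, coc φ v g x = 0) : φ = 0 := by
  have key : ∀ γ : Γ, φ (Additive.ofMul γ) = 0 := by
    intro γ
    set x0 : SL(2, ℤ) ⧸ Γ := ((1 : SL(2, ℤ)) : SL(2, ℤ) ⧸ Γ) with hx0
    have hr : Quotient.out x0 ∈ Γ := by
      have h1 := QuotientGroup.out_eq' x0
      rw [hx0] at h1
      have h2 := QuotientGroup.eq.mp h1
      rw [mul_one] at h2
      exact (inv_mem_iff).mp h2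
    set g : SL(2, ℤ) := Quotient.out x0 * γ * (Quotient.out x0)⁻¹ with hg
    have hgΓ : g ∈ Γ := mul_mem (mul_mem hr γ.2) (inv_mem hr)
    have hfix : g • x0 = x0 := by
      rw [hx0]
      show ((g * 1 : SL(2, ℤ)) : SL(2, ℤ) ⧸ Γ) = ((1 : SL(2, ℤ)) : SL(2, ℤ) ⧸ Γ)
      rw [mul_one, eq_comm, QuotientGroup.eq]
      simpa using hgΓ
    have h1 := h g x0
    rw [coc_of_fix φ v g x0 hfix] at h1
    have h2 : rep g x0 = γ := by
      apply Subtype.ext
      rw [rep_of_fix g x0 hfix, hg]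
      group
    rwa [h2] at h1
  ext γ
  exact key (Additive.toMul γ)

end Cocycle

section Main

variable (Γ : Subgroup SL(2, ℤ))

/-- evaluation of the cocycle at the generators, as a linear map -/
noncomputable def Psi : (parabolicHoms ℂ Γ ℂ) × (SL(2, ℤ) ⧸ Γ → ℂ) →ₗ[ℂ]
    (SL(2, ℤ) ⧸ Γ → ℂ) × (SL(2, ℤ) ⧸ Γ → ℂ) where
  toFun p := (coc p.1 p.2 S, coc p.1 p.2 (S * T))
  map_add' := by
    intro p q
    refine Prod.ext ?_ ?_ <;> funext x <;>
      simp only [coc, Prod.fst_add, Prod.snd_add, Submodule.coe_add, AddMonoidHom.add_apply,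
        Pi.add_apply] <;> ring
  map_smul' := by
    intro c p
    refine Prod.ext ?_ ?_ <;> funext x <;>
      simp only [coc, Prod.smul_fst, Prod.smul_snd, Submodule.coe_smul, AddMonoidHom.smul_apply,
        Pi.smul_apply, smul_eq_mul, RingHom.id_apply] <;> ring

variable {Γ}

lemma Psi_ker {p : (parabolicHoms ℂ Γ ℂ) × (SL(2, ℤ) ⧸ Γ → ℂ)} (hp : Psi Γ p = 0) :
    p.1 = 0 ∧ ∀ x y, p.2 x = p.2 y := by
  have h1 : ∀ x, coc p.1 p.2 S x = 0 := fun x => congrFun (congrArg Prod.fst hp) x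
  have h2 : ∀ x, coc p.1 p.2 (S * T) x = 0 := fun x => congrFun (congrArg Prod.snd hp) x
  have h3 := coc_eq_zero_of_generators (p.1 : Additive Γ →+ ℂ) p.2 h1 h2
  have h4 := hom_eq_zero_of_coc (p.1 : Additive Γ →+ ℂ) p.2 h3
  refine ⟨Subtype.ext h4, fun x y => ?_⟩
  obtain ⟨g, hg⟩ := MulAction.exists_smul_eq SL(2, ℤ) y x
  have h5 := h3 g y
  simp only [coc, h4, AddMonoidHom.zero_apply, zero_add, hg] at h5
  exact sub_eq_zero.mp h5

instance parabolicHoms_finiteDimensional [Finite (SL(2, ℤ) ⧸ Γ)] :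
    FiniteDimensional ℂ (parabolicHoms ℂ Γ ℂ) := by
  refine FiniteDimensional.of_injective
    ((Psi Γ).comp (LinearMap.inl ℂ (parabolicHoms ℂ Γ ℂ) (SL(2, ℤ) ⧸ Γ → ℂ))) ?_
  rw [← LinearMap.ker_eq_bot, LinearMap.ker_eq_bot']
  intro φ hφ
  exact (Psi_ker hφ).1

variable [Fintype (SL(2, ℤ) ⧸ Γ)]

/-- the standard pairing -/
noncomputable def Bform (X : Type*) [Fintype X] : LinearMap.BilinForm ℂ ((X → ℂ) × (X → ℂ)) :=
  LinearMap.mk₂ ℂ (fun p q => ∑ x, p.1 x * q.1 x + ∑ x, p.2 x * q.2 x)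
    (by intro a b c; simp only [Prod.fst_add, Prod.snd_add, Pi.add_apply, add_mul,
          Finset.sum_add_distrib]; ring)
    (by intro c a b; simp only [Prod.smul_fst, Prod.smul_snd, Pi.smul_apply, smul_eq_mul,
          mul_assoc, ← Finset.mul_sum, mul_add])
    (by intro a b c; simp only [Prod.fst_add, Prod.snd_add, Pi.add_apply, mul_add,
          Finset.sum_add_distrib]; ring)
    (by
      intro c a b
      simp only [Prod.smul_fst, Prod.smul_snd, Pi.smul_apply, smul_eq_mul, mul_add,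
        Finset.mul_sum]
      congr 1 <;> refine Finset.sum_congr rfl fun x _ => ?_ <;> ring)

lemma Bform_apply {X : Type*} [Fintype X] (p q : (X → ℂ) × (X → ℂ)) :
    Bform X p q = ∑ x, p.1 x * q.1 x + ∑ x, p.2 x * q.2 x := rfl

lemma Bform_symm {X : Type*} [Fintype X] : (Bform X).IsSymm := by
  constructor
  intro p q
  simp only [Bform_apply, RingHom.id_apply]
  congr 1 <;> refine Finset.sum_congr rfl fun x _ => mul_comm _ _

lemma Bform_nondeg {X : Type*} [Fintype X] : (Bform X).Nondegenerate := by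
  classical
  constructor
  · intro p hp
    refine Prod.ext ?_ ?_
    · funext x
      have := hp (Pi.single x 1, 0)
      rw [Bform_apply] at this
      simpa [Pi.single_apply] using this
    · funext x
      have := hp (0, Pi.single x 1)
      rw [Bform_apply] at this
      simpa [Pi.single_apply] using this
  · intro p hp
    refine Prod.ext ?_ ?_
    · funext x
      have := hp (Pi.single x 1, 0)
      rw [Bform_apply] at this
      simpa [Pi.single_apply] using this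
    · funext x
      have := hp (0, Pi.single x 1)
      rw [Bform_apply] at this
      simpa [Pi.single_apply] using this

/-- the relations space -/
noncomputable def Xi (X : Type*) [MulAction SL(2, ℤ) X] :
    (invSub X S) × (invSub X (S * T)) × (invSub X T) →ₗ[ℂ] (X → ℂ) × (X → ℂ) where
  toFun p := ((p.1 : X → ℂ) - p.2.2, (p.2.1 : X → ℂ) + p.2.2)
  map_add' := by
    intro p q
    refine Prod.ext ?_ ?_ <;> funext x <;>
      simp only [Prod.fst_add, Prod.snd_add, Submodule.coe_add, Pi.add_apply, Pi.sub_apply] <;> ring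
  map_smul' := by
    intro c p
    refine Prod.ext ?_ ?_ <;> funext x <;>
      simp only [Prod.smul_fst, Prod.smul_snd, Submodule.coe_smul, Pi.add_apply, Pi.sub_apply,
        Pi.smul_apply, smul_eq_mul, RingHom.id_apply] <;> ring

lemma invSub_const {X : Type*} [MulAction SL(2, ℤ) X] [MulAction.IsPretransitive SL(2, ℤ) X]
    {v : X → ℂ} (hS : v ∈ invSub X S) (hT : v ∈ invSub X T) (x y : X) : v x = v y := by
  have key : ∀ g : SL(2, ℤ), ∀ x, v (g • x) = v x := by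
    intro g
    have hg : g ∈ Subgroup.closure ({S, T} : Set SL(2, ℤ)) := by
      rw [SpecialLinearGroup.SL2Z_generators]; trivial
    induction hg using Subgroup.closure_induction with
    | mem g hg =>
      rcases hg with rfl | rfl
      · exact hS
      · exact hT
    | one => intro x; rw [one_smul]
    | mul g h _ _ hg hh => intro x; rw [mul_smul, hg, hh]
    | inv g _ hg => intro x; rw [← hg (g⁻¹ • x), smul_inv_smul]
  obtain ⟨g, rfl⟩ := MulAction.exists_smul_eq SL(2, ℤ) y x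
  exact key g y

lemma finrank_Xi_ker {X : Type*} [Fintype X] [Nonempty X] [MulAction SL(2, ℤ) X]
    [MulAction.IsPretransitive SL(2, ℤ) X] :
    Module.finrank ℂ (LinearMap.ker (Xi X)) ≤ 1 := by
  let f : (LinearMap.ker (Xi X)) →ₗ[ℂ] ℂ :=
    (LinearMap.proj (Classical.arbitrary X)).comp
      ((invSub X T).subtype.comp ((LinearMap.snd ℂ _ _).comp
        ((LinearMap.snd ℂ _ _).comp (LinearMap.ker (Xi X)).subtype)))
  have key : ∀ (α : invSub X S) (β : invSub X (S * T)) (l : invSub X T),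
      Xi X (α, β, l) = 0 → (α : X → ℂ) = l ∧ (β : X → ℂ) = -l := by
    intro α β l hp
    refine ⟨?_, ?_⟩
    · have := congrArg Prod.fst hp
      simpa [Xi, sub_eq_zero] using this
    · have := congrArg Prod.snd hp
      simp only [Xi, LinearMap.coe_mk, AddHom.coe_mk] at this
      exact eq_neg_of_add_eq_zero_left this
  have hf : Function.Injective f := by
    rintro ⟨⟨α, β, l⟩, hp⟩ ⟨⟨α', β', l'⟩, hp'⟩ h0
    obtain ⟨h1, h2⟩ := key α β l (LinearMap.mem_ker.mp hp)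
    obtain ⟨h1', h2'⟩ := key α' β' l' (LinearMap.mem_ker.mp hp')
    have h3 : (l : X → ℂ) (Classical.arbitrary X) = (l' : X → ℂ) (Classical.arbitrary X) := h0
    have h4 : (l : X → ℂ) = l' := by
      funext x
      rw [invSub_const (h1 ▸ α.2) l.2 x (Classical.arbitrary X), h3,
        invSub_const (h1' ▸ α'.2) l'.2 x (Classical.arbitrary X)]
    apply Subtype.ext
    refine Prod.ext (Subtype.ext ?_) (Prod.ext (Subtype.ext ?_) (Subtype.ext ?_))
    · show (α : X → ℂ) = α'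
      rw [h1, h1', h4]
    · show (β : X → ℂ) = β'
      rw [h2, h2', h4]
    · exact h4
  have := LinearMap.finrank_le_finrank_of_injective hf
  simpa using this

lemma S_pow_four : (S : SL(2, ℤ)) ^ 4 = 1 := by decide

lemma ST_pow_six : (S * T : SL(2, ℤ)) ^ 6 = 1 := by decide

lemma trace_conj (g h : SL(2, ℤ)) :
    ((h⁻¹ * (g * h) : SL(2, ℤ)) : Matrix (Fin 2) (Fin 2) ℤ).trace
      = (g : Matrix (Fin 2) (Fin 2) ℤ).trace := by
  rw [Matrix.SpecialLinearGroup.coe_mul, Matrix.trace_mul_comm, ← Matrix.SpecialLinearGroup.coe_mul]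
  congr 2
  group

lemma orth (φ : parabolicHoms ℂ Γ ℂ) (v : SL(2, ℤ) ⧸ Γ → ℂ) :
    (∀ α ∈ invSub (SL(2, ℤ) ⧸ Γ) S, ∑ x, coc φ v S x * α x = 0) ∧
    (∀ α ∈ invSub (SL(2, ℤ) ⧸ Γ) (S * T), ∑ x, coc φ v (S * T) x * α x = 0) ∧
    (∀ α ∈ invSub (SL(2, ℤ) ⧸ Γ) T, ∑ x, coc φ v T x * α x = 0) := by
  refine ⟨fun α hα => ?_, fun α hα => ?_, fun α hα => ?_⟩
  · refine sum_coc_mul _ _ S (m := 4) (by norm_num) (fun x => ?_) α hα
    rw [S_pow_four, coc_one]
  · refine sum_coc_mul _ _ (S * T) (m := 6) (by norm_num) (fun x => ?_) α hα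
    rw [ST_pow_six, coc_one]
  · obtain ⟨h, hh, hT⟩ := exists_T_pow (SL(2, ℤ) ⧸ Γ)
    refine sum_coc_mul _ _ T (m := h) hh (fun x => ?_) α hα
    rw [coc_of_fix _ _ _ _ (hT x)]
    apply φ.2
    rw [rep_of_fix _ _ (hT x), trace_conj]
    have h1 : ((T ^ h : SL(2, ℤ)) : Matrix (Fin 2) (Fin 2) ℤ) = !![1, (h : ℤ); 0, 1] := by
      have := coe_T_zpow (h : ℤ)
      simpa using this
    rw [h1]
    simp [Matrix.trace_fin_two]

/-- Upper bound for the dimension of the space of parabolic homomorphisms. -/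
theorem parabolic_upper_bound :
    Module.finrank ℂ (parabolicHoms ℂ Γ ℂ)
      + Module.finrank ℂ (invSub (SL(2, ℤ) ⧸ Γ) S)
      + Module.finrank ℂ (invSub (SL(2, ℤ) ⧸ Γ) (S * T))
      + Module.finrank ℂ (invSub (SL(2, ℤ) ⧸ Γ) T) ≤ Fintype.card (SL(2, ℤ) ⧸ Γ) + 2 := by
  have hle : LinearMap.range (Psi Γ) ≤ (Bform (SL(2, ℤ) ⧸ Γ)).orthogonal (LinearMap.range (Xi (SL(2, ℤ) ⧸ Γ))) := by
    rintro _ ⟨⟨φ, v⟩, rfl⟩
    rw [LinearMap.BilinForm.mem_orthogonal_iff]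
    rintro _ ⟨⟨α, β, l⟩, rfl⟩
    obtain ⟨o1, o2, o3⟩ := orth φ v
    show Bform (SL(2, ℤ) ⧸ Γ) _ _ = 0
    rw [Bform_apply]
    simp only [Psi, Xi, LinearMap.coe_mk, AddHom.coe_mk, Pi.sub_apply, Pi.add_apply]
    have e1 := o1 α α.2
    have e2 := o2 β β.2
    have e3 := o3 l l.2
    have e4 : ∑ x, coc (φ : Additive Γ →+ ℂ) v (S * T) x * (l : SL(2, ℤ) ⧸ Γ → ℂ) x
        = ∑ x, coc (φ : Additive Γ →+ ℂ) v S x * (l : SL(2, ℤ) ⧸ Γ → ℂ) x := by
      have h1 : ∀ x : SL(2, ℤ) ⧸ Γ, coc (φ : Additive Γ →+ ℂ) v (S * T) x * (l : SL(2, ℤ) ⧸ Γ → ℂ) x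
          = coc (φ : Additive Γ →+ ℂ) v S (T • x) * (l : SL(2, ℤ) ⧸ Γ → ℂ) (T • x)
            + coc (φ : Additive Γ →+ ℂ) v T x * (l : SL(2, ℤ) ⧸ Γ → ℂ) x := by
        intro x
        rw [coc_mul, l.2 x]; ring
      rw [Finset.sum_congr rfl fun x _ => h1 x, Finset.sum_add_distrib, e3, add_zero]
      exact (MulAction.bijective (T : SL(2, ℤ))).sum_comp
        (fun x => coc (φ : Additive Γ →+ ℂ) v S x * (l : SL(2, ℤ) ⧸ Γ → ℂ) x)
    have h2 : ∑ x, ((α : SL(2, ℤ) ⧸ Γ → ℂ) x - (l : SL(2, ℤ) ⧸ Γ → ℂ) x) * coc (φ : Additive Γ →+ ℂ) v S x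
        = ∑ x, coc (φ : Additive Γ →+ ℂ) v S x * (α : SL(2, ℤ) ⧸ Γ → ℂ) x
          - ∑ x, coc (φ : Additive Γ →+ ℂ) v S x * (l : SL(2, ℤ) ⧸ Γ → ℂ) x := by
      rw [← Finset.sum_sub_distrib]
      refine Finset.sum_congr rfl fun x _ => ?_
      ring
    have h3 : ∑ x, ((β : SL(2, ℤ) ⧸ Γ → ℂ) x + (l : SL(2, ℤ) ⧸ Γ → ℂ) x) * coc (φ : Additive Γ →+ ℂ) v (S * T) x
        = ∑ x, coc (φ : Additive Γ →+ ℂ) v (S * T) x * (β : SL(2, ℤ) ⧸ Γ → ℂ) x
          + ∑ x, coc (φ : Additive Γ →+ ℂ) v (S * T) x * (l : SL(2, ℤ) ⧸ Γ → ℂ) x := by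
      rw [← Finset.sum_add_distrib]
      refine Finset.sum_congr rfl fun x _ => ?_
      ring
    rw [h2, h3, e1, e2, e4]
    ring
  have h1 := Submodule.finrank_mono hle
  have h2 := LinearMap.BilinForm.finrank_orthogonal (Bform_nondeg (X := SL(2, ℤ) ⧸ Γ))
    (LinearMap.range (Xi (SL(2, ℤ) ⧸ Γ)))
  have h3 := LinearMap.finrank_range_add_finrank_ker (Psi Γ)
  have h4 := LinearMap.finrank_range_add_finrank_ker (Xi (SL(2, ℤ) ⧸ Γ))
  have h5 := finrank_Xi_ker (X := SL(2, ℤ) ⧸ Γ)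
  have h6 : Module.finrank ℂ (LinearMap.ker (Psi Γ)) ≤ 1 := by
    let x0 : SL(2, ℤ) ⧸ Γ := ((1 : SL(2, ℤ)) : SL(2, ℤ) ⧸ Γ)
    let f : (LinearMap.ker (Psi Γ)) →ₗ[ℂ] ℂ :=
      (LinearMap.proj x0).comp ((LinearMap.snd ℂ _ _).comp (LinearMap.ker (Psi Γ)).subtype)
    have hf : Function.Injective f := by
      rintro ⟨⟨φ, v⟩, hp⟩ ⟨⟨φ', v'⟩, hp'⟩ h0
      obtain ⟨e1, e2⟩ := Psi_ker (LinearMap.mem_ker.mp hp)
      obtain ⟨e1', e2'⟩ := Psi_ker (LinearMap.mem_ker.mp hp')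
      apply Subtype.ext
      refine Prod.ext (e1.trans e1'.symm) (funext fun x => ?_)
      have h7 : v x0 = v' x0 := h0
      have h8 : v x = v x0 := e2 x x0
      have h9 : v' x = v' x0 := e2' x x0
      show v x = v' x
      rw [h8, h9, h7]
    have := LinearMap.finrank_le_finrank_of_injective hf
    simpa using this
  have h7 := Submodule.finrank_le (LinearMap.range (Xi (SL(2, ℤ) ⧸ Γ)))
  simp only [Module.finrank_prod, Module.finrank_fintype_fun_eq_card] at h2 h3 h4 h7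
  omega

end Main

end Fermat.Agent.ES
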