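import Mathlib
import Fermat.Agent.ES.Bound
import Fermat.Agent.ES.ParBound
import Fermat.Agent.ES.Exist
import Fermat.Agent.ES.MaxPrinciple
import Fermat.Prelude.Def_ModularCurve_PeriodHomPair

set_option autoImplicit false
set_option maxSynthPendingDepth 3

namespace Fermat.Agent.ES

open UpperHalfPlane Filter Topology ModularForm Matrix.SpecialLinearGroup ModularGroup
open CongruenceSubgroup
open ModularCurve.Period
open scoped MatrixGroups Manifold

variable (N : ℕ) [NeZero N]

/-- The quotient set -/
abbrev XN : Type := SL(2, ℤ) ⧸ Gamma0 N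

noncomputable instance : Fintype (XN N) := Fintype.ofFinite _

/-- base point -/
def x0 : XN N := ((1 : SL(2, ℤ)) : SL(2, ℤ) ⧸ Gamma0 N)

lemma smul_x0 {g : SL(2, ℤ)} (hg : g ∈ Gamma0 N) : g • x0 N = x0 N := by
  show ((g * 1 : SL(2, ℤ)) : SL(2, ℤ) ⧸ Gamma0 N) = ((1 : SL(2, ℤ)) : SL(2, ℤ) ⧸ Gamma0 N)
  rw [mul_one, QuotientGroup.eq]
  simpa using (Gamma0 N).inv_mem hg

/-- evaluation of a vector valued form at the base point -/
noncomputable def evalCusp (F : cuspV (XN N)) : CuspForm (Gamma0 N) 2 where
  toFun := F.1 (x0 N)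
  slash_action_eq' := by
    rintro _ ⟨g, hg, rfl⟩
    have := F.2.1.slash (x0 N) g
    rw [smul_x0 N ((Gamma0 N).inv_mem hg)] at this
    exact this
  holo' := F.2.1.holo _
  zero_at_cusps' := by
    intro c hc
    rw [Subgroup.IsArithmetic.isCusp_iff_isCusp_SL2Z] at hc
    rw [OnePoint.isZeroAt_iff_forall_SL2Z hc]
    intro γ _
    have h1 : F.1 (x0 N) ∣[(2 : ℤ)] γ = F.1 (γ⁻¹ • x0 N) := F.2.1.slash (x0 N) γ
    rw [h1]
    exact F.2.2 _

/-- linear version -/
noncomputable def evalCuspL : cuspV (XN N) →ₗ[ℂ] CuspForm (Gamma0 N) 2 where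
  toFun := evalCusp N
  map_add' F G := by
    ext z
    rfl
  map_smul' c F := by
    ext z
    rfl

lemma evalCuspL_injective : Function.Injective (evalCuspL N) := by
  rw [injective_iff_map_eq_zero]
  intro F hF
  apply Subtype.ext
  apply F.2.1.eq_zero_of_exists
  refine ⟨x0 N, ?_⟩
  funext z
  have := DFunLike.congr_fun hF z
  exact this

lemma neg_one_smul (x : XN N) : (-1 : SL(2, ℤ)) • x = x := by
  obtain ⟨g, rfl⟩ := QuotientGroup.mk_surjective x
  show (((-1 : SL(2, ℤ)) * g : SL(2, ℤ)) : SL(2, ℤ) ⧸ Gamma0 N) = (g : SL(2, ℤ) ⧸ Gamma0 N)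
  rw [QuotientGroup.eq]
  have : ((-1 : SL(2, ℤ)) * g)⁻¹ * g = -1 := by
    rw [neg_one_mul, inv_neg, neg_mul, inv_mul_cancel]
  rw [this, Gamma0_mem]
  simp

/-- the periods and the twisted periods. -/
theorem periodHomPair_injective : Function.Injective (ModularCurve.periodHomPair N) := by
  obtain ⟨pml, hpml, hdef⟩ := ModularCurve.periodHomPair_def N H16.existsPeriodMapLinear
  rw [hdef, injective_iff_map_eq_zero]
  rintro ⟨f, g⟩ h
  simp only [LinearMap.coprod_apply, LinearMap.comp_apply, LinearMap.add_apply,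
    LinearMap.sub_apply, LinearMap.id_apply, hpml] at h
  have h2 := congrArg (charInvolution N ℂ ℂ) h
  rw [map_add, map_add, map_sub, charInvolution_charInvolution, charInvolution_charInvolution,
    map_zero] at h2
  have hf : ∀ γ : Gamma0 N, ModularCurve.periodMap N f (Additive.ofMul γ)
      + 1 * ModularCurve.periodMap N f (Additive.ofMul (jConjGamma0 N γ)) = 0 := by
    intro γ
    have e1 := DFunLike.congr_fun h (Additive.ofMul γ)
    have e2 := DFunLike.congr_fun h2 (Additive.ofMul γ)
    simp only [AddMonoidHom.add_apply, AddMonoidHom.sub_apply, charInvolution_apply,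
      AddMonoidHom.zero_apply, toMul_ofMul] at e1 e2
    linear_combination (e1 + e2) / 2
  have hg : ∀ γ : Gamma0 N, ModularCurve.periodMap N g (Additive.ofMul γ)
      + (-1) * ModularCurve.periodMap N g (Additive.ofMul (jConjGamma0 N γ)) = 0 := by
    intro γ
    have e1 := DFunLike.congr_fun h (Additive.ofMul γ)
    have e2 := DFunLike.congr_fun h2 (Additive.ofMul γ)
    simp only [AddMonoidHom.add_apply, AddMonoidHom.sub_apply, charInvolution_apply,
      AddMonoidHom.zero_apply, toMul_ofMul] at e1 e2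
    linear_combination (e1 - e2) / 2
  have f0 := eq_zero_of_eigen f 1 (Or.inl rfl) hf
  have g0 := eq_zero_of_eigen g (-1) (Or.inr rfl) hg
  rw [f0, g0]
  rfl

theorem periodHomPair_range_le :
    LinearMap.range (ModularCurve.periodHomPair N) ≤ parabolicHoms ℂ (Gamma0 N) ℂ := by
  obtain ⟨pml, hpml, hdef⟩ := ModularCurve.periodHomPair_def N H16.existsPeriodMapLinear
  rw [hdef]
  rintro _ ⟨⟨f, g⟩, rfl⟩
  simp only [LinearMap.coprod_apply, LinearMap.comp_apply, LinearMap.add_apply,
    LinearMap.sub_apply, LinearMap.id_apply, hpml]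
  have hf := H16.periodMap_mem_parabolicHoms f
  have hg := H16.periodMap_mem_parabolicHoms g
  exact add_mem (add_mem hf (charInvolution_mem_parabolicHoms N ℂ ℂ hf))
    (sub_mem hg (charInvolution_mem_parabolicHoms N ℂ ℂ hg))

instance finiteDimensional_pair :
    FiniteDimensional ℂ (CuspForm (Gamma0 N) 2 × CuspForm (Gamma0 N) 2) := by
  let φ : (CuspForm (Gamma0 N) 2 × CuspForm (Gamma0 N) 2) →ₗ[ℂ] parabolicHoms ℂ (Gamma0 N) ℂ :=
    (ModularCurve.periodHomPair N).codRestrict _
      (fun c => periodHomPair_range_le N ⟨c, rfl⟩)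
  have hφ : Function.Injective φ := by
    intro a b hab
    exact periodHomPair_injective N (congrArg Subtype.val hab)
  exact Module.Finite.of_injective φ hφ

instance finiteDimensional_cuspForm : FiniteDimensional ℂ (CuspForm (Gamma0 N) 2) :=
  Module.Finite.of_injective
    (LinearMap.inl ℂ (CuspForm (Gamma0 N) 2) (CuspForm (Gamma0 N) 2))
    LinearMap.inl_injective

instance finiteDimensional_cuspV : FiniteDimensional ℂ (cuspV (XN N)) :=
  Module.Finite.of_injective (evalCuspL N) (evalCuspL_injective N)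

lemma finrank_cuspV_le :
    Module.finrank ℂ (cuspV (XN N)) ≤ Module.finrank ℂ (CuspForm (Gamma0 N) 2) :=
  LinearMap.finrank_le_finrank_of_injective (evalCuspL_injective N)

lemma finrank_range :
    Module.finrank ℂ (LinearMap.range (ModularCurve.periodHomPair N))
      = 2 * Module.finrank ℂ (CuspForm (Gamma0 N) 2) := by
  rw [LinearMap.finrank_range_of_inj (periodHomPair_injective N), Module.finrank_prod]
  ring

lemma finrank_range_le :
    2 * Module.finrank ℂ (CuspForm (Gamma0 N) 2)
      ≤ Module.finrank ℂ (parabolicHoms ℂ (Gamma0 N) ℂ) := by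
  rw [← finrank_range]
  exact Submodule.finrank_mono (periodHomPair_range_le N)

/-- the lower bound. -/
theorem lower :
    Fintype.card (XN N) + 2 ≤ 2 * Module.finrank ℂ (CuspForm (Gamma0 N) 2)
      + Module.finrank ℂ (invSub (XN N) S) + Module.finrank ℂ (invSub (XN N) (S * T))
      + Module.finrank ℂ (invSub (XN N) T) := by
  classical
  have : Nonempty (XN N) := ⟨x0 N⟩
  have h1 := FormSys.lower_bound (X := XN N) (neg_one_smul N) (nonempty_system N)
  have h2 := finrank_cuspV_le N
  omega

/-- the upper bound. -/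
theorem upper :
    Module.finrank ℂ (parabolicHoms ℂ (Gamma0 N) ℂ) + Module.finrank ℂ (invSub (XN N) S)
      + Module.finrank ℂ (invSub (XN N) (S * T))
      + Module.finrank ℂ (invSub (XN N) T) ≤ Fintype.card (XN N) + 2 :=
  parabolic_upper_bound (Γ := Gamma0 N)

/-- **Dimension formula** for the weight two cusp forms on `Γ₀(N)`. -/
theorem dimension_formula :
    2 * Module.finrank ℂ (CuspForm (Gamma0 N) 2)
      + Module.finrank ℂ (invSub (XN N) S) + Module.finrank ℂ (invSub (XN N) (S * T))
      + Module.finrank ℂ (invSub (XN N) T) = Fintype.card (XN N) + 2 := by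
  have h1 := lower N
  have h2 := finrank_range_le N
  have h3 := upper N
  omega

theorem eichlerShimura :
    Function.Injective (ModularCurve.periodHomPair N)
      ∧ LinearMap.range (ModularCurve.periodHomPair N) = parabolicHoms ℂ (Gamma0 N) ℂ := by
  refine ⟨periodHomPair_injective N, ?_⟩
  apply Submodule.eq_of_le_of_finrank_le (periodHomPair_range_le N)
  rw [finrank_range]
  have h1 := lower N
  have h3 := upper N
  omega

end Fermat.Agent.ES
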